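/-
LR-CSP (helper4): formal Steinberg calculus for `SL₂`-type relations.
A group `Y` with two additive families `yp, ym : A → Y` (`A` a commutative ring) and the relation
(B') `w(u) yp(t) w(u)⁻¹ = ym(-u⁻² t)` for all units `u`, where `w(u) = yp(u) ym(-u⁻¹) yp(u)`.
We derive the standard consequences: `w(u)w(v)w(u)⁻¹ = w(u²v⁻¹)`, `h(u) = w(u)w(1)⁻¹` scales
`yp, ym`, `h(u)h(v)h(u)⁻¹ = h(u²v)h(u²)⁻¹`, `w(1)h(u)w(1)⁻¹ = h(u⁻¹)` and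
`w(u) w(1-u) = w(u/(1-u)) w(1)`.
-/
import Mathlib

set_option autoImplicit false

namespace Fermat.Agent.LR

/-- Steinberg data over `A` in the group `Y`. -/
structure LrsData (A : Type*) [CommRing A] (Y : Type*) [Group Y] where
  yp : A → Y
  ym : A → Y
  yp_add : ∀ s t, yp (s + t) = yp s * yp t
  ym_add : ∀ s t, ym (s + t) = ym s * ym t
  rel : ∀ (u : Aˣ) (t : A),
    (yp u * ym (-(↑u⁻¹ : A)) * yp u) * yp t * (yp u * ym (-(↑u⁻¹ : A)) * yp u)⁻¹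
      = ym (-((↑u⁻¹ : A) ^ 2) * t)

namespace LrsData

variable {A : Type*} [CommRing A] {Y : Type*} [Group Y] (D : LrsData A Y)

theorem yp_zero : D.yp 0 = 1 := by
  have := D.yp_add 0 0
  rw [add_zero] at this
  exact (mul_eq_left.1 this.symm)

theorem ym_zero : D.ym 0 = 1 := by
  have := D.ym_add 0 0
  rw [add_zero] at this
  exact (mul_eq_left.1 this.symm)

theorem yp_neg (t : A) : D.yp (-t) = (D.yp t)⁻¹ := by
  apply eq_inv_of_mul_eq_one_left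
  rw [← D.yp_add, neg_add_cancel, D.yp_zero]

theorem ym_neg (t : A) : D.ym (-t) = (D.ym t)⁻¹ := by
  apply eq_inv_of_mul_eq_one_left
  rw [← D.ym_add, neg_add_cancel, D.ym_zero]

theorem yp_sub (s t : A) : D.yp (s - t) = D.yp s * (D.yp t)⁻¹ := by
  rw [sub_eq_add_neg, D.yp_add, D.yp_neg]

theorem ym_sub (s t : A) : D.ym (s - t) = D.ym s * (D.ym t)⁻¹ := by
  rw [sub_eq_add_neg, D.ym_add, D.ym_neg]

theorem yp_comm (s t : A) : D.yp s * D.yp t = D.yp t * D.yp s := by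
  rw [← D.yp_add, ← D.yp_add, add_comm]

theorem ym_comm (s t : A) : D.ym s * D.ym t = D.ym t * D.ym s := by
  rw [← D.ym_add, ← D.ym_add, add_comm]

/-- the Weyl-type element `w(u) = yp(u) ym(-u⁻¹) yp(u)`. -/
def w (u : Aˣ) : Y := D.yp u * D.ym (-(↑u⁻¹ : A)) * D.yp u

theorem w_def (u : Aˣ) : D.w u = D.yp u * D.ym (-(↑u⁻¹ : A)) * D.yp u := rfl

theorem w_inv (u : Aˣ) : (D.w u)⁻¹ = D.w (-u) := by
  rw [w_def, w_def, mul_inv_rev, mul_inv_rev, ← D.yp_neg, ← D.ym_neg, inv_neg, Units.val_neg,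
    Units.val_neg, mul_assoc]

theorem relp (u : Aˣ) (t : A) :
    D.w u * D.yp t * (D.w u)⁻¹ = D.ym (-((↑u⁻¹ : A) ^ 2) * t) := D.rel u t

theorem relp' (u : Aˣ) (t : A) :
    (D.w u)⁻¹ * D.yp t * D.w u = D.ym (-((↑u⁻¹ : A) ^ 2) * t) := by
  have h := D.relp (-u) t
  rw [← D.w_inv, inv_inv] at h
  rw [h, inv_neg, Units.val_neg, neg_sq]

theorem relm (u : Aˣ) (t : A) :
    D.w u * D.ym t * (D.w u)⁻¹ = D.yp (-((u : A) ^ 2) * t) := by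
  have h := D.relp' u (-((u : A) ^ 2) * t)
  have e : -((↑u⁻¹ : A) ^ 2) * (-((u : A) ^ 2) * t) = t := by
    have h1 : (u : A) * (↑u⁻¹ : A) = 1 := u.mul_inv
    linear_combination (t * ((u : A) * (↑u⁻¹ : A) + 1)) * h1
  rw [e] at h
  rw [← h]
  group

theorem relm' (u : Aˣ) (t : A) :
    (D.w u)⁻¹ * D.ym t * D.w u = D.yp (-((u : A) ^ 2) * t) := by
  have h := D.relm (-u) t
  rw [← D.w_inv, inv_inv] at h
  rw [h, Units.val_neg, neg_sq]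

/-- second expression of `w(u)`. -/
theorem w_eq' (u : Aˣ) : D.w u = D.ym (-(↑u⁻¹ : A)) * D.yp u * D.ym (-(↑u⁻¹ : A)) := by
  have h1 : (u : A) * (↑u⁻¹ : A) = 1 := u.mul_inv
  have e1 : D.w u * D.yp u * (D.w u)⁻¹ = D.ym (-(↑u⁻¹ : A)) := by
    rw [D.relp]
    congr 1
    linear_combination (-(↑u⁻¹ : A)) * h1
  have e2 : D.w u * D.ym (-(↑u⁻¹ : A)) * (D.w u)⁻¹ = D.yp u := by
    rw [D.relm]
    congr 1
    linear_combination (u : A) * h1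
  calc D.w u = D.w u * D.w u * (D.w u)⁻¹ := by group
    _ = D.w u * (D.yp u * D.ym (-(↑u⁻¹ : A)) * D.yp u) * (D.w u)⁻¹ := rfl
    _ = (D.w u * D.yp u * (D.w u)⁻¹) * (D.w u * D.ym (-(↑u⁻¹ : A)) * (D.w u)⁻¹) *
        (D.w u * D.yp u * (D.w u)⁻¹) := by group
    _ = _ := by rw [e1, e2]

theorem w_conj (u v : Aˣ) : D.w u * D.w v * (D.w u)⁻¹ = D.w (u ^ 2 * v⁻¹) := by
  have h1 : (u : A) * (↑u⁻¹ : A) = 1 := u.mul_inv
  have h2 : (v : A) * (↑v⁻¹ : A) = 1 := v.mul_inv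
  have e1 : D.w u * D.yp v * (D.w u)⁻¹ = D.ym (-(↑(u ^ 2 * v⁻¹)⁻¹ : A)) := by
    rw [D.relp]
    have e : ((u ^ 2 * v⁻¹)⁻¹ : Aˣ) = u⁻¹ ^ 2 * v := by
      rw [mul_inv_rev, inv_inv, inv_pow, mul_comm]
    rw [e]
    congr 1
    push_cast
    ring
  have e2 : D.w u * D.ym (-(↑v⁻¹ : A)) * (D.w u)⁻¹ = D.yp (↑(u ^ 2 * v⁻¹) : A) := by
    rw [D.relm]
    congr 1
    push_cast
    ring
  calc D.w u * D.w v * (D.w u)⁻¹
      = (D.w u * D.yp v * (D.w u)⁻¹) * (D.w u * D.ym (-(↑v⁻¹ : A)) * (D.w u)⁻¹) *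
        (D.w u * D.yp v * (D.w u)⁻¹) := by
        rw [w_def D v]
        group
    _ = D.w (u ^ 2 * v⁻¹) := by rw [e1, e2, ← D.w_eq']


/-! ### the torus elements `h(u) = w(u) w(1)⁻¹` -/

/-- `h(u) = w(u) w(1)⁻¹`. -/
def h (u : Aˣ) : Y := D.w u * (D.w 1)⁻¹

theorem h_def (u : Aˣ) : D.h u = D.w u * (D.w 1)⁻¹ := rfl

theorem h_one : D.h 1 = 1 := by rw [h_def, mul_inv_cancel]

theorem w_eq_h (u : Aˣ) : D.w u = D.h u * D.w 1 := by rw [h_def]; group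

theorem w1_yp (t : A) : D.w 1 * D.yp t * (D.w 1)⁻¹ = D.ym (-t) := by
  rw [D.relp]; congr 1; simp

theorem w1_ym (t : A) : D.w 1 * D.ym t * (D.w 1)⁻¹ = D.yp (-t) := by
  rw [D.relm]; congr 1; simp

theorem w1_yp' (t : A) : (D.w 1)⁻¹ * D.yp t * D.w 1 = D.ym (-t) := by
  rw [D.relp']; congr 1; simp

theorem w1_ym' (t : A) : (D.w 1)⁻¹ * D.ym t * D.w 1 = D.yp (-t) := by
  rw [D.relm']; congr 1; simp

theorem h_yp (u : Aˣ) (t : A) : D.h u * D.yp t * (D.h u)⁻¹ = D.yp ((u : A) ^ 2 * t) := by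
  calc D.h u * D.yp t * (D.h u)⁻¹
      = D.w u * ((D.w 1)⁻¹ * D.yp t * D.w 1) * (D.w u)⁻¹ := by rw [h_def]; group
    _ = D.yp ((u : A) ^ 2 * t) := by
        rw [D.w1_yp', D.relm]; congr 1; ring

theorem h_ym (u : Aˣ) (t : A) : D.h u * D.ym t * (D.h u)⁻¹ = D.ym ((↑u⁻¹ : A) ^ 2 * t) := by
  calc D.h u * D.ym t * (D.h u)⁻¹
      = D.w u * ((D.w 1)⁻¹ * D.ym t * D.w 1) * (D.w u)⁻¹ := by rw [h_def]; group
    _ = D.ym ((↑u⁻¹ : A) ^ 2 * t) := by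
        rw [D.w1_ym', D.relp]; congr 1; ring

theorem h_w (u v : Aˣ) : D.h u * D.w v * (D.h u)⁻¹ = D.w (u ^ 2 * v) := by
  have e1 : D.h u * D.yp v * (D.h u)⁻¹ = D.yp (↑(u ^ 2 * v) : A) := by
    rw [D.h_yp, Units.val_mul, Units.val_pow_eq_pow_val]
  have e2 : D.h u * D.ym (-(↑v⁻¹ : A)) * (D.h u)⁻¹ = D.ym (-(↑(u ^ 2 * v)⁻¹ : A)) := by
    rw [D.h_ym]
    have e : ((u ^ 2 * v)⁻¹ : Aˣ) = u⁻¹ ^ 2 * v⁻¹ := by
      rw [mul_inv_rev, inv_pow, mul_comm]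
    rw [e]; congr 1; push_cast; ring
  calc D.h u * D.w v * (D.h u)⁻¹
      = (D.h u * D.yp v * (D.h u)⁻¹) * (D.h u * D.ym (-(↑v⁻¹ : A)) * (D.h u)⁻¹) *
        (D.h u * D.yp v * (D.h u)⁻¹) := by rw [w_def D v]; group
    _ = D.w (u ^ 2 * v) := by rw [e1, e2, w_def]

theorem h_h (u v : Aˣ) : D.h u * D.h v * (D.h u)⁻¹ = D.h (u ^ 2 * v) * (D.h (u ^ 2))⁻¹ := by
  have e1 := D.h_w u v
  have e2 := D.h_w u 1
  rw [mul_one] at e2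
  calc D.h u * D.h v * (D.h u)⁻¹
      = (D.h u * D.w v * (D.h u)⁻¹) * (D.h u * D.w 1 * (D.h u)⁻¹)⁻¹ := by
        rw [h_def D v]; group
    _ = D.h (u ^ 2 * v) * (D.h (u ^ 2))⁻¹ := by
        rw [e1, e2, h_def, h_def]; group

theorem w1_h (u : Aˣ) : D.w 1 * D.h u * (D.w 1)⁻¹ = D.h u⁻¹ := by
  have e1 := D.w_conj 1 u
  rw [one_pow, one_mul] at e1
  calc D.w 1 * D.h u * (D.w 1)⁻¹ = (D.w 1 * D.w u * (D.w 1)⁻¹) * (D.w 1)⁻¹ := by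
        rw [h_def]; group
    _ = D.h u⁻¹ := by rw [e1, h_def]

theorem w1_h' (u : Aˣ) : (D.w 1)⁻¹ * D.h u * D.w 1 = D.h u⁻¹ := by
  have := D.w1_h u⁻¹
  rw [inv_inv] at this
  rw [← this]; group

/-- for a unit `t`: `yp(t) = ym(t⁻¹) w(t) ym(t⁻¹)`. -/
theorem yp_unit (t : Aˣ) : D.yp t = D.ym (↑t⁻¹ : A) * D.w t * D.ym (↑t⁻¹ : A) := by
  rw [D.w_eq' t, D.ym_neg]; group

/-- for a unit `t`: `ym(-t⁻¹) = yp(-t) w(t) yp(-t)`. -/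
theorem ym_unit (t : Aˣ) : D.ym (-(↑t⁻¹ : A)) = D.yp (-(t : A)) * D.w t * D.yp (-(t : A)) := by
  rw [w_def, D.yp_neg]; group

/-- the Steinberg relation: if `u + u' = 1` then `w(u) w(u') = w(u/u') w(1)`. -/
theorem stein_w (u u' : Aˣ) (huu : (u : A) + (u' : A) = 1) :
    D.w u * D.w u' = D.w (u * u'⁻¹) * D.w 1 := by
  have h1 : (u : A) * (↑u⁻¹ : A) = 1 := u.mul_inv
  have h2 : (u' : A) * (↑u'⁻¹ : A) = 1 := u'.mul_inv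
  have ha : ((u * u'⁻¹ : Aˣ) : A) = (u : A) * (↑u'⁻¹ : A) := by push_cast; ring
  have hai : (((u * u'⁻¹)⁻¹ : Aˣ) : A) = (↑u⁻¹ : A) * (u' : A) := by
    rw [mul_inv_rev, inv_inv]; push_cast; ring
  have hE : (D.ym (↑u⁻¹ : A) * D.w u * D.ym (↑u⁻¹ : A)) *
      (D.ym (↑u'⁻¹ : A) * D.w u' * D.ym (↑u'⁻¹ : A)) = D.ym 1 * D.w 1 * D.ym 1 := by
    have := D.yp_unit (1 : Aˣ)
    rw [inv_one, Units.val_one] at this
    rw [← D.yp_unit, ← D.yp_unit, ← this, ← D.yp_add, huu]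
  -- `yp(-a) w(u) = w(u) ym(s)`, `s = u⁻¹ + u'⁻¹`
  have e1 : D.yp (-((u * u'⁻¹ : Aˣ) : A)) * D.w u =
      D.w u * (D.ym (↑u⁻¹ : A) * D.ym (↑u'⁻¹ : A)) := by
    have := D.relm u ((↑u⁻¹ : A) + (↑u'⁻¹ : A))
    have e : -((u : A) ^ 2) * ((↑u⁻¹ : A) + (↑u'⁻¹ : A)) = -((u * u'⁻¹ : Aˣ) : A) := by
      rw [ha]
      linear_combination (-(u : A)) * h1 - ((u : A) * (↑u'⁻¹ : A)) * huu
        + (u : A) * h2
    rw [e, D.ym_add] at this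
    rw [← this]; group
  have e2 : D.ym (-(↑u⁻¹ : A)) * D.ym 1 = D.ym (-(((u * u'⁻¹)⁻¹ : Aˣ) : A)) := by
    rw [← D.ym_add, hai]
    congr 1
    linear_combination (↑u⁻¹ : A) * huu - h1
  have e3 : D.w 1 * (D.ym 1 * D.ym (-(↑u'⁻¹ : A))) = D.yp ((u * u'⁻¹ : Aˣ) : A) * D.w 1 := by
    rw [← D.ym_add]
    have := D.w1_ym (1 + -(↑u'⁻¹ : A))
    have e : -(1 + -(↑u'⁻¹ : A)) = ((u * u'⁻¹ : Aˣ) : A) := by
      rw [ha]
      linear_combination (-(↑u'⁻¹ : A)) * huu + h2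
    rw [e] at this
    rw [← this]; group
  calc D.w u * D.w u'
      = D.yp ((u * u'⁻¹ : Aˣ) : A) * ((D.yp (-((u * u'⁻¹ : Aˣ) : A)) * D.w u) * D.w u') := by
        rw [D.yp_neg]; group
    _ = D.yp ((u * u'⁻¹ : Aˣ) : A) * (D.ym (-(↑u⁻¹ : A)) *
          ((D.ym (↑u⁻¹ : A) * D.w u * D.ym (↑u⁻¹ : A)) *
          (D.ym (↑u'⁻¹ : A) * D.w u' * D.ym (↑u'⁻¹ : A))) * D.ym (-(↑u'⁻¹ : A))) := by
        rw [e1, D.ym_neg, D.ym_neg]; group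
    _ = D.yp ((u * u'⁻¹ : Aˣ) : A) * ((D.ym (-(↑u⁻¹ : A)) * D.ym 1) *
          (D.w 1 * (D.ym 1 * D.ym (-(↑u'⁻¹ : A))))) := by
        rw [hE]; group
    _ = D.w (u * u'⁻¹) * D.w 1 := by
        rw [e2, e3, w_def D (u * u'⁻¹)]; group

/-- Steinberg relation in terms of `h`: if `u + u' = 1` then `h(u) h(u'⁻¹) = h(u u'⁻¹)`. -/
theorem stein_h (u u' : Aˣ) (huu : (u : A) + (u' : A) = 1) :
    D.h u * D.h u'⁻¹ = D.h (u * u'⁻¹) := by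
  have := D.stein_w u u' huu
  rw [D.w_eq_h u, D.w_eq_h u', D.w_eq_h (u * u'⁻¹)] at this
  rw [← D.w1_h u']
  have e : D.h u * (D.w 1 * D.h u' * (D.w 1)⁻¹) =
      (D.h u * D.w 1 * (D.h u' * D.w 1)) * (D.w 1)⁻¹ * (D.w 1)⁻¹ := by group
  rw [e, this]; group

end LrsData

end Fermat.Agent.LR
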