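/-
LR-CSP (helper4): if the unit group `Aˣ` is cyclic and the symbols
`c(u,v) = h(u) h(v) h(uv)⁻¹` are central, then the existence of two non-square units `u₀, u₀'`
with `u₀ + u₀' = 1` forces `h` to be multiplicative.
-/
import Mathlib
import Fermat.Agent.Lib.LR.CSP.Steinberg

set_option autoImplicit false

namespace Fermat.Agent.LR

namespace LrsData

variable {A : Type*} [CommRing A] {Y : Type*} [Group Y] (D : LrsData A Y)

section central

variable (hc : ∀ u v : Aˣ, D.h u * D.h v * (D.h (u * v))⁻¹ ∈ Subgroup.center Y)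
include hc

theorem h_zpow_gen (g : Aˣ) (k : ℤ) :
    ∃ z ∈ Subgroup.center Y, D.h (g ^ k) = z * (D.h g) ^ k := by
  induction k using Int.induction_on with
  | zero => exact ⟨1, one_mem _, by simp [D.h_one]⟩
  | succ i ih =>
    obtain ⟨z, hz, e⟩ := ih
    have hcz := hc (g ^ (i : ℤ)) g
    refine ⟨(D.h (g ^ (i : ℤ)) * D.h g * (D.h (g ^ (i : ℤ) * g))⁻¹)⁻¹ * z,
      mul_mem (inv_mem hcz) hz, ?_⟩
    rw [zpow_add_one, zpow_add_one, ← mul_assoc, mul_assoc _ z, ← e]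
    group
  | pred i ih =>
    obtain ⟨z, hz, e⟩ := ih
    have hcz := hc (g ^ (-(i : ℤ) - 1)) g
    have e1 : g ^ (-(i : ℤ) - 1) * g = g ^ (-(i : ℤ)) := by
      rw [zpow_sub_one]; group
    rw [e1] at hcz
    refine ⟨(D.h (g ^ (-(i : ℤ) - 1)) * D.h g * (D.h (g ^ (-(i : ℤ))))⁻¹) * z,
      mul_mem hcz hz, ?_⟩
    rw [zpow_sub_one (D.h g), ← mul_assoc, mul_assoc _ z, ← e]
    group

theorem h_comm [IsCyclic Aˣ] (u v : Aˣ) : D.h u * D.h v = D.h v * D.h u := by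
  obtain ⟨g, hg⟩ := IsCyclic.exists_generator (α := Aˣ)
  obtain ⟨k, rfl⟩ := Subgroup.mem_zpowers_iff.1 (hg u)
  obtain ⟨m, rfl⟩ := Subgroup.mem_zpowers_iff.1 (hg v)
  obtain ⟨z, hz, e⟩ := D.h_zpow_gen hc g k
  obtain ⟨z', hz', e'⟩ := D.h_zpow_gen hc g m
  rw [Subgroup.mem_center_iff] at hz hz'
  rw [e, e']
  calc z * D.h g ^ k * (z' * D.h g ^ m)
      = z * (D.h g ^ k * z') * D.h g ^ m := by group
    _ = z * (z' * D.h g ^ k) * D.h g ^ m := by rw [hz']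
    _ = (z * z') * (D.h g ^ k * D.h g ^ m) := by group
    _ = (z' * z) * (D.h g ^ m * D.h g ^ k) := by
        rw [hz' z, ← zpow_add, ← zpow_add, add_comm]
    _ = z' * (z * D.h g ^ m) * D.h g ^ k := by group
    _ = z' * (D.h g ^ m * z) * D.h g ^ k := by rw [hz]
    _ = z' * D.h g ^ m * (z * D.h g ^ k) := by group

theorem h_sq_mul [IsCyclic Aˣ] (u v : Aˣ) : D.h (u ^ 2 * v) = D.h (u ^ 2) * D.h v := by
  have e := D.h_h u v
  have e2 : D.h u * D.h v * (D.h u)⁻¹ = D.h v := by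
    rw [D.h_comm hc u v]; group
  rw [e2] at e
  rw [D.h_comm hc (u ^ 2) v, e]; group

theorem h_mul_sq [IsCyclic Aˣ] (u v : Aˣ) : D.h (v * u ^ 2) = D.h v * D.h (u ^ 2) := by
  rw [mul_comm, D.h_sq_mul hc, D.h_comm hc]

theorem h_key [IsCyclic Aˣ] (g s s' : Aˣ) :
    D.h (s ^ 2 * g * (s' ^ 2 * g)) = D.h ((s * s') ^ 2) * D.h (g * g) ∧
    D.h (s ^ 2 * g) * D.h (s' ^ 2 * g) = D.h ((s * s') ^ 2) * (D.h g * D.h g) := by
  constructor
  · have : s ^ 2 * g * (s' ^ 2 * g) = (s * s') ^ 2 * (g * g) := by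
      rw [mul_pow]; exact mul_mul_mul_comm _ _ _ _
    rw [this, D.h_sq_mul hc]
  · rw [D.h_sq_mul hc s g, D.h_sq_mul hc s' g]
    have e1 : D.h ((s * s') ^ 2) = D.h (s ^ 2) * D.h (s' ^ 2) := by
      rw [mul_pow, D.h_sq_mul hc]
    rw [e1]
    calc D.h (s ^ 2) * D.h g * (D.h (s' ^ 2) * D.h g)
        = D.h (s ^ 2) * (D.h g * D.h (s' ^ 2)) * D.h g := by group
      _ = D.h (s ^ 2) * (D.h (s' ^ 2) * D.h g) * D.h g := by rw [D.h_comm hc g]
      _ = _ := by group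

/-- **multiplicativity of `h`** for a cyclic unit group containing non-squares `u₀, u₀'` with
`u₀ + u₀' = 1`. -/
theorem h_mul_of_cyclic [IsCyclic Aˣ] (u₀ u₀' : Aˣ) (h0 : (u₀ : A) + (u₀' : A) = 1)
    (hns : ¬ IsSquare u₀) (hns' : ¬ IsSquare u₀') (u v : Aˣ) :
    D.h (u * v) = D.h u * D.h v := by
  obtain ⟨g, hg⟩ := IsCyclic.exists_generator (α := Aˣ)
  -- every unit is `s²` or `s² g`
  have dec : ∀ a : Aˣ, (∃ s : Aˣ, a = s ^ 2) ∨ (∃ s : Aˣ, a = s ^ 2 * g) := by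
    intro a
    obtain ⟨k, rfl⟩ := Subgroup.mem_zpowers_iff.1 (hg a)
    rcases Int.even_or_odd' k with ⟨j, rfl | rfl⟩
    · left
      exact ⟨g ^ j, by rw [mul_comm, zpow_mul, zpow_two, sq]⟩
    · right
      exact ⟨g ^ j, by rw [zpow_add_one, mul_comm 2 j, zpow_mul, zpow_two, sq]⟩
  have nsq : ∀ a : Aˣ, ¬ IsSquare a → ∃ s : Aˣ, a = s ^ 2 * g := by
    intro a ha
    rcases dec a with ⟨s, rfl⟩ | h
    · exact absurd (IsSquare.sq s) ha
    · exact h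
  -- the special pair gives `h (g g) = h g h g`
  have hgg : D.h (g * g) = D.h g * D.h g := by
    obtain ⟨s, hs⟩ := nsq u₀ hns
    obtain ⟨s', hs'⟩ := nsq u₀' hns'
    have hs'' : u₀'⁻¹ = (s'⁻¹ * g⁻¹) ^ 2 * g := by
      rw [hs', mul_inv, mul_pow, inv_pow, inv_pow, mul_assoc]
      congr 1
      rw [sq, mul_inv, mul_assoc, inv_mul_cancel, mul_one]
    have st := D.stein_h u₀ u₀' h0
    rw [hs'', hs] at st
    obtain ⟨k1, k2⟩ := D.h_key hc g s (s'⁻¹ * g⁻¹)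
    rw [k1, k2] at st
    exact (mul_left_cancel st).symm
  rcases dec u with ⟨s, rfl⟩ | ⟨s, rfl⟩
  · exact D.h_sq_mul hc s v
  · rcases dec v with ⟨s', rfl⟩ | ⟨s', rfl⟩
    · exact D.h_mul_sq hc s' _
    · obtain ⟨k1, k2⟩ := D.h_key hc g s s'
      rw [k1, k2, hgg]

end central

end LrsData

end Fermat.Agent.LR
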