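/-
LR / F1-(I) GLOBAL (helper6), file 6: bridge between the model `SL₂(ℤ[1/q])` (`LrgG q`) and the
subgroups `lraDelta N q ≤ SL(2,ℚ)` of `Lib/LR/Amalgam`.

* `lrgToQ q : LrgG q →* SL(2,ℚ)` is injective with range `lraDelta 1 q`;
* `lrgToQ q g ∈ lraDelta N q ↔ g 1 0 ∈ N ℤ[1/q]`;
* `lrg_mem_GammaN_of_level`: matrices `M / q^k` with `M ≡ q^k (mod N)` come from `Γ_N`.
-/
import Mathlib
import Fermat.Agent.Lib.LR.Amalgam.Gen
import Fermat.Agent.Lib.LR.CSP.GlobalSteinberg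

set_option autoImplicit false

open Matrix MatrixGroups

namespace Fermat.Agent.LR

variable {N q : ℕ}

/-- `SL₂(ℤ[1/q]) → SL₂(ℚ)` -/
def lrgToQ (q : ℕ) : LrgG q →* SL(2, ℚ) := SpecialLinearGroup.map (lrgR q).subtype

theorem lrgToQ_apply (g : LrgG q) (i j : Fin 2) : lrgToQ q g i j = ((g i j : lrgR q) : ℚ) := rfl

theorem lrgToQ_injective : Function.Injective (lrgToQ q) := by
  intro g h hgh
  ext i j
  have := congrArg (fun x : SL(2, ℚ) => x i j) hgh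
  simp only [lrgToQ_apply] at this
  exact_mod_cast this

theorem lrgToQ_Xp (t : lrgR q) : lrgToQ q (lrgXp t) = lrsXp ((t : lrgR q) : ℚ) := by
  rw [lrgToQ, lrg_map_Xp]
  rfl

theorem lrgToQ_Xm (t : lrgR q) : lrgToQ q (lrgXm t) = lrsXm ((t : lrgR q) : ℚ) := by
  rw [lrgToQ, lrg_map_Xm]
  rfl

theorem lrgToQ_ofInt (γ : SL(2, ℤ)) : lrgToQ q (lrgOfInt q γ) = lraCast γ := by
  ext i j
  rw [lrgToQ_apply, lrgOfInt_apply, lraCast_apply]
  simp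

theorem lrgQu_inv_val (hq : q ≠ 0) :
    ((((lrgQu q hq)⁻¹ : (lrgR q)ˣ) : lrgR q) : ℚ) = (q : ℚ)⁻¹ := rfl

/-- a common denominator for the entries -/
theorem lrg_common_denom (g : LrgG q) :
    ∃ (K : ℕ) (M : Matrix (Fin 2) (Fin 2) ℤ), ∀ i j, ((g i j : lrgR q) : ℚ) * (q : ℚ) ^ K = M i j := by
  choose k m hkm using fun i j => (g i j).2
  refine ⟨k 0 0 + k 0 1 + k 1 0 + k 1 1,
    Matrix.of fun i j => m i j * (q : ℤ) ^ (k 0 0 + k 0 1 + k 1 0 + k 1 1 - k i j), ?_⟩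
  intro i j
  have hle : k i j ≤ k 0 0 + k 0 1 + k 1 0 + k 1 1 := by
    fin_cases i <;> fin_cases j <;> simp <;> omega
  simp only [Matrix.of_apply]
  push_cast
  rw [← hkm i j, mul_assoc, ← pow_add, Nat.add_sub_cancel' hle]

theorem lrgToQ_mem_lraDelta (hq : q ≠ 0) (hNq : N.Coprime q) (g : LrgG q) :
    lrgToQ q g ∈ lraDelta N q ↔ ∃ s : lrgR q, g 1 0 = (N : lrgR q) * s := by
  have hq' : (q : ℚ) ≠ 0 := Nat.cast_ne_zero.2 hq
  constructor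
  · rintro ⟨k, M, hlev, c, hc⟩
    refine ⟨(c : lrgR q) * ((lrgQu q hq)⁻¹ ^ k : (lrgR q)ˣ), ?_⟩
    apply Subtype.ext
    have h1 := hlev 1 0
    rw [lrgToQ_apply, hc] at h1
    push_cast at h1 ⊢
    rw [lrgQu_inv_val, inv_pow]
    field_simp
    linear_combination h1
  · rintro ⟨s, hs⟩
    obtain ⟨K, M, hM⟩ := lrg_common_denom g
    refine ⟨K, M, fun i j => by rw [lrgToQ_apply]; exact hM i j, ?_⟩
    apply lrg_int_dvd hNq (s := s * ((lrgQu q hq) ^ K : (lrgR q)ˣ))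
    apply Subtype.ext
    have h1 := hM 1 0
    rw [hs] at h1
    push_cast at h1 ⊢
    rw [lrgQu_val, ← h1]
    ring

theorem lrgToQ_mem_lraDelta_one (hq : q ≠ 0) (g : LrgG q) : lrgToQ q g ∈ lraDelta 1 q := by
  rw [lrgToQ_mem_lraDelta hq (Nat.coprime_one_left q)]
  exact ⟨g 1 0, by simp⟩

/-- matrices with entries in `ℤ[1/q]` come from `SL₂(ℤ[1/q])` -/
theorem lrg_exists_of_entries (g : SL(2, ℚ)) (h : ∀ i j, g i j ∈ lrgR q) :
    ∃ γ : LrgG q, lrgToQ q γ = g ∧ ∀ i j, ((γ i j : lrgR q) : ℚ) = g i j := by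
  have hdet : (Matrix.of fun i j => (⟨g i j, h i j⟩ : lrgR q)).det = 1 := by
    rw [Matrix.det_fin_two]
    apply Subtype.ext
    have := g.det_coe
    rw [Matrix.det_fin_two] at this
    simp only [Matrix.of_apply]
    push_cast
    exact this
  refine ⟨⟨Matrix.of fun i j => (⟨g i j, h i j⟩ : lrgR q), hdet⟩, ?_, fun i j => rfl⟩
  ext i j
  rfl

theorem lrgToQ_range (hq : q ≠ 0) : (lrgToQ q).range = lraDelta 1 q := by
  apply le_antisymm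
  · rintro _ ⟨g, rfl⟩
    exact lrgToQ_mem_lraDelta_one hq g
  · rintro g ⟨k, M, hlev, -⟩
    obtain ⟨γ, hγ, -⟩ := lrg_exists_of_entries (q := q) g (fun i j => ⟨k, M i j, hlev i j⟩)
    exact ⟨γ, hγ⟩

/-- matrices `M / q^k` with `M ≡ q^k (mod N)` come from `Γ_N` -/
theorem lrg_mem_GammaN_of_level (hq : q ≠ 0) (hNq : N.Coprime q) (g : SL(2, ℚ)) (k : ℕ)
    (M : Matrix (Fin 2) (Fin 2) ℤ) (hlev : ∀ i j, g i j * (q : ℚ) ^ k = (M i j : ℚ))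
    (h00 : (N : ℤ) ∣ M 0 0 - (q : ℤ) ^ k) (h01 : (N : ℤ) ∣ M 0 1) (h10 : (N : ℤ) ∣ M 1 0)
    (h11 : (N : ℤ) ∣ M 1 1 - (q : ℤ) ^ k) :
    ∃ γ : LrgG q, γ ∈ lrgGammaN (N := N) hq hNq ∧ lrgToQ q γ = g := by
  have hq' : (q : ℚ) ≠ 0 := Nat.cast_ne_zero.2 hq
  obtain ⟨γ, hγ, hent⟩ := lrg_exists_of_entries (q := q) g (fun i j => ⟨k, M i j, hlev i j⟩)
  refine ⟨γ, ?_, hγ⟩
  rw [mem_lrgGammaN]
  obtain ⟨c00, hc00⟩ := h00
  obtain ⟨c01, hc01⟩ := h01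
  obtain ⟨c10, hc10⟩ := h10
  obtain ⟨c11, hc11⟩ := h11
  have e00 : (M 0 0 : ℚ) = N * c00 + (q : ℚ) ^ k := by
    have : ((M 0 0 - (q : ℤ) ^ k : ℤ) : ℚ) = ((N * c00 : ℤ) : ℚ) := by rw [hc00]
    push_cast at this
    linear_combination this
  have e11 : (M 1 1 : ℚ) = N * c11 + (q : ℚ) ^ k := by
    have : ((M 1 1 - (q : ℤ) ^ k : ℤ) : ℚ) = ((N * c11 : ℤ) : ℚ) := by rw [hc11]
    push_cast at this
    linear_combination this
  refine ⟨⟨(c00 : lrgR q) * ((lrgQu q hq)⁻¹ ^ k : (lrgR q)ˣ), ?_⟩,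
    ⟨(c01 : lrgR q) * ((lrgQu q hq)⁻¹ ^ k : (lrgR q)ˣ), ?_⟩,
    ⟨(c10 : lrgR q) * ((lrgQu q hq)⁻¹ ^ k : (lrgR q)ˣ), ?_⟩,
    ⟨(c11 : lrgR q) * ((lrgQu q hq)⁻¹ ^ k : (lrgR q)ˣ), ?_⟩⟩
  · apply Subtype.ext
    have h1 := hlev 0 0
    rw [e00] at h1
    push_cast
    rw [lrgQu_inv_val, hent, inv_pow]
    field_simp
    linear_combination h1
  · apply Subtype.ext
    have h1 := hlev 0 1
    rw [hc01] at h1
    push_cast at h1 ⊢
    rw [lrgQu_inv_val, hent, inv_pow]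
    field_simp
    linear_combination h1
  · apply Subtype.ext
    have h1 := hlev 1 0
    rw [hc10] at h1
    push_cast at h1 ⊢
    rw [lrgQu_inv_val, hent, inv_pow]
    field_simp
    linear_combination h1
  · apply Subtype.ext
    have h1 := hlev 1 1
    rw [e11] at h1
    push_cast
    rw [lrgQu_inv_val, hent, inv_pow]
    field_simp
    linear_combination h1

end Fermat.Agent.LR
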