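/-
LR / F1 (helper6), file 7: the (IV)-core.  A homomorphism `Φ : Γ₀(N)[1/q] → A` (`A` abelian of
exponent `p`) killing the unipotent elements is trivial on `Γ_N`, provided every element of
`Γ_N / Q(N)` has order prime to `p` (hypothesis `hker`, supplied by the local theorems).
-/
import Mathlib
import Fermat.Agent.Lib.LR.CSP.GlobalBridge

set_option autoImplicit false
set_option linter.unusedVariables false

open Matrix MatrixGroups

namespace Fermat.Agent.LR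

variable {N q : ℕ}

/-- `Γ_N` maps into `lraDelta N q` -/
theorem lrgToQ_mem_of_GammaN (hq : q ≠ 0) (hNq : N.Coprime q) {γ : LrgG q}
    (hγ : γ ∈ lrgGammaN (N := N) hq hNq) : lrgToQ q γ ∈ lraDelta N q := by
  rw [lrgToQ_mem_lraDelta hq hNq]
  exact ((mem_lrgGammaN hq hNq).1 hγ).2.2.1

/-- conjugates of `x⁺(M)` have trace `2` -/
theorem lrg_trace_conj {A : Type*} [CommRing A] (g : SL(2, A)) (M : A) :
    (g * lrgXp M * g⁻¹) 0 0 + (g * lrgXp M * g⁻¹) 1 1 = 2 := by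
  rw [lrg_conj_eq', lrgConjMat_00, lrgConjMat_11]
  ring

/-- **F1, (IV)-core.** -/
theorem lrg_F1 (hq : q.Prime) (hN : 0 < N) (hNq : N.Coprime q) {p : ℕ} (hp : p.Prime)
    {A : Type*} [CommGroup A] (hA : ∀ a : A, a ^ p = 1)
    (hker : ∀ c ∈ (lrgRedBar (N := N) hq.ne_zero hNq).ker, ∃ m : ℕ, ¬ p ∣ m ∧ c ^ m = 1)
    (Φ : ↥(lraDelta N q) →* A)
    (hΦ : ∀ u : ↥(lraDelta N q), (u : SL(2, ℚ)) 0 0 + (u : SL(2, ℚ)) 1 1 = 2 → Φ u = 1)
    (γ : LrgG q) (hγ : γ ∈ lrgGammaN (N := N) hq.ne_zero hNq) (h : lrgToQ q γ ∈ lraDelta N q) :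
    Φ ⟨lrgToQ q γ, h⟩ = 1 := by
  have hq0 := hq.ne_zero
  -- the pulled back homomorphism on `G0 = Γ₀(N)[1/q]`
  set G0 : Subgroup (LrgG q) := (lraDelta N q).comap (lrgToQ q) with hG0
  set ψ : G0 →* A := Φ.comp ((lrgToQ q).subgroupComap (lraDelta N q)) with hψ
  have hψ_apply : ∀ (x : LrgG q) (hx : x ∈ G0), ψ ⟨x, hx⟩ = Φ ⟨lrgToQ q x, hx⟩ := fun x hx => rfl
  have hΓG0 : lrgGammaN (N := N) hq0 hNq ≤ G0 := fun x hx => lrgToQ_mem_of_GammaN hq0 hNq hx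
  have hnorm : (lrgGammaN (N := N) hq0 hNq).Normal := by unfold lrgGammaN; infer_instance
  -- `ψ` kills `Q(N)`
  have hQ : lrgQ N q ≤ (ψ.ker).map G0.subtype := by
    rw [lrgQ, Subgroup.normalClosure, Subgroup.closure_le]
    intro y hy
    obtain ⟨a, ha, hconj⟩ := Group.mem_conjugatesOfSet_iff.1 hy
    rw [Set.mem_singleton_iff] at ha
    obtain ⟨c, hc⟩ := isConj_iff.1 hconj
    have hyΓ : y ∈ lrgGammaN (N := N) hq0 hNq := by
      rw [← hc, ha]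
      apply hnorm.conj_mem
      exact lrgQ_le_lrgGammaN hq0 hNq (Subgroup.subset_normalClosure rfl)
    have hyG0 : y ∈ G0 := hΓG0 hyΓ
    refine ⟨⟨y, hyG0⟩, ?_, rfl⟩
    rw [SetLike.mem_coe, MonoidHom.mem_ker, hψ_apply]
    apply hΦ
    show lrgToQ q y 0 0 + lrgToQ q y 1 1 = 2
    rw [lrgToQ_apply, lrgToQ_apply]
    have := lrg_trace_conj c ((N : ℕ) : lrgR q)
    rw [← ha, hc] at this
    have h2 := congrArg (fun z : lrgR q => (z : ℚ)) this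
    push_cast at h2
    exact h2
  -- orders prime to `p`
  have hc : lrgMk N q γ ∈ (lrgRedBar (N := N) hq0 hNq).ker := by
    rw [lrgRedBar_ker]
    exact ⟨γ, hγ, rfl⟩
  obtain ⟨m, hpm, hm⟩ := hker _ hc
  rw [← map_pow, lrgMk_eq_one_iff] at hm
  obtain ⟨⟨x, hx⟩, hxker, hxe⟩ := hQ hm
  have hxe' : x = γ ^ m := hxe
  have hγG0 : γ ∈ G0 := hΓG0 hγ
  have h1 : ψ ⟨γ, hγG0⟩ ^ m = 1 := by
    rw [← map_pow]
    have : (⟨γ, hγG0⟩ : G0) ^ m = ⟨x, hx⟩ := by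
      apply Subtype.ext
      rw [Subgroup.coe_pow]
      exact hxe'.symm
    rw [this]
    exact hxker
  have h2 : ψ ⟨γ, hγG0⟩ ^ p = 1 := hA _
  have h3 : orderOf (ψ ⟨γ, hγG0⟩) ∣ Nat.gcd m p :=
    Nat.dvd_gcd (orderOf_dvd_of_pow_eq_one h1) (orderOf_dvd_of_pow_eq_one h2)
  have h4 : Nat.gcd m p = 1 := by
    rw [Nat.gcd_comm]
    exact (Nat.Prime.coprime_iff_not_dvd hp).2 hpm
  rw [h4, Nat.dvd_one, orderOf_eq_one_iff] at h3
  rw [← hψ_apply γ hγG0]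
  exact h3

end Fermat.Agent.LR
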