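/-
LR / F1-(I) GLOBAL (helper6), file 1: the number theory behind the unit trick.

`lrg_nt`: `q` prime, `N, a ≥ 1` pairwise coprime and prime to `q`, `c` an integer with `N ∣ c`,
`gcd (c, a) = 1`.  Then there are integers `c' ≡ c (mod N a)`, `M` prime to `N`, and `L` with
`1 + M a c' = q ^ L`.

Route (helper4, msg 1015, simplified): `L₁ = φ(aN)`, `x = q^(2 L₁)`, `x - 1 = K m` with `K` the
`N`-part; Dirichlet prime `π ≡ -1 (mod N')` (`N' = N` or `4N`), `K π ≡ c (mod a)`; `c' = K π`,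
`L = L₁ (π - 1)`, `q^L - 1 = (x - 1) S`, `S = 1 + x + ⋯ + x^(h-1) ≡ h (mod ℓ)` for `ℓ ∣ N`,
`h = (π - 1) / 2` prime to `N`; `M = m S / (a π)`.
-/
import Mathlib

set_option autoImplicit false

namespace Fermat.Agent.LR

/-- splitting off the `N`-part of a positive integer -/
theorem lrg_split (N : ℕ) : ∀ n : ℕ, 0 < n →
    ∃ K m : ℕ, n = K * m ∧ (∀ p : ℕ, p.Prime → p ∣ K → p ∣ N) ∧ m.Coprime N := by
  intro n
  induction n using Nat.strong_induction_on with
  | _ n ih =>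
    intro hn
    by_cases hc : n.Coprime N
    · exact ⟨1, n, by ring, fun p hp h1 => absurd (Nat.dvd_one.mp h1) hp.ne_one, hc⟩
    · obtain ⟨p, hp, hpn, hpN⟩ := Nat.Prime.not_coprime_iff_dvd.mp hc
      obtain ⟨n', rfl⟩ := hpn
      have hn' : 0 < n' := Nat.pos_of_ne_zero (by rintro rfl; simp at hn)
      have hlt : n' < p * n' := by
        have := hp.two_le
        nlinarith
      obtain ⟨K, m, hKm, hK, hm⟩ := ih n' hlt hn'
      refine ⟨p * K, m, by rw [hKm]; ring, fun r hr hrd => ?_, hm⟩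
      rcases (Nat.Prime.dvd_mul hr).mp hrd with h | h
      · rw [(Nat.prime_dvd_prime_iff_eq hr hp).mp h]; exact hpN
      · exact hK r hr h

/-- geometric sum modulo a prime dividing `x - 1` -/
theorem lrg_geom_mod {x l : ℕ} (hx : x ≡ 1 [MOD l]) (h : ℕ) :
    (∑ i ∈ Finset.range h, x ^ i) ≡ h [MOD l] := by
  have h1 : ∀ i ∈ Finset.range h, x ^ i ≡ 1 [MOD l] := fun i _ => by
    simpa using hx.pow i
  have h2 := Nat.ModEq.sum (s := Finset.range h) (f := fun i => x ^ i) (g := fun _ => 1) h1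
  simpa using h2

theorem lrg_nt {q N a : ℕ} (hq : q.Prime) (hN : 0 < N) (ha : 0 < a) (hNq : N.Coprime q)
    (haq : a.Coprime q) (haN : a.Coprime N) (c : ℤ) (hNc : (N : ℤ) ∣ c)
    (hca : IsCoprime c (a : ℤ)) :
    ∃ (c' M : ℤ) (L : ℕ), ((N : ℤ) * a ∣ c' - c) ∧ IsCoprime M (N : ℤ) ∧
      1 + M * a * c' = (q : ℤ) ^ L := by
  classical
  -- the exponent `L₁` and `x = q ^ (2 L₁)`
  set n := a * N with hn
  have hnpos : 0 < n := Nat.mul_pos ha hN
  have hqn : q.Coprime n := (Nat.Coprime.mul_right haq.symm hNq.symm)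
  set L1 := Nat.totient n with hL1
  have hL1pos : 0 < L1 := Nat.totient_pos.mpr hnpos
  have hq1 : q ^ L1 ≡ 1 [MOD n] := Nat.ModEq.pow_totient hqn
  set x := q ^ (2 * L1) with hx
  have hx1 : x ≡ 1 [MOD n] := by
    have := hq1.pow 2
    rw [one_pow, ← pow_mul, mul_comm] at this
    exact this
  have hxgt : 1 < x := by
    have h2 : 2 ≤ q := hq.two_le
    have : 0 < 2 * L1 := by omega
    exact Nat.one_lt_pow (by omega) (by omega)
  -- `x - 1 = K * m`
  obtain ⟨K, m, hKm, hK, hm⟩ := lrg_split N (x - 1) (by omega)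
  have hxsub : n ∣ x - 1 := (Nat.modEq_iff_dvd' hxgt.le).mp hx1.symm
  have hKpos : 0 < K := Nat.pos_of_ne_zero (by rintro rfl; rw [zero_mul] at hKm; omega)
  have hmpos : 0 < m := Nat.pos_of_ne_zero (by rintro rfl; rw [mul_zero] at hKm; omega)
  have hNK : N ∣ K := by
    have h1 : N ∣ K * m := hKm ▸ (Dvd.dvd.trans ⟨a, by rw [hn]; ring⟩ hxsub)
    exact (Nat.Coprime.dvd_of_dvd_mul_right hm.symm h1)
  have hKa : K.Coprime a := by
    apply Nat.coprime_of_dvd
    intro k hk hkK hka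
    have hkN := hK k hk hkK
    have : k ∣ Nat.gcd a N := Nat.dvd_gcd hka hkN
    rw [haN] at this
    exact hk.ne_one (Nat.dvd_one.mp this)
  have ham : a ∣ m := by
    have h1 : a ∣ K * m := hKm ▸ (Dvd.dvd.trans ⟨N, by rw [hn]⟩ hxsub)
    exact (Nat.Coprime.dvd_of_dvd_mul_left hKa.symm h1)
  obtain ⟨m', hm'⟩ := ham
  -- the modulus `N'`
  set N' := if 2 ∣ N then 4 * N else N with hN'
  have hN'pos : 0 < N' := by rw [hN']; split_ifs <;> omega
  have hNN' : N ∣ N' := by rw [hN']; split_ifs; exacts [⟨4, by ring⟩, dvd_rfl]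
  have haN' : a.Coprime N' := by
    rw [hN']
    split_ifs with h2
    · have ha2 : a.Coprime 2 := Nat.Coprime.coprime_dvd_right h2 haN
      have ha4 : a.Coprime 4 := by
        have : a.Coprime (2 * 2) := Nat.Coprime.mul_right ha2 ha2
        simpa using this
      exact Nat.Coprime.mul_right ha4 haN
    · exact haN
  -- inverse of `K` modulo `a`, and the CRT residue
  have hKaZ : IsCoprime (K : ℤ) (a : ℤ) := Nat.isCoprime_iff_coprime.mpr hKa
  obtain ⟨u, v, huv⟩ := hKaZ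
  have haN'Z : IsCoprime (N' : ℤ) (a : ℤ) := Nat.isCoprime_iff_coprime.mpr haN'.symm
  obtain ⟨s, t, hst⟩ := haN'Z
  set r1 : ℤ := c * u with hr1
  set r : ℤ := -(t * a) + r1 * (s * N') with hr
  have hr_N' : (N' : ℤ) ∣ r + 1 := ⟨r1 * s - t * 0 + s, by rw [hr]; linear_combination (-1 : ℤ) * hst⟩
  have hr_a : (a : ℤ) ∣ r - r1 := ⟨-t - r1 * t, by rw [hr]; linear_combination r1 * hst⟩
  have hu_a : IsCoprime u (a : ℤ) := ⟨K, v, by linear_combination huv⟩
  have hr1_a : IsCoprime r1 (a : ℤ) := hca.mul_left hu_a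
  have hr_cop : IsCoprime r ((N' * a : ℕ) : ℤ) := by
    push_cast
    apply IsCoprime.mul_right
    · obtain ⟨k, hk⟩ := hr_N'
      exact ⟨-1, k, by linear_combination (-1 : ℤ) * hk⟩
    · obtain ⟨k, hk⟩ := hr_a
      obtain ⟨e, f, hef⟩ := hr1_a
      exact ⟨e, f - e * k, by linear_combination hef + e * hk⟩
  -- Dirichlet
  obtain ⟨π, hπgt, hπ, hπr⟩ := Nat.forall_exists_prime_gt_and_zmodEq (a + N + q + K + 2)
    (q := N' * a) (Nat.mul_ne_zero hN'pos.ne' ha.ne') hr_cop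
  have hπN' : (N' : ℤ) ∣ (π : ℤ) + 1 := by
    have h1 : ((N' * a : ℕ) : ℤ) ∣ r - π := (Int.modEq_iff_dvd.mp hπr)
    have h2 : (N' : ℤ) ∣ r - π := Dvd.dvd.trans ⟨(a : ℤ), by push_cast; ring⟩ h1
    have := dvd_sub hr_N' h2
    have e : r + 1 - (r - π) = (π : ℤ) + 1 := by ring
    rwa [e] at this
  have hπa : (a : ℤ) ∣ (π : ℤ) - r1 := by
    have h1 : ((N' * a : ℕ) : ℤ) ∣ r - π := (Int.modEq_iff_dvd.mp hπr)
    have h2 : (a : ℤ) ∣ r - π := Dvd.dvd.trans ⟨(N' : ℤ), by push_cast; ring⟩ h1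
    have := dvd_sub hr_a h2
    have e : r - r1 - (r - π) = (π : ℤ) - r1 := by ring
    rwa [e] at this
  -- `π` is odd, `π - 1 = 2 h`
  have hπ2 : π ≠ 2 := by omega
  obtain ⟨h, hh⟩ : ∃ h, π = 2 * h + 1 := by
    rcases hπ.eq_two_or_odd with h2 | h2
    · exact absurd h2 hπ2
    · exact ⟨π / 2, by omega⟩
  -- `ℓ ∤ h` for primes `ℓ ∣ N`
  have hhN : h.Coprime N := by
    apply Nat.coprime_of_dvd
    intro l hl hlh hlN
    have hlπ : (l : ℤ) ∣ (π : ℤ) + 1 :=
      Dvd.dvd.trans (Int.natCast_dvd_natCast.mpr (hlN.trans hNN')) hπN'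
    by_cases hl2 : l = 2
    · subst hl2
      have h4 : (4 : ℤ) ∣ (π : ℤ) + 1 := by
        have : 4 ∣ N' := by rw [hN', if_pos hlN]; exact ⟨N, rfl⟩
        exact Dvd.dvd.trans (by exact_mod_cast this) hπN'
      obtain ⟨h', rfl⟩ := hlh
      rw [hh] at h4
      push_cast at h4
      omega
    · have h1 : (l : ℤ) ∣ (π : ℤ) - 1 := by
        rw [hh]
        push_cast
        have : (l : ℤ) ∣ (h : ℤ) := Int.natCast_dvd_natCast.mpr hlh
        exact Dvd.dvd.trans this ⟨2, by ring⟩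
      have h2 : (l : ℤ) ∣ 2 := by
        have := dvd_sub hlπ h1
        have e : (π : ℤ) + 1 - ((π : ℤ) - 1) = 2 := by ring
        rwa [e] at this
      have h3 : l ∣ 2 := by exact_mod_cast h2
      exact hl2 ((Nat.prime_dvd_prime_iff_eq hl Nat.prime_two).mp h3)
  -- the geometric sum
  set S := ∑ i ∈ Finset.range h, x ^ i with hS
  have hSN : S.Coprime N := by
    apply Nat.coprime_of_dvd
    intro l hl hlS hlN
    have hxl : x ≡ 1 [MOD l] := hx1.of_dvd (hlN.trans ⟨a, by rw [hn]; ring⟩)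
    have := lrg_geom_mod hxl h
    rw [← hS] at this
    have hlh : l ∣ h := (Nat.modEq_zero_iff_dvd.mp ((this.symm.trans
      (Nat.modEq_zero_iff_dvd.mpr hlS))))
    have : l ∣ Nat.gcd h N := Nat.dvd_gcd hlh hlN
    rw [hhN] at this
    exact hl.ne_one (Nat.dvd_one.mp this)
  have hgeom : x ^ h = (x - 1) * S + 1 := by
    have h1 := Nat.geomSum_eq (m := x) (by omega : 2 ≤ x) h
    have h2 : (x - 1) ∣ x ^ h - 1 := by
      simpa using Nat.sub_dvd_pow_sub_pow x 1 h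
    rw [← hS] at h1
    have h3 : 1 ≤ x ^ h := Nat.one_le_pow _ _ (by omega)
    have h4 := Nat.div_mul_cancel h2
    rw [← h1] at h4
    rw [mul_comm]
    omega
  -- Fermat for `π`
  have hπq : π.Coprime q := by
    rw [Nat.coprime_primes hπ hq]
    omega
  have hfer : q ^ (π - 1) ≡ 1 [MOD π] := by
    have := Nat.ModEq.pow_totient hπq.symm
    rwa [Nat.totient_prime hπ] at this
  set L := L1 * (π - 1) with hL
  have hqL : q ^ L = x ^ h := by
    rw [hL, hx, ← pow_mul]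
    congr 1
    rw [hh]
    have : 2 * h + 1 - 1 = 2 * h := by omega
    rw [this]
    ring
  have hπdvd : π ∣ (x - 1) * S := by
    have h1 : q ^ L ≡ 1 [MOD π] := by
      have := hfer.pow L1
      rw [one_pow, ← pow_mul, mul_comm] at this
      exact this
    rw [hqL, hgeom] at h1
    have h2 : (x - 1) * S + 1 ≡ 0 + 1 [MOD π] := by simpa using h1
    exact Nat.modEq_zero_iff_dvd.mp (Nat.ModEq.add_right_cancel' 1 h2)
  -- `π ∤ K`, `π ∤ a`
  have hπK : π.Coprime K := by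
    rw [Nat.Prime.coprime_iff_not_dvd hπ]
    intro hd
    have := Nat.le_of_dvd hKpos hd
    omega
  have hπa' : π.Coprime a := by
    rw [Nat.Prime.coprime_iff_not_dvd hπ]
    intro hd
    have := Nat.le_of_dvd ha hd
    omega
  have hπmS : π ∣ m' * S := by
    rw [hKm, hm', mul_assoc, mul_assoc] at hπdvd
    have h1 : π ∣ a * (m' * S) := hπK.dvd_of_dvd_mul_left hπdvd
    exact hπa'.dvd_of_dvd_mul_left h1
  obtain ⟨M, hM⟩ := hπmS
  have hMN : M.Coprime N := by
    have h1 : (m * S).Coprime N := Nat.Coprime.mul_left hm hSN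
    apply Nat.Coprime.coprime_dvd_left _ h1
    exact ⟨a * π, by rw [hm', mul_assoc, hM]; ring⟩
  refine ⟨(K : ℤ) * π, (M : ℤ), L, ?_, Nat.isCoprime_iff_coprime.mpr hMN, ?_⟩
  · -- `c' ≡ c (mod N a)`
    have hcopNa : IsCoprime (N : ℤ) (a : ℤ) := Nat.isCoprime_iff_coprime.mpr haN.symm
    apply hcopNa.mul_dvd
    · apply dvd_sub _ hNc
      exact Dvd.dvd.mul_right (Int.natCast_dvd_natCast.mpr hNK) _
    · -- `K π ≡ K r1 = K u c ≡ c`
      obtain ⟨k, hk⟩ := hπa
      exact ⟨K * k - v * c, by rw [hr1] at hk; linear_combination (K : ℤ) * hk + c * huv⟩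
  · have e1 : (q : ℤ) ^ L = ((x - 1 : ℕ) : ℤ) * S + 1 := by
      have := congrArg (fun z : ℕ => (z : ℤ)) (hqL.trans hgeom)
      push_cast at this ⊢
      exact this
    rw [e1, hKm, hm']
    push_cast
    have hM' : (m' : ℤ) * S = π * M := by exact_mod_cast hM
    linear_combination (-(K : ℤ) * a) * hM'

end Fermat.Agent.LR
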