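/-
LR / F1-(I) GLOBAL (helper6), file 2: `SL₂(ℤ[1/q])`, `Q(N)` and the statement `P(γ)`.

* `lrgR q`      : `ℤ[1/q]` as a subring of `ℚ`;  `LrgG q = SL(2, ℤ[1/q])`;
* `lrgXp, lrgXm, lrgH, lrgW` : elementary / diagonal / Weyl matrices over any commutative ring;
* `lrgQ N q`    : `Q(N)`, the normal closure of `x⁺(N)`;  `lrgMk : LrgG q →* LrgG q ⧸ Q(N)`;
* `lrgMk_H`     : `h_D ∈ Q(N)` for a unit `D ≡ 1 (mod N)`;
* `lrg_core`    : the unit trick (`D = 1 + M a c` a unit, `M` prime to `N`);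
* `lrg_P`       : **`γ x⁺(t) γ⁻¹ ≡ x⁺((γ 0 0)² t) (mod Q(N))` whenever `γ 1 0 ∈ N ℤ[1/q]`.**
-/
import Mathlib
import Fermat.Agent.Lib.LR.CSP.GlobalNT

set_option autoImplicit false
set_option linter.unusedVariables false

open Matrix MatrixGroups

namespace Fermat.Agent.LR

variable {A : Type*} [CommRing A]

def lrgXp (t : A) : SL(2, A) := ⟨!![1, t; 0, 1], by simp [det_fin_two_of]⟩
def lrgXm (t : A) : SL(2, A) := ⟨!![1, 0; t, 1], by simp [det_fin_two_of]⟩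
def lrgH (u : Aˣ) : SL(2, A) := ⟨!![(↑u⁻¹ : A), 0; 0, (↑u : A)], by simp [det_fin_two_of]⟩
def lrgW : SL(2, A) := ⟨!![0, 1; -1, 0], by simp [det_fin_two_of]⟩
def lrgConjMat (a c M : A) : SL(2, A) :=
  ⟨!![1 - M * a * c, M * a ^ 2; -(M * c ^ 2), 1 + M * a * c], by
      simp [det_fin_two_of]; ring⟩

section entries
variable (t a c M : A) (u : Aˣ)
@[simp] theorem lrgXp_00 : lrgXp t 0 0 = 1 := rfl
@[simp] theorem lrgXp_01 : lrgXp t 0 1 = t := rfl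
@[simp] theorem lrgXp_10 : lrgXp t 1 0 = 0 := rfl
@[simp] theorem lrgXp_11 : lrgXp t 1 1 = 1 := rfl
@[simp] theorem lrgXm_00 : lrgXm t 0 0 = 1 := rfl
@[simp] theorem lrgXm_01 : lrgXm t 0 1 = 0 := rfl
@[simp] theorem lrgXm_10 : lrgXm t 1 0 = t := rfl
@[simp] theorem lrgXm_11 : lrgXm t 1 1 = 1 := rfl
@[simp] theorem lrgH_00 : lrgH u 0 0 = (↑u⁻¹ : A) := rfl
@[simp] theorem lrgH_01 : lrgH u 0 1 = 0 := rfl
@[simp] theorem lrgH_10 : lrgH u 1 0 = 0 := rfl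
@[simp] theorem lrgH_11 : lrgH u 1 1 = (↑u : A) := rfl
@[simp] theorem lrgW_00 : (lrgW : SL(2, A)) 0 0 = 0 := rfl
@[simp] theorem lrgW_01 : (lrgW : SL(2, A)) 0 1 = 1 := rfl
@[simp] theorem lrgW_10 : (lrgW : SL(2, A)) 1 0 = -1 := rfl
@[simp] theorem lrgW_11 : (lrgW : SL(2, A)) 1 1 = 0 := rfl
@[simp] theorem lrgConjMat_00 : lrgConjMat a c M 0 0 = 1 - M * a * c := rfl
@[simp] theorem lrgConjMat_01 : lrgConjMat a c M 0 1 = M * a ^ 2 := rfl
@[simp] theorem lrgConjMat_10 : lrgConjMat a c M 1 0 = -(M * c ^ 2) := rfl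
@[simp] theorem lrgConjMat_11 : lrgConjMat a c M 1 1 = 1 + M * a * c := rfl
end entries

theorem lrg_mul_apply (g h : SL(2, A)) (i j : Fin 2) :
    (g * h) i j = g i 0 * h 0 j + g i 1 * h 1 j := by
  simp [Matrix.mul_apply, Fin.sum_univ_two]

theorem lrg_det (γ : SL(2, A)) : γ 0 0 * γ 1 1 - γ 0 1 * γ 1 0 = 1 := by
  have := γ.det_coe
  rwa [Matrix.det_fin_two] at this

theorem lrgXp_add (s t : A) : lrgXp (s + t) = lrgXp s * lrgXp t := by
  ext i j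
  fin_cases i <;> fin_cases j <;> simp [lrg_mul_apply, add_comm]

theorem lrgXm_add (s t : A) : lrgXm (s + t) = lrgXm s * lrgXm t := by
  ext i j
  fin_cases i <;> fin_cases j <;> simp [lrg_mul_apply]

theorem lrgXp_zero : lrgXp (0 : A) = 1 := by
  ext i j
  fin_cases i <;> fin_cases j <;> simp

theorem lrgXm_zero : lrgXm (0 : A) = 1 := by
  ext i j
  fin_cases i <;> fin_cases j <;> simp

/-- `x⁺` as a homomorphism -/
def lrgXpHom : Multiplicative A →* SL(2, A) where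
  toFun t := lrgXp (Multiplicative.toAdd t)
  map_one' := lrgXp_zero
  map_mul' s t := lrgXp_add _ _

def lrgXmHom : Multiplicative A →* SL(2, A) where
  toFun t := lrgXm (Multiplicative.toAdd t)
  map_one' := lrgXm_zero
  map_mul' s t := lrgXm_add _ _

theorem lrgXp_neg (t : A) : lrgXp (-t) = (lrgXp t)⁻¹ := by
  rw [eq_inv_iff_mul_eq_one, ← lrgXp_add, neg_add_cancel, lrgXp_zero]

theorem lrgXm_neg (t : A) : lrgXm (-t) = (lrgXm t)⁻¹ := by
  rw [eq_inv_iff_mul_eq_one, ← lrgXm_add, neg_add_cancel, lrgXm_zero]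

/-- `γ x⁺(M) = U γ` -/
theorem lrg_conj_eq (γ : SL(2, A)) (M : A) :
    γ * lrgXp M = lrgConjMat (γ 0 0) (γ 1 0) M * γ := by
  have hdet := lrg_det γ
  ext i j
  fin_cases i <;> fin_cases j <;> simp [lrg_mul_apply]
  · ring
  · linear_combination (-(M * (γ 0 0))) * hdet
  · ring
  · linear_combination (-(M * (γ 1 0))) * hdet

theorem lrg_conj_eq' (γ : SL(2, A)) (M : A) :
    γ * lrgXp M * γ⁻¹ = lrgConjMat (γ 0 0) (γ 1 0) M := by
  rw [lrg_conj_eq, mul_inv_cancel_right]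

/-- Bruhat-type decomposition of `U` when `D = 1 + M a c` is a unit -/
theorem lrgConjMat_eq (a c M : A) (D : Aˣ) (hD : (D : A) = 1 + M * a * c) :
    lrgConjMat a c M = lrgXp (M * a ^ 2 * ↑D⁻¹) * lrgH D * lrgXm (-(M * c ^ 2) * ↑D⁻¹) := by
  have h1 : (D : A) * ↑D⁻¹ = 1 := D.mul_inv
  ext i j
  fin_cases i <;> fin_cases j <;> simp [lrg_mul_apply]
  · linear_combination (-(1 - M * a * c)) * h1 + (↑D⁻¹ * (1 - M * a * c)) * hD
  · linear_combination (-(M * c ^ 2)) * h1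
  · exact hD.symm

/-- `h_D` as a word in elementary matrices -/
theorem lrgH_eq (D : Aˣ) (s t : A) (hst : s * t = (D : A) - 1) :
    lrgH D = lrgXp (-t * ↑D⁻¹) * lrgXm s * lrgXp t * lrgXm (-s * ↑D⁻¹) := by
  have h1 : (D : A) * ↑D⁻¹ = 1 := D.mul_inv
  ext i j
  fin_cases i <;> fin_cases j <;> simp [lrg_mul_apply]
  · linear_combination ((1 - t * s * ↑D⁻¹) * ↑D⁻¹) * hst + (1 - t * s * ↑D⁻¹) * h1
  · linear_combination (t * ↑D⁻¹) * hst + t * h1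
  · linear_combination (s * ↑D⁻¹) * hst + s * h1
  · linear_combination (-1 : A) * hst

theorem lrgW_conj_Xp (s : A) : lrgW * lrgXp s * lrgW⁻¹ = lrgXm (-s) := by
  rw [mul_inv_eq_iff_eq_mul]
  ext i j
  fin_cases i <;> fin_cases j <;> simp [lrg_mul_apply]

theorem lrgH_conj_Xp (u : Aˣ) (t : A) :
    lrgH u * lrgXp t * (lrgH u)⁻¹ = lrgXp (↑u⁻¹ ^ 2 * t) := by
  rw [mul_inv_eq_iff_eq_mul]
  have h1 : (u : A) * ↑u⁻¹ = 1 := u.mul_inv
  ext i j
  fin_cases i <;> fin_cases j <;> simp [lrg_mul_apply]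
  linear_combination (-↑u⁻¹ * t) * h1


/-- `ℤ[1/q] ⊆ ℚ` -/
def lrgR (q : ℕ) : Subring ℚ where
  carrier := {t | ∃ (k : ℕ) (m : ℤ), t * (q : ℚ) ^ k = m}
  mul_mem' := by
    rintro s t ⟨k, m, hs⟩ ⟨l, n, ht⟩
    exact ⟨k + l, m * n, by push_cast; rw [← hs, ← ht, pow_add]; ring⟩
  one_mem' := ⟨0, 1, by simp⟩
  add_mem' := by
    rintro s t ⟨k, m, hs⟩ ⟨l, n, ht⟩
    exact ⟨k + l, m * q ^ l + n * q ^ k, by push_cast; rw [← hs, ← ht, pow_add]; ring⟩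
  zero_mem' := ⟨0, 0, by simp⟩
  neg_mem' := by
    rintro s ⟨k, m, hs⟩
    exact ⟨k, -m, by push_cast; rw [← hs]; ring⟩

theorem mem_lrgR {q : ℕ} {t : ℚ} : t ∈ lrgR q ↔ ∃ (k : ℕ) (m : ℤ), t * (q : ℚ) ^ k = m := Iff.rfl

theorem lrgR_exists {q : ℕ} (t : lrgR q) : ∃ (k : ℕ) (m : ℤ), (t : ℚ) * (q : ℚ) ^ k = m := t.2

/-- the unit `q` of `ℤ[1/q]` -/
def lrgQu (q : ℕ) (hq : q ≠ 0) : (lrgR q)ˣ where
  val := ⟨(q : ℚ), ⟨0, q, by simp⟩⟩
  inv := ⟨(q : ℚ)⁻¹, ⟨1, 1, by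
    have : (q : ℚ) ≠ 0 := Nat.cast_ne_zero.2 hq
    simp [this]⟩⟩
  val_inv := by
    have : (q : ℚ) ≠ 0 := Nat.cast_ne_zero.2 hq
    apply Subtype.ext
    simp [this]
  inv_val := by
    have : (q : ℚ) ≠ 0 := Nat.cast_ne_zero.2 hq
    apply Subtype.ext
    simp [this]

@[simp] theorem lrgQu_val (q : ℕ) (hq : q ≠ 0) : (((lrgQu q hq : (lrgR q)ˣ) : lrgR q) : ℚ) = q := rfl

/-- every element of `ℤ[1/q]` is congruent to an integer modulo `m` prime to `q` -/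
theorem lrg_exists_int {q m : ℕ} (hmq : m.Coprime q) (t : lrgR q) :
    ∃ (j : ℤ) (s : lrgR q), t = (j : lrgR q) + (m : lrgR q) * s := by
  obtain ⟨k, n, hk⟩ := t.2
  have hcop : IsCoprime (m : ℤ) ((q : ℤ) ^ k) :=
    (Nat.isCoprime_iff_coprime.mpr hmq).pow_right
  obtain ⟨e, f, hef⟩ := hcop
  refine ⟨f * n, (e : lrgR q) * t, ?_⟩
  apply Subtype.ext
  push_cast
  have hef' : (e : ℚ) * m + f * (q : ℚ) ^ k = 1 := by exact_mod_cast hef
  rw [← hk]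
  linear_combination (-(t : ℚ)) * hef'

/-- an integer divisible by `N` in `ℤ[1/q]` is divisible by `N` in `ℤ` -/
theorem lrg_int_dvd {q N : ℕ} (hNq : N.Coprime q) {j : ℤ} {s : lrgR q}
    (h : (j : lrgR q) = (N : lrgR q) * s) : (N : ℤ) ∣ j := by
  obtain ⟨k, n, hk⟩ := s.2
  have h1 : (j : ℚ) = N * (s : ℚ) := by
    have := congrArg (fun z : lrgR q => (z : ℚ)) h
    simpa using this
  have h2 : (j : ℤ) * (q : ℤ) ^ k = N * n := by
    have : ((j : ℤ) : ℚ) * (q : ℚ) ^ k = N * (n : ℚ) := by rw [h1, ← hk]; ring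
    exact_mod_cast this
  have hcop : IsCoprime (N : ℤ) ((q : ℤ) ^ k) :=
    (Nat.isCoprime_iff_coprime.mpr hNq).pow_right
  exact hcop.dvd_of_dvd_mul_right ⟨n, h2⟩


section quotient

variable (N q : ℕ)

abbrev LrgG (q : ℕ) := SL(2, ↥(lrgR q))

/-- `Q(N)`: the normal closure of `x⁺(N)` in `SL₂(ℤ[1/q])` -/
def lrgQ : Subgroup (LrgG q) := Subgroup.normalClosure {lrgXp ((N : ℕ) : ↥(lrgR q))}

instance lrgQ_normal : (lrgQ N q).Normal := Subgroup.normalClosure_normal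

abbrev LrgGbar := LrgG q ⧸ lrgQ N q

/-- the projection `SL₂(ℤ[1/q]) → SL₂(ℤ[1/q]) / Q(N)` -/
def lrgMk : LrgG q →* LrgGbar N q := QuotientGroup.mk' (lrgQ N q)

variable {N q}

theorem lrgMk_eq_one_iff {g : LrgG q} : lrgMk N q g = 1 ↔ g ∈ lrgQ N q :=
  QuotientGroup.eq_one_iff g

theorem lrgMk_XpN : lrgMk N q (lrgXp ((N : ℕ) : ↥(lrgR q))) = 1 :=
  lrgMk_eq_one_iff.2 (Subgroup.subset_normalClosure rfl)

/-- `t ↦ [x⁺(t)]` -/
def lrgXpBar (N q : ℕ) : Multiplicative ↥(lrgR q) →* LrgGbar N q := (lrgMk N q).comp lrgXpHom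

theorem lrgXpBar_apply (t : lrgR q) :
    lrgXpBar N q (Multiplicative.ofAdd t) = lrgMk N q (lrgXp t) := rfl

theorem lrgMk_Xp_int (j : ℤ) : lrgMk N q (lrgXp ((j : lrgR q) * (N : lrgR q))) = 1 := by
  have h : (j : lrgR q) * (N : lrgR q) = j • ((N : ℕ) : lrgR q) := by simp
  rw [h, ← lrgXpBar_apply, ofAdd_zsmul, map_zpow, lrgXpBar_apply, lrgMk_XpN, _root_.one_zpow]

theorem lrgMk_Xp_mul (hq : q ≠ 0) (t : lrgR q) :
    lrgMk N q (lrgXp ((N : lrgR q) * t)) = 1 := by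
  obtain ⟨k, m, hk⟩ := t.2
  set u : (lrgR q)ˣ := (lrgQu q hq) ^ k with hu
  have hq' : (q : ℚ) ≠ 0 := Nat.cast_ne_zero.2 hq
  have e : (N : lrgR q) * t = (↑u⁻¹ : lrgR q) ^ 2 * (((m * (q : ℤ) ^ k : ℤ) : lrgR q) * (N : lrgR q)) := by
    apply Subtype.ext
    have hu1 : (((↑u⁻¹ : lrgR q)) : ℚ) = ((q : ℚ) ^ k)⁻¹ := by
      rw [hu, ← inv_pow, Units.val_pow_eq_pow_val]
      simp [lrgQu]
    push_cast
    rw [hu1, ← hk]
    field_simp
  rw [e, ← lrgH_conj_Xp, map_mul, map_mul, lrgMk_Xp_int, mul_one, map_inv, mul_inv_cancel]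

theorem lrgMk_Xm_mul (hq : q ≠ 0) (t : lrgR q) :
    lrgMk N q (lrgXm ((N : lrgR q) * t)) = 1 := by
  have e : lrgXm ((N : lrgR q) * t) = lrgW * lrgXp ((N : lrgR q) * (-t)) * lrgW⁻¹ := by
    rw [lrgW_conj_Xp]; congr 1; ring
  rw [e, map_mul, map_mul, lrgMk_Xp_mul hq, mul_one, map_inv, mul_inv_cancel]

theorem lrgMk_Xp_congr (hq : q ≠ 0) {a b s : lrgR q} (h : a - b = (N : lrgR q) * s) :
    lrgMk N q (lrgXp a) = lrgMk N q (lrgXp b) := by
  have e : a = (N : lrgR q) * s + b := by linear_combination h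
  rw [e, lrgXp_add, map_mul, lrgMk_Xp_mul hq, one_mul]

theorem lrgMk_Xm_congr (hq : q ≠ 0) {a b s : lrgR q} (h : a - b = (N : lrgR q) * s) :
    lrgMk N q (lrgXm a) = lrgMk N q (lrgXm b) := by
  have e : a = (N : lrgR q) * s + b := by linear_combination h
  rw [e, lrgXm_add, map_mul, lrgMk_Xm_mul hq, one_mul]

/-- `h_D ∈ Q(N)` for a unit `D ≡ 1 (mod N)` -/
theorem lrgMk_H (hq : q ≠ 0) (D : (lrgR q)ˣ) (t : lrgR q) (hD : (D : lrgR q) - 1 = (N : lrgR q) * t) :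
    lrgMk N q (lrgH D) = 1 := by
  rw [lrgH_eq D (N : lrgR q) t (by rw [hD]), map_mul, map_mul, map_mul]
  have h1 : lrgMk N q (lrgXm (N : lrgR q)) = 1 := by
    have := lrgMk_Xm_mul (N := N) hq (1 : lrgR q)
    rwa [mul_one] at this
  have h2 : lrgMk N q (lrgXm (-(N : lrgR q) * ↑D⁻¹)) = 1 := by
    have := lrgMk_Xm_mul (N := N) hq (-(↑D⁻¹ : lrgR q))
    have e : (N : lrgR q) * -(↑D⁻¹ : lrgR q) = -(N : lrgR q) * ↑D⁻¹ := by ring
    rwa [e] at this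
  rw [h1, h2, mul_one, mul_one, ← map_mul, ← lrgXp_add]
  have e : -t * (↑D⁻¹ : lrgR q) + t = (N : lrgR q) * (t ^ 2 * ↑D⁻¹) := by
    have h3 : (D : lrgR q) * ↑D⁻¹ = 1 := D.mul_inv
    linear_combination (t * ↑D⁻¹) * hD - t * h3
  rw [e, lrgMk_Xp_mul hq]


/-- two homomorphisms `ℤ[1/q] → G` killing `N ℤ[1/q]` and agreeing at an integer prime to `N`
agree everywhere -/
theorem lrg_hom_ext {G : Type*} [Group G] (hNq : N.Coprime q)
    (f₁ f₂ : Multiplicative (lrgR q) →* G)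
    (h₁ : ∀ s : lrgR q, f₁ (Multiplicative.ofAdd ((N : lrgR q) * s)) = 1)
    (h₂ : ∀ s : lrgR q, f₂ (Multiplicative.ofAdd ((N : lrgR q) * s)) = 1)
    (M : ℤ) (hM : IsCoprime M (N : ℤ))
    (h : f₁ (Multiplicative.ofAdd (M : lrgR q)) = f₂ (Multiplicative.ofAdd (M : lrgR q)))
    (t : lrgR q) : f₁ (Multiplicative.ofAdd t) = f₂ (Multiplicative.ofAdd t) := by
  obtain ⟨r, s', hrs⟩ := hM
  have key : ∀ f : Multiplicative (lrgR q) →* G,
      (∀ s : lrgR q, f (Multiplicative.ofAdd ((N : lrgR q) * s)) = 1) →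
      f (Multiplicative.ofAdd t) = (f (Multiplicative.ofAdd (M : lrgR q)) ^ r) ^
        (Classical.choose (lrg_exists_int (Nat.Coprime.symm hNq.symm) t)) := by
    intro f hf
    obtain ⟨s, hs⟩ := Classical.choose_spec (lrg_exists_int (Nat.Coprime.symm hNq.symm) t)
    set j := Classical.choose (lrg_exists_int (Nat.Coprime.symm hNq.symm) t) with hj
    have h1 : f (Multiplicative.ofAdd (1 : lrgR q)) = f (Multiplicative.ofAdd (M : lrgR q)) ^ r := by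
      have e : (1 : lrgR q) = r • (M : lrgR q) + (N : lrgR q) * (s' : lrgR q) := by
        have : ((r * M + s' * N : ℤ) : lrgR q) = 1 := by rw [hrs]; simp
        rw [← this]; push_cast; simp; ring
      conv_lhs => rw [e]
      rw [ofAdd_add, map_mul, hf, mul_one, ofAdd_zsmul, map_zpow]
    have e2 : t = j • (1 : lrgR q) + (N : lrgR q) * s := by
      conv_lhs => rw [hs]
      simp
    conv_lhs => rw [e2]
    rw [ofAdd_add, map_mul, hf, mul_one, ofAdd_zsmul, map_zpow, h1]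
  rw [key f₁ h₁, key f₂ h₂, h]

/-- the statement `P(γ)` -/
def LrgP (N q : ℕ) (γ : LrgG q) : Prop :=
  ∀ t : lrgR q, lrgMk N q (γ * lrgXp t * γ⁻¹) = lrgMk N q (lrgXp (γ 0 0 ^ 2 * t))

/-- **Core (unit trick).** -/
theorem lrg_core (hq : q ≠ 0) (hNq : N.Coprime q) (γ : LrgG q) (c₀ : lrgR q)
    (hc : γ 1 0 = (N : lrgR q) * c₀) (M : ℤ) (hM : IsCoprime M (N : ℤ)) (D : (lrgR q)ˣ)
    (hD : (D : lrgR q) = 1 + (M : lrgR q) * γ 0 0 * γ 1 0) : LrgP N q γ := by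
  intro t
  set a := γ 0 0 with ha
  set c := γ 1 0 with hc'
  have h3 : (D : lrgR q) * ↑D⁻¹ = 1 := D.mul_inv
  -- the value at `M`
  have hM1 : lrgMk N q (γ * lrgXp (M : lrgR q) * γ⁻¹) =
      lrgMk N q (lrgXp (a ^ 2 * (M : lrgR q))) := by
    rw [lrg_conj_eq', lrgConjMat_eq _ _ _ D hD, map_mul, map_mul]
    have e1 : lrgMk N q (lrgH D) = 1 := by
      apply lrgMk_H hq D ((M : lrgR q) * a * c₀)
      rw [hD, hc]; ring
    have e2 : lrgMk N q (lrgXm (-((M : lrgR q) * c ^ 2) * ↑D⁻¹)) = 1 := by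
      have e : -((M : lrgR q) * c ^ 2) * (↑D⁻¹ : lrgR q) =
          (N : lrgR q) * (-((M : lrgR q) * c₀ * c * ↑D⁻¹)) := by rw [hc]; ring
      rw [e, lrgMk_Xm_mul hq]
    rw [e1, e2, mul_one, mul_one]
    apply lrgMk_Xp_congr hq (s := -((M : lrgR q) ^ 2 * a ^ 3 * c₀ * ↑D⁻¹))
    rw [hc] at hD
    linear_combination (-((M : lrgR q) * a ^ 2 * ↑D⁻¹)) * hD + ((M : lrgR q) * a ^ 2) * h3
  -- two homomorphisms
  let f₁ : Multiplicative (lrgR q) →* LrgGbar N q :=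
    (MulAut.conj (lrgMk N q γ)).toMonoidHom.comp (lrgXpBar N q)
  let f₂ : Multiplicative (lrgR q) →* LrgGbar N q :=
    (lrgXpBar N q).comp (AddMonoidHom.toMultiplicative (AddMonoidHom.mulLeft (a ^ 2)))
  have hf₁ : ∀ s : lrgR q, f₁ (Multiplicative.ofAdd s) = lrgMk N q (γ * lrgXp s * γ⁻¹) := by
    intro s
    simp [f₁, lrgXpBar_apply, MulAut.conj_apply]
  have hf₂ : ∀ s : lrgR q, f₂ (Multiplicative.ofAdd s) = lrgMk N q (lrgXp (a ^ 2 * s)) := by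
    intro s
    rfl
  have := lrg_hom_ext hNq f₁ f₂ (fun s => by
      rw [hf₁, map_mul, map_mul, lrgMk_Xp_mul hq, mul_one, map_inv, mul_inv_cancel])
    (fun s => by
      rw [hf₂]
      have e : a ^ 2 * ((N : lrgR q) * s) = (N : lrgR q) * (a ^ 2 * s) := by ring
      rw [e, lrgMk_Xp_mul hq]) M hM (by rw [hf₁, hf₂, hM1]) t
  rw [hf₁, hf₂] at this
  exact this

/-- move: left multiplication by `x⁺(N s)` -/
theorem lrgP_of_Xp (hq : q ≠ 0) (γ : LrgG q) (s : lrgR q)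
    (h : LrgP N q (lrgXp ((N : lrgR q) * s) * γ)) : LrgP N q γ := by
  intro t
  have h1 := h t
  rw [_root_.mul_inv_rev, map_mul, map_mul, map_mul, map_mul, map_inv, map_inv, lrgMk_Xp_mul hq] at h1
  simp only [one_mul, inv_one, mul_one] at h1
  rw [map_mul, map_mul, map_inv, h1]
  apply lrgMk_Xp_congr hq (s := (2 * γ 0 0 * s * γ 1 0 + (N : lrgR q) * s ^ 2 * γ 1 0 ^ 2) * t)
  simp only [lrg_mul_apply, lrgXp_00, lrgXp_01]
  ring

/-- move: left multiplication by `x⁻(N s)` -/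
theorem lrgP_of_Xm (hq : q ≠ 0) (γ : LrgG q) (s : lrgR q)
    (h : LrgP N q (lrgXm ((N : lrgR q) * s) * γ)) : LrgP N q γ := by
  intro t
  have h1 := h t
  rw [_root_.mul_inv_rev, map_mul, map_mul, map_mul, map_mul, map_inv, map_inv, lrgMk_Xm_mul hq] at h1
  simp only [one_mul, inv_one, mul_one] at h1
  rw [map_mul, map_mul, map_inv, h1]
  congr 2
  simp only [lrg_mul_apply, lrgXm_00, lrgXm_01]
  ring

/-- move: right multiplication by `h_u` -/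
theorem lrgP_of_H (γ : LrgG q) (u : (lrgR q)ˣ) (h : LrgP N q (γ * lrgH u)) : LrgP N q γ := by
  intro t
  have h1 := h ((u : lrgR q) ^ 2 * t)
  have h3 : (u : lrgR q) * ↑u⁻¹ = 1 := u.mul_inv
  have e1 : γ * lrgH u * lrgXp ((u : lrgR q) ^ 2 * t) * (γ * lrgH u)⁻¹ = γ * lrgXp t * γ⁻¹ := by
    have : lrgH u * lrgXp ((u : lrgR q) ^ 2 * t) * (lrgH u)⁻¹ = lrgXp t := by
      rw [lrgH_conj_Xp]
      congr 1
      linear_combination ((↑u⁻¹ : lrgR q) * (u : lrgR q) * t + t) * h3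
    rw [← this]
    group
  have e2 : (γ * lrgH u) 0 0 ^ 2 * ((u : lrgR q) ^ 2 * t) = γ 0 0 ^ 2 * t := by
    simp only [lrg_mul_apply, lrgH_00, lrgH_10]
    linear_combination (γ 0 0 ^ 2 * t * ((↑u⁻¹ : lrgR q) * (u : lrgR q) + 1)) * h3
  rw [e1, e2] at h1
  exact h1


/-- integers that are unimodular over `ℤ[1/q]`, one of them prime to `q`, are coprime -/
theorem lrg_isCoprime_of_unimodular {a c : ℤ} (X Y : lrgR q)
    (h : X * (a : lrgR q) + Y * (c : lrgR q) = 1) (haq : IsCoprime a (q : ℤ)) :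
    IsCoprime c a := by
  obtain ⟨k, x, hx⟩ := X.2
  obtain ⟨l, y, hy⟩ := Y.2
  have h1 : (X : ℚ) * a + (Y : ℚ) * c = 1 := by
    have := congrArg (fun z : lrgR q => (z : ℚ)) h
    simpa using this
  have h2 : x * (q : ℤ) ^ l * a + y * (q : ℤ) ^ k * c = (q : ℤ) ^ (k + l) := by
    have : ((x * (q : ℤ) ^ l * a + y * (q : ℤ) ^ k * c : ℤ) : ℚ) = (((q : ℤ) ^ (k + l) : ℤ) : ℚ) := by
      push_cast
      rw [← hx, ← hy, pow_add]
      linear_combination ((q : ℚ) ^ k * (q : ℚ) ^ l) * h1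
    exact_mod_cast this
  have hcop : IsCoprime a ((q : ℤ) ^ (k + l)) := haq.pow_right
  obtain ⟨u, v, huv⟩ := hcop
  exact ⟨v * y * (q : ℤ) ^ k, u + v * x * (q : ℤ) ^ l, by linear_combination huv + v * h2⟩

/-- `P(γ)` when `γ 0 0` is a positive integer prime to `q` -/
theorem lrg_P_nat (hq : q.Prime) (hN : 0 < N) (hNq : N.Coprime q) (γ : LrgG q) (c₀ : lrgR q)
    (hc : γ 1 0 = (N : lrgR q) * c₀) (a₁ : ℕ) (ha₁ : 0 < a₁) (ha₁q : a₁.Coprime q)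
    (ha : γ 0 0 = (a₁ : lrgR q)) : LrgP N q γ := by
  have hdet := lrg_det γ
  have haqZ : IsCoprime (a₁ : ℤ) (q : ℤ) := Nat.isCoprime_iff_coprime.mpr ha₁q
  -- `a₁` is prime to `N`
  have hNa : IsCoprime ((N : ℕ) : ℤ) (a₁ : ℤ) := by
    apply lrg_isCoprime_of_unimodular (q := q) (γ 1 1) (-(γ 0 1 * c₀)) _ haqZ
    rw [ha, hc] at hdet
    push_cast
    linear_combination hdet
  have ha₁N : a₁.Coprime N := (Nat.isCoprime_iff_coprime.mp hNa).symm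
  -- an integer `c₃ ≡ γ 1 0`
  have hmq : (N * a₁).Coprime q := Nat.Coprime.mul_left hNq ha₁q
  obtain ⟨c₃, s', hs'⟩ := lrg_exists_int hmq (γ 1 0)
  have hNc₃ : (N : ℤ) ∣ c₃ := by
    apply lrg_int_dvd hNq (s := c₀ - (a₁ : lrgR q) * s')
    rw [hc] at hs'
    push_cast at hs'
    linear_combination -hs'
  have hc₃a : IsCoprime c₃ (a₁ : ℤ) := by
    apply lrg_isCoprime_of_unimodular (q := q) (γ 1 1 - γ 0 1 * (N : lrgR q) * s') (-(γ 0 1)) _ haqZ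
    rw [ha, hs'] at hdet
    push_cast at hdet ⊢
    linear_combination hdet
  obtain ⟨c', M, L, hdvd, hMN, hL⟩ := lrg_nt hq hN ha₁ hNq ha₁q ha₁N c₃ hNc₃ hc₃a
  obtain ⟨d', hd'⟩ := hdvd
  obtain ⟨e₃, he₃⟩ := hNc₃
  -- move `γ 1 0` to `c'`
  apply lrgP_of_Xm hq.ne_zero γ ((d' : lrgR q) - s')
  set γ₄ := lrgXm ((N : lrgR q) * ((d' : lrgR q) - s')) * γ with hγ₄
  have h00 : γ₄ 0 0 = (a₁ : lrgR q) := by
    rw [hγ₄, lrg_mul_apply, lrgXm_00, lrgXm_01, ha]; ring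
  have h10 : γ₄ 1 0 = (c' : lrgR q) := by
    rw [hγ₄, lrg_mul_apply, lrgXm_10, lrgXm_11, ha, hs']
    have : (c' : lrgR q) - (c₃ : lrgR q) = (N : lrgR q) * (a₁ : lrgR q) * (d' : lrgR q) := by
      have := congrArg (fun z : ℤ => (z : lrgR q)) hd'
      push_cast at this
      exact this
    push_cast
    linear_combination -this
  apply lrg_core hq.ne_zero hNq γ₄ ((e₃ + a₁ * d' : ℤ) : lrgR q) _ M hMN ((lrgQu q hq.ne_zero) ^ L)
  · rw [h00, h10, Units.val_pow_eq_pow_val]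
    apply Subtype.ext
    have : ((1 + M * a₁ * c' : ℤ) : ℚ) = (((q : ℤ) ^ L : ℤ) : ℚ) := by rw [hL]
    push_cast at this ⊢
    rw [lrgQu_val]
    exact this.symm
  · rw [h10]
    have : c' = N * (e₃ + a₁ * d') := by linear_combination hd' + he₃
    rw [this]
    push_cast
    ring

/-- `P(γ)` when `γ 0 0 ≠ 0` -/
theorem lrg_P_ne (hq : q.Prime) (hN : 0 < N) (hNq : N.Coprime q) (γ : LrgG q) (c₀ : lrgR q)
    (hc : γ 1 0 = (N : lrgR q) * c₀) (ha : γ 0 0 ≠ 0) : LrgP N q γ := by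
  obtain ⟨k, m, hk⟩ := (γ 0 0).2
  have hq' : (q : ℚ) ≠ 0 := Nat.cast_ne_zero.2 hq.ne_zero
  have hm : m ≠ 0 := by
    rintro rfl
    have h0 : ((γ 0 0 : lrgR q) : ℚ) = 0 := by
      have : ((γ 0 0 : lrgR q) : ℚ) * (q : ℚ) ^ k = 0 := by rw [hk]; simp
      rcases mul_eq_zero.mp this with h | h
      · exact h
      · exact absurd h (pow_ne_zero k hq')
    exact ha (Subtype.ext h0)
  obtain ⟨e, a₁, ha₁q, hma⟩ := Nat.exists_eq_pow_mul_and_not_dvd (Int.natAbs_ne_zero.mpr hm) q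
    hq.ne_one
  have ha₁pos : 0 < a₁ := Nat.pos_of_ne_zero (by
    rintro rfl
    rw [mul_zero] at hma
    exact (Int.natAbs_ne_zero.mpr hm) hma)
  have ha₁q' : a₁.Coprime q := ((Nat.Prime.coprime_iff_not_dvd hq).mpr ha₁q).symm
  -- the sign
  obtain ⟨ε, hε, hmε⟩ : ∃ ε : (lrgR q)ˣ, ((ε : lrgR q) : ℚ) ^ 2 = 1 ∧
      (m : ℚ) = ((ε : lrgR q) : ℚ) * (m.natAbs : ℚ) := by
    rcases Int.natAbs_eq m with h | h
    · refine ⟨1, by simp, ?_⟩
      rw [Units.val_one]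
      push_cast
      rw [one_mul]
      conv_lhs => rw [h]
      exact Int.cast_natCast _
    · refine ⟨-1, by simp, ?_⟩
      rw [Units.val_neg, Units.val_one]
      push_cast
      have : (m : ℚ) = -((m.natAbs : ℤ) : ℚ) := by
        conv_lhs => rw [h]
        push_cast
        rfl
      rw [this, Int.cast_natCast]; ring
  set Qu := lrgQu q hq.ne_zero with hQu
  set u : (lrgR q)ˣ := ε * Qu ^ k * Qu⁻¹ ^ e with hu
  have huval : ((u : lrgR q) : ℚ) = ((ε : lrgR q) : ℚ) * (q : ℚ) ^ k * ((q : ℚ)⁻¹) ^ e := by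
    rw [hu, Units.val_mul, Units.val_mul, Units.val_pow_eq_pow_val, Units.val_pow_eq_pow_val]
    push_cast
    rfl
  apply lrgP_of_H γ u⁻¹
  apply lrg_P_nat hq hN hNq _ (c₀ * (u : lrgR q)) _ a₁ ha₁pos ha₁q'
  · rw [lrg_mul_apply, lrgH_00, lrgH_10, inv_inv, mul_zero, add_zero]
    apply Subtype.ext
    push_cast
    rw [huval]
    have h1 : ((γ 0 0 : lrgR q) : ℚ) = m * ((q : ℚ) ^ k)⁻¹ := by
      rw [← hk]; field_simp
    have h2 : (m.natAbs : ℚ) = (q : ℚ) ^ e * a₁ := by exact_mod_cast hma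
    rw [h1, hmε, h2, inv_pow]
    have hε' : ((ε : lrgR q) : ℚ) * ((ε : lrgR q) : ℚ) = 1 := by rw [← sq]; exact hε
    field_simp
    linear_combination hε
  · rw [lrg_mul_apply, lrgH_00, lrgH_10, inv_inv, mul_zero, add_zero, hc]
    ring

/-- **`P(γ)`**: for `γ ∈ SL₂(ℤ[1/q])` with `γ 1 0 ∈ N ℤ[1/q]`,
`γ x⁺(t) γ⁻¹ ≡ x⁺((γ 0 0)² t) (mod Q(N))`. -/
theorem lrg_P (hq : q.Prime) (hN : 0 < N) (hNq : N.Coprime q) (γ : LrgG q) (c₀ : lrgR q)
    (hc : γ 1 0 = (N : lrgR q) * c₀) : LrgP N q γ := by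
  by_cases ha : γ 0 0 = 0
  · have hdet := lrg_det γ
    have hc0 : γ 1 0 ≠ 0 := by
      intro h0
      rw [ha, h0] at hdet
      simp at hdet
    apply lrgP_of_Xp hq.ne_zero γ 1
    apply lrg_P_ne hq hN hNq _ c₀
    · rw [lrg_mul_apply, lrgXp_10, lrgXp_11, zero_mul, zero_add, one_mul, hc]
    · rw [lrg_mul_apply, lrgXp_00, lrgXp_01, ha, mul_zero, zero_add, mul_one]
      have hN0 : (N : lrgR q) ≠ 0 := by
        have : ((N : ℕ) : lrgR q) ≠ 0 := Nat.cast_ne_zero.2 hN.ne'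
        exact this
      exact mul_ne_zero hN0 hc0
  · exact lrg_P_ne hq hN hNq γ c₀ hc ha

end quotient

end Fermat.Agent.LR
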