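/-
LR / F1-(I) GLOBAL (helper6), file 4: `SL₂(ℤ[1/q])` is generated by the elementary matrices
`x⁺(t), x⁻(t)`, `t ∈ ℤ[1/q]`  (`lrgE_eq_top`).
-/
import Mathlib
import Fermat.Agent.Lib.LR.CSP.GlobalMat

set_option autoImplicit false

open Matrix MatrixGroups

namespace Fermat.Agent.LR

variable {q : ℕ}

/-- the subgroup generated by the elementary matrices -/
def lrgE (q : ℕ) : Subgroup (LrgG q) :=
  Subgroup.closure (Set.range (lrgXp : lrgR q → LrgG q) ∪ Set.range (lrgXm : lrgR q → LrgG q))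

theorem lrgXp_mem_lrgE (t : lrgR q) : lrgXp t ∈ lrgE q :=
  Subgroup.subset_closure (Or.inl ⟨t, rfl⟩)

theorem lrgXm_mem_lrgE (t : lrgR q) : lrgXm t ∈ lrgE q :=
  Subgroup.subset_closure (Or.inr ⟨t, rfl⟩)

theorem lrgH_mem_lrgE (u : (lrgR q)ˣ) : lrgH u ∈ lrgE q := by
  rw [lrgH_eq u 1 ((u : lrgR q) - 1) (by ring)]
  exact mul_mem (mul_mem (mul_mem (lrgXp_mem_lrgE _) (lrgXm_mem_lrgE _)) (lrgXp_mem_lrgE _))
    (lrgXm_mem_lrgE _)

/-- `SL₂(ℤ) → SL₂(ℤ[1/q])` -/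
def lrgOfInt (q : ℕ) : SL(2, ℤ) →* LrgG q := SpecialLinearGroup.map (Int.castRingHom (lrgR q))

theorem lrgOfInt_apply (γ : SL(2, ℤ)) (i j : Fin 2) :
    lrgOfInt q γ i j = ((γ i j : ℤ) : lrgR q) := rfl

theorem lrgOfInt_S : lrgOfInt q ModularGroup.S = lrgXp (-1) * lrgXm 1 * lrgXp (-1) := by
  ext i j
  rw [lrgOfInt_apply]
  fin_cases i <;> fin_cases j <;> simp [lrg_mul_apply, ModularGroup.coe_S]

theorem lrgOfInt_T : lrgOfInt q ModularGroup.T = lrgXp 1 := by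
  ext i j
  rw [lrgOfInt_apply]
  fin_cases i <;> fin_cases j <;> simp [ModularGroup.coe_T]

theorem lrgOfInt_mem_lrgE (γ : SL(2, ℤ)) : lrgOfInt q γ ∈ lrgE q := by
  have h : γ ∈ Subgroup.closure {ModularGroup.S, ModularGroup.T} := by
    rw [SpecialLinearGroup.SL2Z_generators]; exact Subgroup.mem_top _
  induction h using Subgroup.closure_induction with
  | mem x hx =>
    rcases hx with rfl | rfl
    · rw [lrgOfInt_S]
      exact mul_mem (mul_mem (lrgXp_mem_lrgE _) (lrgXm_mem_lrgE _)) (lrgXp_mem_lrgE _)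
    · rw [lrgOfInt_T]; exact lrgXp_mem_lrgE _
  | one => rw [map_one]; exact one_mem _
  | mul x y _ _ hx hy => rw [map_mul]; exact mul_mem hx hy
  | inv x _ hx => rw [map_inv]; exact inv_mem hx

/-- the Bezout matrix `[[u, v], [-y, x]]` -/
def lrgBez (u v x y : ℤ) (h : u * x + v * y = 1) : SL(2, ℤ) :=
  ⟨!![u, v; -y, x], by rw [det_fin_two_of]; linarith⟩

section entries
variable (u v x y : ℤ) (h : u * x + v * y = 1)
@[simp] theorem lrgBez_00 : lrgBez u v x y h 0 0 = u := rfl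
@[simp] theorem lrgBez_01 : lrgBez u v x y h 0 1 = v := rfl
@[simp] theorem lrgBez_10 : lrgBez u v x y h 1 0 = -y := rfl
@[simp] theorem lrgBez_11 : lrgBez u v x y h 1 1 = x := rfl
end entries

/-- an upper triangular matrix is `h_δ x⁺(t)` -/
theorem lrg_upper_mem_lrgE (g : LrgG q) (h10 : g 1 0 = 0) : g ∈ lrgE q := by
  have hdet := lrg_det g
  rw [h10, mul_zero, sub_zero] at hdet
  set δ : (lrgR q)ˣ := Units.mkOfMulEqOne (g 1 1) (g 0 0) (by rw [mul_comm]; exact hdet) with hδ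
  have h1 : (δ : lrgR q) = g 1 1 := rfl
  have h2 : ((δ⁻¹ : (lrgR q)ˣ) : lrgR q) = g 0 0 := rfl
  have e : g = lrgH δ * lrgXp (g 0 1 * g 1 1) := by
    ext i j
    have hdet' : ((g 0 0 : lrgR q) : ℚ) * ((g 1 1 : lrgR q) : ℚ) = 1 := by
      have := congrArg (fun z : lrgR q => (z : ℚ)) hdet
      simpa using this
    fin_cases i <;> fin_cases j <;> simp [lrg_mul_apply, h1, h2, h10]
    linear_combination (-((g 0 1 : lrgR q) : ℚ)) * hdet'
  rw [e]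
  exact mul_mem (lrgH_mem_lrgE _) (lrgXp_mem_lrgE _)

/-- **`SL₂(ℤ[1/q])` is generated by elementary matrices.** -/
theorem lrgE_eq_top (hq : q ≠ 0) : lrgE q = ⊤ := by
  rw [eq_top_iff]
  intro g _
  obtain ⟨k, ma, hka⟩ := (g 0 0).2
  obtain ⟨l, mc, hlc⟩ := (g 1 0).2
  set u : (lrgR q)ˣ := (lrgQu q hq)⁻¹ ^ (k + l) with hu
  have huinv : (((↑u⁻¹ : lrgR q)) : ℚ) = (q : ℚ) ^ (k + l) := by
    rw [hu, ← inv_pow, inv_inv, Units.val_pow_eq_pow_val]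
    push_cast
    rw [lrgQu_val]
  obtain ⟨x, hx⟩ : ∃ x : ℤ, x = ma * (q : ℤ) ^ l := ⟨_, rfl⟩
  obtain ⟨y, hy⟩ : ∃ y : ℤ, y = mc * (q : ℤ) ^ k := ⟨_, rfl⟩
  obtain ⟨g₁, hg₁⟩ : ∃ g₁ : LrgG q, g₁ = g * lrgH u := ⟨_, rfl⟩
  have h00 : g₁ 0 0 = (x : lrgR q) := by
    rw [hg₁, lrg_mul_apply, lrgH_00, lrgH_10, mul_zero, add_zero]
    apply Subtype.ext
    push_cast
    rw [huinv, hx]
    push_cast
    rw [← hka, pow_add]
    ring
  have h10 : g₁ 1 0 = (y : lrgR q) := by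
    rw [hg₁, lrg_mul_apply, lrgH_00, lrgH_10, mul_zero, add_zero]
    apply Subtype.ext
    push_cast
    rw [huinv, hy]
    push_cast
    rw [← hlc, pow_add]
    ring
  have hdet₁ := lrg_det g₁
  have hpos : 0 < Int.gcd x y := by
    rw [Int.gcd_pos_iff]
    by_contra hcon
    push Not at hcon
    rw [h00, h10, hcon.1, hcon.2] at hdet₁
    simp at hdet₁
  obtain ⟨x', y', hcop, hx', hy'⟩ := Int.exists_gcd_one hpos
  obtain ⟨d, hd⟩ : ∃ d : ℤ, d = (Int.gcd x y : ℤ) := ⟨_, rfl⟩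
  rw [← hd] at hx' hy'
  obtain ⟨u', v', huv⟩ := Int.isCoprime_iff_gcd_eq_one.mpr hcop
  obtain ⟨g₂, hg₂⟩ : ∃ g₂ : LrgG q, g₂ = lrgOfInt q (lrgBez u' v' x' y' huv) * g₁ := ⟨_, rfl⟩
  have k10 : g₂ 1 0 = 0 := by
    rw [hg₂, lrg_mul_apply, lrgOfInt_apply, lrgOfInt_apply, h00, h10, lrgBez_10, lrgBez_11]
    have h0 : -y' * x + x' * y = 0 := by
      rw [hx', hy']
      ring
    have := congrArg (fun z : ℤ => (z : lrgR q)) h0
    push_cast at this ⊢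
    exact this
  have hmem := lrg_upper_mem_lrgE g₂ k10
  have e : g = (lrgOfInt q (lrgBez u' v' x' y' huv))⁻¹ * g₂ * (lrgH u)⁻¹ := by
    rw [hg₂, hg₁]; group
  rw [e]
  exact mul_mem (mul_mem (inv_mem (lrgOfInt_mem_lrgE _)) hmem) (inv_mem (lrgH_mem_lrgE _))

theorem lrg_closure_elem (hq : q ≠ 0) :
    Subgroup.closure (Set.range (lrgXp : lrgR q → LrgG q) ∪ Set.range (lrgXm : lrgR q → LrgG q)) = ⊤ :=
  lrgE_eq_top hq

end Fermat.Agent.LR
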