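/-
LR-CSP (helper3): the product step (II) of the F1 plan.
* `lrtComap`: Steinberg data pull back along ring homomorphisms.
* `lrt_commute_of_mul_eq_zero`: with a central kernel, `yp x` and `ym y` commute if `x * y = 0`
  and `x`, `y` are killed by coprime integers.
* `lrtFst`: Steinberg data over `A₁ × A₂` induce Steinberg data over `A₁`.
* `lrt_kerProp_prod`, `lrt_kerProp_of_ringEquiv`, `lrt_kerProp_zmod`.
-/
import Mathlib
import Fermat.Agent.Lib.LR.CSP.Transfer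

set_option autoImplicit false

namespace Fermat.Agent.LR

open Matrix MatrixGroups

universe u v

section comap

variable {A B : Type*} [CommRing A] [CommRing B] {Y : Type*} [Group Y]

/-- pull back Steinberg data along a ring homomorphism. -/
def lrtComap (D : LrsData A Y) (ψ : B →+* A) : LrsData B Y where
  yp b := D.yp (ψ b)
  ym b := D.ym (ψ b)
  yp_add s t := by rw [map_add, D.yp_add]
  ym_add s t := by rw [map_add, D.ym_add]
  rel u t := by
    have h := D.rel (Units.map (ψ : B →* A) u) (ψ t)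
    have e1 : ((Units.map (ψ : B →* A) u : Aˣ) : A) = ψ (u : B) := rfl
    have e2 : ((↑(Units.map (ψ : B →* A) u)⁻¹ : Aˣ) : A) = ψ ((↑u⁻¹ : Bˣ) : B) := rfl
    rw [e1, e2] at h
    rw [map_neg, map_mul, map_neg, map_pow]
    exact h

@[simp] theorem lrtComap_yp (D : LrsData A Y) (ψ : B →+* A) (b : B) :
    (lrtComap D ψ).yp b = D.yp (ψ b) := rfl

@[simp] theorem lrtComap_ym (D : LrsData A Y) (ψ : B →+* A) (b : B) :
    (lrtComap D ψ).ym b = D.ym (ψ b) := rfl

/-- restrict Steinberg data to a subgroup containing them. -/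
def lrtRestrict (D : LrsData A Y) (H : Subgroup Y) (hp : ∀ t, D.yp t ∈ H)
    (hm : ∀ t, D.ym t ∈ H) : LrsData A H where
  yp t := ⟨D.yp t, hp t⟩
  ym t := ⟨D.ym t, hm t⟩
  yp_add s t := Subtype.ext (D.yp_add s t)
  ym_add s t := Subtype.ext (D.ym_add s t)
  rel u t := Subtype.ext (D.rel u t)

@[simp] theorem lrtRestrict_yp (D : LrsData A Y) (H : Subgroup Y) (hp : ∀ t, D.yp t ∈ H)
    (hm : ∀ t, D.ym t ∈ H) (t : A) : ((lrtRestrict D H hp hm).yp t : Y) = D.yp t := rfl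

@[simp] theorem lrtRestrict_ym (D : LrsData A Y) (H : Subgroup Y) (hp : ∀ t, D.yp t ∈ H)
    (hm : ∀ t, D.ym t ∈ H) (t : A) : ((lrtRestrict D H hp hm).ym t : Y) = D.ym t := rfl

end comap

section commute

open scoped commutatorElement

theorem lrt_comm_pow {G : Type*} [Group G] (f : ℕ → G) (hf0 : f 0 = 1)
    (hfs : ∀ k, f (k + 1) = f k * f 1) (z : G) (hc : ⁅f 1, z⁆ ∈ Subgroup.center G) :
    ∀ k, ⁅f k, z⁆ = ⁅f 1, z⁆ ^ k := by
  intro k
  induction k with
  | zero => rw [hf0, commutatorElement_one_left, pow_zero]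
  | succ k ih =>
    have h1 : ⁅f k * f 1, z⁆ = f k * ⁅f 1, z⁆ * (f k)⁻¹ * ⁅f k, z⁆ := by
      simp only [commutatorElement_def]; group
    rw [Subgroup.mem_center_iff] at hc
    rw [hfs, h1, hc (f k), mul_inv_cancel_right, ih, pow_succ']

variable {A : Type*} [CommRing A] {Y : Type*} [Group Y] (D : LrsData A Y) (π : Y →* SL(2, A))

theorem lrt_map_commute (hp : ∀ t, π (D.yp t) = lrsXp t) (hm : ∀ t, π (D.ym t) = lrsXm t)
    (x y : A) (hxy : x * y = 0) :
    π (D.yp x) * π (D.ym y) = π (D.ym y) * π (D.yp x) := by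
  rw [hp, hm]
  have hyx : y * x = 0 := by rw [mul_comm]; exact hxy
  apply Matrix.SpecialLinearGroup.ext
  intro i j
  show ((!![1, x; 0, 1] : Matrix (Fin 2) (Fin 2) A) * !![1, 0; y, 1]) i j
    = ((!![1, 0; y, 1] : Matrix (Fin 2) (Fin 2) A) * !![1, x; 0, 1]) i j
  fin_cases i <;> fin_cases j <;> simp [Matrix.mul_apply, Fin.sum_univ_two, hxy, hyx]

/-- with a central kernel, `yp x` and `ym y` commute as soon as `x * y = 0` and `x`, `y` are
killed by coprime integers. -/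
theorem lrt_commute_of_mul_eq_zero (hp : ∀ t, π (D.yp t) = lrsXp t)
    (hm : ∀ t, π (D.ym t) = lrsXm t)
    (hcen : π.ker ≤ Subgroup.center Y) (x y : A) (hxy : x * y = 0) (n₁ n₂ : ℕ)
    (hcop : n₁.Coprime n₂) (hx : n₁ • x = 0) (hy : n₂ • y = 0) :
    Commute (D.yp x) (D.ym y) := by
  have hker : ⁅D.yp x, D.ym y⁆ ∈ π.ker := by
    rw [MonoidHom.mem_ker, map_commutatorElement, commutatorElement_eq_one_iff_commute]
    exact lrt_map_commute D π hp hm x y hxy
  have hc : ⁅D.yp x, D.ym y⁆ ∈ Subgroup.center Y := hcen hker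
  have hc' : ⁅D.ym y, D.yp x⁆ ∈ Subgroup.center Y := by
    rw [← commutatorElement_inv]; exact Subgroup.inv_mem _ hc
  have h1 : ⁅D.yp x, D.ym y⁆ ^ n₁ = 1 := by
    have := lrt_comm_pow (fun k => D.yp (k • x)) (by simp [D.yp_zero])
      (fun k => by simp only [one_smul, succ_nsmul, D.yp_add]) (D.ym y)
      (by simpa using hc) n₁
    simp only [one_smul] at this
    rw [← this, hx, D.yp_zero, commutatorElement_one_left]
  have h2 : ⁅D.yp x, D.ym y⁆ ^ n₂ = 1 := by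
    have := lrt_comm_pow (fun k => D.ym (k • y)) (by simp [D.ym_zero])
      (fun k => by simp only [one_smul, succ_nsmul, D.ym_add]) (D.yp x)
      (by simpa using hc') n₂
    simp only [one_smul] at this
    rw [hy, D.ym_zero, commutatorElement_one_left, ← commutatorElement_inv, inv_pow] at this
    exact inv_eq_one.1 this.symm
  have h3 := pow_gcd_eq_one.2 ⟨h1, h2⟩
  rw [Nat.Coprime.gcd_eq_one hcop, pow_one] at h3
  exact commutatorElement_eq_one_iff_commute.1 h3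

end commute

section fst

variable {A₁ A₂ : Type*} [CommRing A₁] [CommRing A₂] {Y : Type*} [Group Y]

/-- the unit `(u, 1)` of `A₁ × A₂`. -/
def lrtUnitFst (u : A₁ˣ) : (A₁ × A₂)ˣ :=
  ⟨((u : A₁), 1), ((↑u⁻¹ : A₁), 1), by ext <;> simp, by ext <;> simp⟩

/-- Steinberg data over `A₁ × A₂` induce Steinberg data over `A₁`, provided the two factors
commute. -/
def lrtFst (D : LrsData (A₁ × A₂) Y)
    (h1 : ∀ (s : A₁) (t : A₂), Commute (D.yp (s, 0)) (D.ym (0, t)))
    (h2 : ∀ (s : A₁) (t : A₂), Commute (D.ym (s, 0)) (D.yp (0, t))) : LrsData A₁ Y where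
  yp s := D.yp (s, 0)
  ym s := D.ym (s, 0)
  yp_add s t := by rw [← D.yp_add]; congr 1; ext <;> simp
  ym_add s t := by rw [← D.ym_add]; congr 1; ext <;> simp
  rel u t := by
    have key := D.rel (lrtUnitFst u) (t, 0)
    have eU : ((lrtUnitFst u : (A₁ × A₂)ˣ) : A₁ × A₂) = ((u : A₁), 0) + (0, 1) := by
      ext <;> simp [lrtUnitFst]
    have eUi : (-((↑(lrtUnitFst u)⁻¹ : (A₁ × A₂)ˣ) : A₁ × A₂)) = (-(↑u⁻¹ : A₁), 0) + (0, -1) := by
      ext <;> simp [lrtUnitFst]
    have eR : -((↑(lrtUnitFst u)⁻¹ : (A₁ × A₂)ˣ) : A₁ × A₂) ^ 2 * (t, 0)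
        = (-(↑u⁻¹ : A₁) ^ 2 * t, 0) := by
      ext <;> simp [lrtUnitFst]
    rw [eU, eUi, eR, D.yp_add, D.ym_add] at key
    -- abbreviations
    set a := D.yp ((u : A₁), (0 : A₂)) with ha
    set a' := D.yp ((0 : A₁), (1 : A₂)) with ha'
    set b := D.ym (-(↑u⁻¹ : A₁), (0 : A₂)) with hb
    set b' := D.ym ((0 : A₁), (-1 : A₂)) with hb'
    set x := D.yp (t, (0 : A₂)) with hx
    have c1 : a' * b = b * a' := ((h2 _ _).eq).symm
    have c2 : a' * a = a * a' := D.yp_comm _ _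
    have c3 : b' * a = a * b' := ((h1 _ _).eq).symm
    have c4 : Commute a' x := D.yp_comm _ _
    have c5 : Commute b' x := (h1 _ _).symm
    have e1 : a * a' * (b * b') * (a * a') = (a * b * a) * (a' * b' * a') := by
      calc a * a' * (b * b') * (a * a')
          = a * (a' * b) * b' * a * a' := by simp only [mul_assoc]
        _ = a * (b * a') * b' * a * a' := by rw [c1]
        _ = a * b * (a' * (b' * a)) * a' := by simp only [mul_assoc]
        _ = a * b * (a' * (a * b')) * a' := by rw [c3]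
        _ = a * b * ((a' * a) * b') * a' := by simp only [mul_assoc]
        _ = a * b * ((a * a') * b') * a' := by rw [c2]
        _ = (a * b * a) * (a' * b' * a') := by simp only [mul_assoc]
    have c6 : Commute (a' * b' * a') x := (c4.mul_left c5).mul_left c4
    rw [e1] at key
    rw [← key]
    have c7 : a' * b' * a' * x = x * (a' * b' * a') := c6.eq
    calc a * b * a * x * (a * b * a)⁻¹
        = a * b * a * (x * (a' * b' * a')) * (a' * b' * a')⁻¹ * (a * b * a)⁻¹ := by group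
      _ = a * b * a * (a' * b' * a') * x * (a * b * a * (a' * b' * a'))⁻¹ := by
          rw [← c7]; group

@[simp] theorem lrtFst_yp (D : LrsData (A₁ × A₂) Y) (h1 h2) (s : A₁) :
    (lrtFst D h1 h2).yp s = D.yp (s, 0) := rfl

@[simp] theorem lrtFst_ym (D : LrsData (A₁ × A₂) Y) (h1 h2) (s : A₁) :
    (lrtFst D h1 h2).ym s = D.ym (s, 0) := rfl

end fst

section mapSL

variable {A B : Type*} [CommRing A] [CommRing B]

theorem lrt_map_coe (f : A →+* B) (g : SL(2, A)) (i j : Fin 2) :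
    (SpecialLinearGroup.map f g : Matrix (Fin 2) (Fin 2) B) i j
      = f ((g : Matrix (Fin 2) (Fin 2) A) i j) := rfl

theorem lrt_map_lrsXp (f : A →+* B) (t : A) :
    SpecialLinearGroup.map f (lrsXp t) = lrsXp (f t) := by
  ext i j
  rw [lrt_map_coe]
  fin_cases i <;> fin_cases j <;> simp [lrsXp]

theorem lrt_map_lrsXm (f : A →+* B) (t : A) :
    SpecialLinearGroup.map f (lrsXm t) = lrsXm (f t) := by
  ext i j
  rw [lrt_map_coe]
  fin_cases i <;> fin_cases j <;> simp [lrsXm]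

theorem lrt_lrsXp_zero : lrsXp (0 : A) = 1 := by
  ext i j
  fin_cases i <;> fin_cases j <;> simp [lrsXp]

theorem lrt_lrsXm_zero : lrsXm (0 : A) = 1 := by
  ext i j
  fin_cases i <;> fin_cases j <;> simp [lrsXm]

theorem lrt_map_eq_one_of_injective (f : A →+* B) (hf : Function.Injective f) (g : SL(2, A))
    (hg : SpecialLinearGroup.map f g = 1) : g = 1 := by
  apply Matrix.SpecialLinearGroup.ext
  intro i j
  have h := congrArg (fun x : SL(2, B) => (x : Matrix (Fin 2) (Fin 2) B) i j) hg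
  simp only [lrt_map_coe] at h
  apply hf
  rw [h]
  show (1 : Matrix (Fin 2) (Fin 2) B) i j = f ((1 : Matrix (Fin 2) (Fin 2) A) i j)
  by_cases hij : i = j
  · subst hij; rw [Matrix.one_apply_eq, Matrix.one_apply_eq, map_one]
  · rw [Matrix.one_apply_ne hij, Matrix.one_apply_ne hij, map_zero]

theorem lrt_eq_one_of_fst_snd {A₁ A₂ : Type*} [CommRing A₁] [CommRing A₂] (g : SL(2, A₁ × A₂))
    (h1 : SpecialLinearGroup.map (RingHom.fst A₁ A₂) g = 1)
    (h2 : SpecialLinearGroup.map (RingHom.snd A₁ A₂) g = 1) : g = 1 := by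
  apply Matrix.SpecialLinearGroup.ext
  intro i j
  have e1 := congrArg (fun x : SL(2, A₁) => (x : Matrix (Fin 2) (Fin 2) A₁) i j) h1
  have e2 := congrArg (fun x : SL(2, A₂) => (x : Matrix (Fin 2) (Fin 2) A₂) i j) h2
  simp only [lrt_map_coe] at e1 e2
  show (g : Matrix (Fin 2) (Fin 2) (A₁ × A₂)) i j = (1 : Matrix (Fin 2) (Fin 2) (A₁ × A₂)) i j
  apply Prod.ext
  · rw [← RingHom.coe_fst, e1]
    show (1 : Matrix (Fin 2) (Fin 2) A₁) i j = ((1 : Matrix (Fin 2) (Fin 2) (A₁ × A₂)) i j).1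
    by_cases hij : i = j
    · subst hij; simp
    · simp [Matrix.one_apply_ne hij]
  · rw [← RingHom.coe_snd, e2]
    show (1 : Matrix (Fin 2) (Fin 2) A₂) i j = ((1 : Matrix (Fin 2) (Fin 2) (A₁ × A₂)) i j).2
    by_cases hij : i = j
    · subst hij; simp
    · simp [Matrix.one_apply_ne hij]

end mapSL

section prod

variable {A₁ A₂ : Type u} [CommRing A₁] [CommRing A₂] {Y : Type v} [Group Y]

/-- generators of the first factor. -/
def lrtGen1 (D : LrsData (A₁ × A₂) Y) : Set Y :=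
  Set.range (fun s : A₁ => D.yp (s, 0)) ∪ Set.range (fun s : A₁ => D.ym (s, 0))

/-- generators of the second factor. -/
def lrtGen2 (D : LrsData (A₁ × A₂) Y) : Set Y :=
  Set.range (fun s : A₂ => D.yp (0, s)) ∪ Set.range (fun s : A₂ => D.ym (0, s))

variable (D : LrsData (A₁ × A₂) Y) (π : Y →* SL(2, A₁ × A₂))

theorem lrt_snd_eq_one_of_mem_gen1 (hp : ∀ t, π (D.yp t) = lrsXp t)
    (hm : ∀ t, π (D.ym t) = lrsXm t) {y : Y} (hy : y ∈ Subgroup.closure (lrtGen1 D)) :
    SpecialLinearGroup.map (RingHom.snd A₁ A₂) (π y) = 1 := by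
  have hle : Subgroup.closure (lrtGen1 D)
      ≤ ((SpecialLinearGroup.map (RingHom.snd A₁ A₂)).comp π).ker := by
    rw [Subgroup.closure_le]
    rintro g (⟨s, rfl⟩ | ⟨s, rfl⟩)
    · show SpecialLinearGroup.map (RingHom.snd A₁ A₂) (π (D.yp (s, 0))) = 1
      rw [hp, lrt_map_lrsXp]
      exact lrt_lrsXp_zero
    · show SpecialLinearGroup.map (RingHom.snd A₁ A₂) (π (D.ym (s, 0))) = 1
      rw [hm, lrt_map_lrsXm]
      exact lrt_lrsXm_zero
  exact hle hy

theorem lrt_fst_eq_one_of_mem_gen2 (hp : ∀ t, π (D.yp t) = lrsXp t)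
    (hm : ∀ t, π (D.ym t) = lrsXm t) {y : Y} (hy : y ∈ Subgroup.closure (lrtGen2 D)) :
    SpecialLinearGroup.map (RingHom.fst A₁ A₂) (π y) = 1 := by
  have hle : Subgroup.closure (lrtGen2 D)
      ≤ ((SpecialLinearGroup.map (RingHom.fst A₁ A₂)).comp π).ker := by
    rw [Subgroup.closure_le]
    rintro g (⟨s, rfl⟩ | ⟨s, rfl⟩)
    · show SpecialLinearGroup.map (RingHom.fst A₁ A₂) (π (D.yp (0, s))) = 1
      rw [hp, lrt_map_lrsXp]
      exact lrt_lrsXp_zero
    · show SpecialLinearGroup.map (RingHom.fst A₁ A₂) (π (D.ym (0, s))) = 1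
      rw [hm, lrt_map_lrsXm]
      exact lrt_lrsXm_zero
  exact hle hy

/-- one-sided kernel lemma: elements of the first factor lying in `ker π` have order prime
to `p`. -/
theorem lrt_fst_ker (p : ℕ) (E₁ : LrtKerProp.{u, v} p A₁)
    (hp : ∀ t, π (D.yp t) = lrsXp t) (hm : ∀ t, π (D.ym t) = lrsXm t)
    (hcen : π.ker ≤ Subgroup.center Y)
    (h1 : ∀ (s : A₁) (t : A₂), Commute (D.yp (s, 0)) (D.ym (0, t)))
    (h2 : ∀ (s : A₁) (t : A₂), Commute (D.ym (s, 0)) (D.yp (0, t)))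
    (y : Y) (hy : y ∈ Subgroup.closure (lrtGen1 D)) (hπy : π y = 1) :
    ∃ m : ℕ, ¬ p ∣ m ∧ y ^ m = 1 := by
  set Y₁ : Subgroup Y := Subgroup.closure (lrtGen1 D) with hY₁
  have hpm : ∀ t, (lrtFst D h1 h2).yp t ∈ Y₁ := fun t =>
    Subgroup.subset_closure (Or.inl ⟨t, rfl⟩)
  have hmm : ∀ t, (lrtFst D h1 h2).ym t ∈ Y₁ := fun t =>
    Subgroup.subset_closure (Or.inr ⟨t, rfl⟩)
  set D₁ : LrsData A₁ Y₁ := lrtRestrict (lrtFst D h1 h2) Y₁ hpm hmm with hD₁
  set π₁ : Y₁ →* SL(2, A₁) :=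
    (SpecialLinearGroup.map (RingHom.fst A₁ A₂)).comp (π.comp Y₁.subtype) with hπ₁
  have hp₁ : ∀ t, π₁ (D₁.yp t) = lrsXp t := by
    intro t
    show SpecialLinearGroup.map (RingHom.fst A₁ A₂) (π (D.yp (t, 0))) = lrsXp t
    rw [hp, lrt_map_lrsXp]
    rfl
  have hm₁ : ∀ t, π₁ (D₁.ym t) = lrsXm t := by
    intro t
    show SpecialLinearGroup.map (RingHom.fst A₁ A₂) (π (D.ym (t, 0))) = lrsXm t
    rw [hm, lrt_map_lrsXm]
    rfl
  have hgen₁ : Subgroup.closure (Set.range D₁.yp ∪ Set.range D₁.ym) = ⊤ := by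
    have hset : Set.range D₁.yp ∪ Set.range D₁.ym
        = ((↑) : Subgroup.closure (lrtGen1 D) → Y) ⁻¹' (lrtGen1 D) := by
      ext ⟨z, hz⟩
      simp only [Set.mem_union, Set.mem_range, lrtGen1, Subtype.ext_iff]
      rfl
    rw [hset]
    exact Subgroup.closure_closure_coe_preimage
  have hcen₁ : π₁.ker ≤ Subgroup.center Y₁ := by
    intro z hz
    rw [MonoidHom.mem_ker] at hz
    have hz1 : SpecialLinearGroup.map (RingHom.fst A₁ A₂) (π (z : Y)) = 1 := hz
    have hz2 := lrt_snd_eq_one_of_mem_gen1 D π hp hm z.2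
    have hz3 : π (z : Y) = 1 := lrt_eq_one_of_fst_snd _ hz1 hz2
    have hz4 : (z : Y) ∈ Subgroup.center Y := hcen hz3
    rw [Subgroup.mem_center_iff] at hz4 ⊢
    intro b
    exact Subtype.ext (hz4 (b : Y))
  have hker : (⟨y, hy⟩ : Y₁) ∈ π₁.ker := by
    rw [MonoidHom.mem_ker]
    show SpecialLinearGroup.map (RingHom.fst A₁ A₂) (π y) = 1
    rw [hπy, map_one]
  obtain ⟨m, hm1, hm2⟩ := E₁ Y₁ D₁ π₁ hp₁ hm₁ hgen₁ hcen₁ ⟨y, hy⟩ hker
  refine ⟨m, hm1, ?_⟩
  have := congrArg (Subtype.val) hm2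
  simpa using this

end prod

section prodThm

variable {A₁ A₂ : Type u} [CommRing A₁] [CommRing A₂]

/-- transport of the kernel property along a ring isomorphism. -/
theorem lrt_kerProp_of_ringEquiv (p : ℕ) {A B : Type u} [CommRing A] [CommRing B]
    (ψ : B ≃+* A) (E : LrtKerProp.{u, v} p A) : LrtKerProp.{u, v} p B := by
  intro Y _ D π hp hm hgen hcen c hc
  set D' : LrsData A Y := lrtComap D (ψ.symm : A →+* B) with hD'
  set π' : Y →* SL(2, A) := (SpecialLinearGroup.map (ψ : B →+* A)).comp π with hπ'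
  have hp' : ∀ t, π' (D'.yp t) = lrsXp t := by
    intro t
    show SpecialLinearGroup.map (ψ : B →+* A) (π (D.yp (ψ.symm t))) = lrsXp t
    rw [hp, lrt_map_lrsXp]
    exact congrArg lrsXp (ψ.apply_symm_apply t)
  have hm' : ∀ t, π' (D'.ym t) = lrsXm t := by
    intro t
    show SpecialLinearGroup.map (ψ : B →+* A) (π (D.ym (ψ.symm t))) = lrsXm t
    rw [hm, lrt_map_lrsXm]
    exact congrArg lrsXm (ψ.apply_symm_apply t)
  have hgen' : Subgroup.closure (Set.range D'.yp ∪ Set.range D'.ym) = ⊤ := by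
    have e1 : Set.range D'.yp = Set.range D.yp := by
      ext z
      constructor
      · rintro ⟨t, rfl⟩; exact ⟨ψ.symm t, rfl⟩
      · rintro ⟨t, rfl⟩; exact ⟨ψ t, by simp [hD']⟩
    have e2 : Set.range D'.ym = Set.range D.ym := by
      ext z
      constructor
      · rintro ⟨t, rfl⟩; exact ⟨ψ.symm t, rfl⟩
      · rintro ⟨t, rfl⟩; exact ⟨ψ t, by simp [hD']⟩
    rw [e1, e2]; exact hgen
  have hker : ∀ z, π' z = 1 → π z = 1 := fun z hz =>
    lrt_map_eq_one_of_injective (ψ : B →+* A) ψ.injective _ hz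
  have hcen' : π'.ker ≤ Subgroup.center Y := fun z hz => hcen (hker z hz)
  have hc' : c ∈ π'.ker := by
    rw [MonoidHom.mem_ker] at hc ⊢
    show SpecialLinearGroup.map (ψ : B →+* A) (π c) = 1
    rw [hc, map_one]
  exact E Y D' π' hp' hm' hgen' hcen' c hc'

/-- (II) PRODUCT: the kernel property passes to products of rings killed by coprime integers. -/
theorem lrt_kerProp_prod (p : ℕ) [Fact p.Prime] (n₁ n₂ : ℕ) (hcop : n₁.Coprime n₂)
    (hn₁ : (n₁ : A₁) = 0) (hn₂ : (n₂ : A₂) = 0)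
    (E₁ : LrtKerProp.{u, v} p A₁) (E₂ : LrtKerProp.{u, v} p A₂) :
    LrtKerProp.{u, v} p (A₁ × A₂) := by
  intro Y _ D π hp hm hgen hcen c hc
  -- the two factors commute
  have hk1 : ∀ s : A₁, n₁ • ((s, 0) : A₁ × A₂) = 0 := by
    intro s
    ext
    · simp [nsmul_eq_mul, hn₁]
    · simp
  have hk2 : ∀ t : A₂, n₂ • ((0, t) : A₁ × A₂) = 0 := by
    intro t
    ext
    · simp
    · simp [nsmul_eq_mul, hn₂]
  have h1 : ∀ (s : A₁) (t : A₂), Commute (D.yp (s, 0)) (D.ym (0, t)) := fun s t =>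
    lrt_commute_of_mul_eq_zero D π hp hm hcen (s, 0) (0, t) (by ext <;> simp) n₁ n₂ hcop
      (hk1 s) (hk2 t)
  have h2 : ∀ (s : A₁) (t : A₂), Commute (D.ym (s, 0)) (D.yp (0, t)) := fun s t =>
    (lrt_commute_of_mul_eq_zero D π hp hm hcen (0, t) (s, 0) (by ext <;> simp) n₂ n₁ hcop.symm
      (hk2 t) (hk1 s)).symm
  -- elementwise commutation of the two subgroups
  have hgg : ∀ g₁ ∈ lrtGen1 D, ∀ g₂ ∈ lrtGen2 D, Commute g₁ g₂ := by
    rintro g₁ (⟨s, rfl⟩ | ⟨s, rfl⟩) g₂ (⟨t, rfl⟩ | ⟨t, rfl⟩)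
    · exact D.yp_comm _ _
    · exact h1 s t
    · exact h2 s t
    · exact D.ym_comm _ _
  have hcomm : ∀ y₁ ∈ Subgroup.closure (lrtGen1 D), ∀ y₂ ∈ Subgroup.closure (lrtGen2 D),
      Commute y₁ y₂ := by
    intro y₁ hy₁ y₂ hy₂
    have hA : ∀ g₂ ∈ lrtGen2 D, Commute y₁ g₂ := by
      intro g₂ hg₂
      induction hy₁ using Subgroup.closure_induction with
      | mem g₁ hg₁ => exact hgg g₁ hg₁ g₂ hg₂
      | one => exact Commute.one_left _
      | mul a b _ _ ha hb => exact ha.mul_left hb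
      | inv a _ ha => exact ha.inv_left
    induction hy₂ using Subgroup.closure_induction with
    | mem g₂ hg₂ => exact hA g₂ hg₂
    | one => exact Commute.one_right _
    | mul a b _ _ ha hb => exact ha.mul_right hb
    | inv a _ ha => exact ha.inv_right
  -- decomposition of every element
  have hdec : ∀ y : Y, ∃ y₁ ∈ Subgroup.closure (lrtGen1 D),
      ∃ y₂ ∈ Subgroup.closure (lrtGen2 D), y = y₁ * y₂ := by
    intro y
    have hy : y ∈ Subgroup.closure (Set.range D.yp ∪ Set.range D.ym) := by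
      rw [hgen]; exact Subgroup.mem_top y
    induction hy using Subgroup.closure_induction with
    | mem g hg =>
      rcases hg with ⟨⟨s, t⟩, rfl⟩ | ⟨⟨s, t⟩, rfl⟩
      · refine ⟨D.yp (s, 0), Subgroup.subset_closure (Or.inl ⟨s, rfl⟩),
          D.yp (0, t), Subgroup.subset_closure (Or.inl ⟨t, rfl⟩), ?_⟩
        rw [← D.yp_add]; congr 1; ext <;> simp
      · refine ⟨D.ym (s, 0), Subgroup.subset_closure (Or.inr ⟨s, rfl⟩),
          D.ym (0, t), Subgroup.subset_closure (Or.inr ⟨t, rfl⟩), ?_⟩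
        rw [← D.ym_add]; congr 1; ext <;> simp
    | one => exact ⟨1, Subgroup.one_mem _, 1, Subgroup.one_mem _, by simp⟩
    | mul a b _ _ ha hb =>
      obtain ⟨a₁, ha₁, a₂, ha₂, rfl⟩ := ha
      obtain ⟨b₁, hb₁, b₂, hb₂, rfl⟩ := hb
      refine ⟨a₁ * b₁, Subgroup.mul_mem _ ha₁ hb₁, a₂ * b₂, Subgroup.mul_mem _ ha₂ hb₂, ?_⟩
      have := (hcomm b₁ hb₁ a₂ ha₂).eq
      calc a₁ * a₂ * (b₁ * b₂) = a₁ * (a₂ * b₁) * b₂ := by group
        _ = a₁ * (b₁ * a₂) * b₂ := by rw [this]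
        _ = a₁ * b₁ * (a₂ * b₂) := by group
    | inv a _ ha =>
      obtain ⟨a₁, ha₁, a₂, ha₂, rfl⟩ := ha
      refine ⟨a₁⁻¹, Subgroup.inv_mem _ ha₁, a₂⁻¹, Subgroup.inv_mem _ ha₂, ?_⟩
      rw [_root_.mul_inv_rev]
      exact ((hcomm a₁ ha₁ a₂ ha₂).inv_left.inv_right).eq.symm
  obtain ⟨y₁, hy₁, y₂, hy₂, rfl⟩ := hdec c
  rw [MonoidHom.mem_ker, map_mul] at hc
  -- both factors lie in the kernel
  have f2 := lrt_fst_eq_one_of_mem_gen2 D π hp hm hy₂
  have s1 := lrt_snd_eq_one_of_mem_gen1 D π hp hm hy₁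
  have f1 : SpecialLinearGroup.map (RingHom.fst A₁ A₂) (π y₁) = 1 := by
    have := congrArg (SpecialLinearGroup.map (RingHom.fst A₁ A₂)) hc
    rwa [map_mul, f2, mul_one, map_one] at this
  have s2 : SpecialLinearGroup.map (RingHom.snd A₁ A₂) (π y₂) = 1 := by
    have := congrArg (SpecialLinearGroup.map (RingHom.snd A₁ A₂)) hc
    rwa [map_mul, s1, one_mul, map_one] at this
  have k1 : π y₁ = 1 := lrt_eq_one_of_fst_snd _ f1 s1
  have k2 : π y₂ = 1 := lrt_eq_one_of_fst_snd _ f2 s2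
  obtain ⟨m₁, hm₁, e₁⟩ := lrt_fst_ker D π p E₁ hp hm hcen h1 h2 y₁ hy₁ k1
  -- the second factor: swap
  set ψ : A₂ × A₁ ≃+* A₁ × A₂ := RingEquiv.prodComm with hψ
  set D' : LrsData (A₂ × A₁) Y := lrtComap D (ψ : A₂ × A₁ →+* A₁ × A₂) with hD'
  set π' : Y →* SL(2, A₂ × A₁) :=
    (SpecialLinearGroup.map (ψ.symm : A₁ × A₂ →+* A₂ × A₁)).comp π with hπ'
  have hp' : ∀ t, π' (D'.yp t) = lrsXp t := by
    intro t
    show SpecialLinearGroup.map (ψ.symm : A₁ × A₂ →+* A₂ × A₁) (π (D.yp (ψ t))) = lrsXp t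
    rw [hp, lrt_map_lrsXp]
    exact congrArg lrsXp (ψ.symm_apply_apply t)
  have hm' : ∀ t, π' (D'.ym t) = lrsXm t := by
    intro t
    show SpecialLinearGroup.map (ψ.symm : A₁ × A₂ →+* A₂ × A₁) (π (D.ym (ψ t))) = lrsXm t
    rw [hm, lrt_map_lrsXm]
    exact congrArg lrsXm (ψ.symm_apply_apply t)
  have hcen' : π'.ker ≤ Subgroup.center Y := fun z hz =>
    hcen (lrt_map_eq_one_of_injective (ψ.symm : A₁ × A₂ →+* A₂ × A₁) ψ.symm.injective _ hz)
  have h1' : ∀ (s : A₂) (t : A₁), Commute (D'.yp (s, 0)) (D'.ym (0, t)) := fun s t =>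
    (h2 t s).symm
  have h2' : ∀ (s : A₂) (t : A₁), Commute (D'.ym (s, 0)) (D'.yp (0, t)) := fun s t =>
    (h1 t s).symm
  have hy₂' : y₂ ∈ Subgroup.closure (lrtGen1 D') := hy₂
  have k2' : π' y₂ = 1 := by
    show SpecialLinearGroup.map (ψ.symm : A₁ × A₂ →+* A₂ × A₁) (π y₂) = 1
    rw [k2, map_one]
  obtain ⟨m₂, hm₂, e₂⟩ := lrt_fst_ker D' π' p E₂ hp' hm' hcen' h1' h2' y₂ hy₂' k2'
  refine ⟨m₁ * m₂, ?_, ?_⟩
  · intro h
    rcases (Fact.out : p.Prime).dvd_mul.1 h with h | h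
    · exact hm₁ h
    · exact hm₂ h
  · rw [(hcomm y₁ hy₁ y₂ hy₂).mul_pow, pow_mul, e₁, one_pow, mul_comm m₁ m₂, pow_mul, e₂, one_pow,
      one_mul]

end prodThm

section zmod

theorem lrt_kerProp_of_subsingleton (p : ℕ) [Fact p.Prime] (A : Type u) [CommRing A]
    [Subsingleton A] : LrtKerProp.{u, v} p A := by
  intro Y _ D π _ _ hgen _ c _
  refine ⟨1, (Fact.out : p.Prime).not_dvd_one, ?_⟩
  rw [pow_one]
  have hle : Subgroup.closure (Set.range D.yp ∪ Set.range D.ym) ≤ ⊥ := by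
    rw [Subgroup.closure_le]
    rintro g (⟨t, rfl⟩ | ⟨t, rfl⟩)
    · rw [Subsingleton.elim t 0, D.yp_zero]; exact Subgroup.one_mem _
    · rw [Subsingleton.elim t 0, D.ym_zero]; exact Subgroup.one_mem _
  rw [hgen] at hle
  exact Subgroup.mem_bot.1 (hle (Subgroup.mem_top c))

/-- **F1, steps (II) + (III)**: for Steinberg data over `ℤ/N` generating `Y`, with
`π : Y → SL₂(ℤ/N)` of central kernel, every element of `ker π` has order prime to `p`
(`p` an odd prime). -/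
theorem lrt_kerProp_zmod (p : ℕ) [Fact p.Prime] (hp2 : p ≠ 2) :
    ∀ N : ℕ, N ≠ 0 → LrtKerProp.{0, v} p (ZMod N) := by
  intro N
  induction N using Nat.recOnPosPrimePosCoprime with
  | prime_pow l e hl he =>
    intro _
    by_cases h2 : l = 2
    · subst h2
      exact lrt_kerProp_two_pow p hp2 e he
    · intro Y _ D π hp hm hgen hcen c hc
      have hinj := lrs_injective_zmod hl h2 he D π hp hm hgen hcen
      refine ⟨1, (Fact.out : p.Prime).not_dvd_one, ?_⟩
      rw [pow_one]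
      apply hinj
      rw [MonoidHom.mem_ker] at hc
      rw [hc, map_one]
  | zero => intro h; exact absurd rfl h
  | one => intro _; exact lrt_kerProp_of_subsingleton p (ZMod 1)
  | coprime a b ha hb hab iha ihb =>
    intro _
    have ha0 : a ≠ 0 := by omega
    have hb0 : b ≠ 0 := by omega
    exact lrt_kerProp_of_ringEquiv p (ZMod.chineseRemainder hab)
      (lrt_kerProp_prod p a b hab (ZMod.natCast_self a) (ZMod.natCast_self b) (iha ha0) (ihb hb0))

/-- consequence in the form used by the wiring: homomorphisms from the kernel to `ZMod p`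
are trivial. -/
theorem lrt_hom_ker_trivial (p : ℕ) [Fact p.Prime] (hp2 : p ≠ 2) (N : ℕ) (hN : N ≠ 0)
    {Y : Type v} [Group Y] (D : LrsData (ZMod N) Y) (π : Y →* SL(2, ZMod N))
    (hp : ∀ t, π (D.yp t) = lrsXp t) (hm : ∀ t, π (D.ym t) = lrsXm t)
    (hgen : Subgroup.closure (Set.range D.yp ∪ Set.range D.ym) = ⊤)
    (hcen : π.ker ≤ Subgroup.center Y) (φ : π.ker →* Multiplicative (ZMod p)) (c : π.ker) :
    φ c = 1 := by
  obtain ⟨m, hm1, hm2⟩ := lrt_kerProp_zmod p hp2 N hN Y D π hp hm hgen hcen c.1 c.2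
  have h1 : φ c ^ m = 1 := by
    rw [← map_pow]
    have : c ^ m = 1 := Subtype.ext (by simpa using hm2)
    rw [this, map_one]
  have h2 : φ c ^ p = 1 := by
    apply Multiplicative.toAdd.injective
    rw [toAdd_pow, toAdd_one, nsmul_eq_mul, ZMod.natCast_self, zero_mul]
  have h3 := pow_gcd_eq_one.2 ⟨h1, h2⟩
  have hcop : Nat.gcd m p = 1 := by
    rw [Nat.gcd_comm]
    exact (Nat.Prime.coprime_iff_not_dvd (Fact.out : p.Prime)).2 hm1
  rwa [hcop, pow_one] at h3

end zmod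

end Fermat.Agent.LR
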