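/-
LR / F1 (helper6), file 8: **Ihara's lemma**, final form.  Combines
* the global theorem (`lrgData`, centrality, generation: `GlobalSteinberg.lean`),
* the local theorems + product step (`lrt_kerProp_zmod`, helper3 / helper4),
* the abstract wiring `lri_ihara_abs` (helper4), with `ι := lrgToQ q`.
(`lrg_ihara` coincides with helper4's `lri_ihara` of `IharaMain.lean`; kept as a cross-check.)
-/
import Mathlib
import Fermat.Agent.Lib.LR.CSP.Ihara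
import Fermat.Agent.Lib.LR.CSP.Product
import Fermat.Agent.Lib.LR.CSP.GlobalFinal

set_option autoImplicit false

open Matrix MatrixGroups CongruenceSubgroup ModularCurve.Period

namespace Fermat.Agent.LR

variable {N q : ℕ}

/-- `SL₂(ℤ[1/q]) ≃* lraDelta 1 q` -/
noncomputable def lrgEquiv (hq : q ≠ 0) : LrgG q ≃* ↥(lraDelta 1 q) :=
  (MonoidHom.ofInjective (lrgToQ_injective (q := q))).trans
    (MulEquiv.subgroupCongr (lrgToQ_range hq))

theorem lrgEquiv_coe (hq : q ≠ 0) (g : LrgG q) :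
    ((lrgEquiv hq g : ↥(lraDelta 1 q)) : SL(2, ℚ)) = lrgToQ q g := rfl

theorem lrgEquiv_XpN (hq : q ≠ 0) :
    lrgEquiv hq (lrgXp ((N : ℕ) : lrgR q)) = lriXpN N q := by
  apply Subtype.ext
  rw [lrgEquiv_coe, lrgToQ_Xp]
  simp [lriXpN]

/-- every element of `Γ_N / Q(N)` has order prime to the odd prime `p` -/
theorem lrg_orders (hq : q.Prime) (hN : 0 < N) (hNq : N.Coprime q) (p : ℕ) [Fact p.Prime]
    (hp2 : p ≠ 2) :
    ∀ c ∈ (lrgRedBar (N := N) hq.ne_zero hNq).ker, ∃ m : ℕ, ¬ p ∣ m ∧ c ^ m = 1 :=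
  lrt_kerProp_zmod p hp2 N hN.ne' (LrgGbar N q) (lrgData hq hN hNq) (lrgRedBar hq.ne_zero hNq)
    (fun t => lrgRedBar_yp hq.ne_zero hNq t) (fun t => lrgRedBar_ym hq.ne_zero hNq t)
    (lrgData_closure hq hN hNq) (lrgRedBar_ker_le_center hq hN hNq)

/-- **F1 (congruence subgroup property in the form needed)**: a homomorphism from `Γ₀(N)[1/q]`
to an abelian group of odd prime exponent `p` which kills the unipotent elements is trivial on
`Γ_N = {g ≡ 1 mod N}`. -/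
theorem lrg_F1_main (hq : q.Prime) (hN : 0 < N) (hNq : N.Coprime q) {p : ℕ} [Fact p.Prime]
    (hp2 : p ≠ 2) {A : Type*} [CommGroup A] (hA : ∀ a : A, a ^ p = 1)
    (Φ : ↥(lraDelta N q) →* A)
    (hΦ : ∀ u : ↥(lraDelta N q), (u : SL(2, ℚ)) 0 0 + (u : SL(2, ℚ)) 1 1 = 2 → Φ u = 1)
    (γ : LrgG q) (hγ : γ ∈ lrgGammaN (N := N) hq.ne_zero hNq) (h : lrgToQ q γ ∈ lraDelta N q) :
    Φ ⟨lrgToQ q γ, h⟩ = 1 :=
  lrg_F1 hq hN hNq Fact.out hA (lrg_orders hq hN hNq p hp2) Φ hΦ γ hγ h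

theorem lrg_dvd_of_cong {k : ℕ} {a : ℤ} (h : (a : ZMod N) = (q : ZMod N) ^ k * 1) :
    (N : ℤ) ∣ a - (q : ℤ) ^ k := by
  rw [← ZMod.intCast_zmod_eq_zero_iff_dvd]
  push_cast
  rw [h]
  ring

theorem lrg_dvd_of_cong_zero {k : ℕ} {a : ℤ} (h : (a : ZMod N) = (q : ZMod N) ^ k * 0) :
    (N : ℤ) ∣ a := by
  rw [← ZMod.intCast_zmod_eq_zero_iff_dvd, h, mul_zero]

/-- **Ihara's lemma**: a pair of parabolic classes `φ₁, φ₂ : Γ₀(N) → 𝔽_p`, compatible on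
`Γ₀(Nq)` through the two degeneracy maps, vanishes on `{d ≡ 1 mod N}`
(`p` odd prime `≠ q`, `q ∤ N`; `p ∣ N` and `p = 3` allowed). -/
theorem lrg_ihara {p : ℕ} [hqp : Fact q.Prime] [hpp : Fact p.Prime] (hp2 : p ≠ 2) (hpq : p ≠ q)
    (hN : N ≠ 0) (hNq : N.Coprime q)
    (φ₁ φ₂ : Additive ↥(Gamma0 N) →+ ZMod p)
    (h₁ : IsParabolicHom (Gamma0 N) φ₁) (h₂ : IsParabolicHom (Gamma0 N) φ₂)
    (hcompat : ∀ γ : Gamma0 (N * q),
      φ₁ (Additive.ofMul ⟨γ.1, lraCast_mem_lraA.1 (lraC_le_lraA (lraCast_mem_lraC.2 γ.2))⟩) =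
        φ₂ (Additive.ofMul (lraDeg N q hqp.out.ne_zero γ))) :
    (∀ γ : Gamma0 N, ((γ.1 1 1 : ℤ) : ZMod N) = 1 → φ₁ (Additive.ofMul γ) = 0) ∧
    (∀ γ : Gamma0 N, ((γ.1 1 1 : ℤ) : ZMod N) = 1 → φ₂ (Additive.ofMul γ) = 0) := by
  have hq := hqp.out
  have hN' : 0 < N := Nat.pos_of_ne_zero hN
  refine lri_ihara_abs hpq hN hNq (lrgToQ q) (lrgToQ_mem_lraDelta_one hq.ne_zero)
    (fun x hx => ?_) (lrgXp ((N : ℕ) : lrgR q)) ?_ (lrgGammaN (N := N) hq.ne_zero hNq) ?_ ?_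
    φ₁ φ₂ h₁ h₂ hcompat
  · have : x ∈ (lrgToQ q).range := by rw [lrgToQ_range hq.ne_zero]; exact hx
    exact this
  · rw [lrgToQ_Xp]
    simp
  · rintro g ⟨k, M, hlev, hcong⟩
    have c00 := hcong 0 0
    have c01 := hcong 0 1
    have c10 := hcong 1 0
    have c11 := hcong 1 1
    simp only [Matrix.one_apply_eq, Matrix.one_apply_ne, ne_eq, zero_ne_one, one_ne_zero,
      not_false_eq_true] at c00 c01 c10 c11
    obtain ⟨γ, hγ, hγg⟩ := lrg_mem_GammaN_of_level hq.ne_zero hNq (lrgToQ q g) k M hlev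
      (lrg_dvd_of_cong c00) (lrg_dvd_of_cong_zero c01) (lrg_dvd_of_cong_zero c10)
      (lrg_dvd_of_cong c11)
    have e : γ = g := lrgToQ_injective hγg
    rw [← e]
    exact hγ
  · intro g hg
    have hc : lrgMk N q g ∈ (lrgRedBar (N := N) hq.ne_zero hNq).ker := by
      rw [lrgRedBar_ker]; exact ⟨g, hg, rfl⟩
    obtain ⟨m, hpm, hm⟩ := lrg_orders hq hN' hNq p hp2 _ hc
    refine ⟨m, hpm, ?_⟩
    rw [← map_pow, lrgMk_eq_one_iff] at hm
    exact hm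

end Fermat.Agent.LR
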