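/-
LR / F1-(I) GLOBAL (helper6), file 3: reduction modulo `N`.

* `lrgRed : ℤ[1/q] →+* ZMod N` (for `N` prime to `q`), with kernel `N ℤ[1/q]`;
* `lrgRedSL : SL₂(ℤ[1/q]) →* SL₂(ZMod N)`, `lrgGammaN = ker` (`= Γ_N`), `Q(N) ≤ Γ_N`;
* `lrgRedBar : SL₂(ℤ[1/q]) ⧸ Q(N) →* SL₂(ZMod N)` with kernel the image of `Γ_N`.
-/
import Mathlib
import Fermat.Agent.Lib.LR.CSP.GlobalMat

set_option autoImplicit false

open Matrix MatrixGroups

namespace Fermat.Agent.LR

variable {N q : ℕ}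

theorem lrgR_isLocalization (hq : q ≠ 0) : IsLocalization.Away (q : ℤ) (lrgR q) := by
  have hq' : (q : ℚ) ≠ 0 := Nat.cast_ne_zero.2 hq
  refine (isLocalization_iff (Submonoid.powers (q : ℤ)) (lrgR q)).2 ⟨?_, ?_, ?_⟩
  · rintro ⟨y, k, rfl⟩
    have : (algebraMap ℤ (lrgR q)) ((q : ℤ) ^ k) = ((lrgQu q hq ^ k : (lrgR q)ˣ) : lrgR q) := by
      apply Subtype.ext
      rw [Units.val_pow_eq_pow_val]
      simp
    show IsUnit ((algebraMap ℤ (lrgR q)) ((q : ℤ) ^ k))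
    rw [this]
    exact Units.isUnit _
  · intro z
    obtain ⟨k, m, hk⟩ := z.2
    refine ⟨(m, ⟨(q : ℤ) ^ k, k, rfl⟩), Subtype.ext ?_⟩
    simpa using hk
  · intro x y h
    refine ⟨1, ?_⟩
    have h' := congrArg (fun z : lrgR q => (z : ℚ)) h
    simp only [eq_intCast, Subring.coe_intCast, Int.cast_inj] at h'
    simp [h']

/-- reduction `ℤ[1/q] → ZMod N` -/
noncomputable def lrgRed (hq : q ≠ 0) (hNq : N.Coprime q) : lrgR q →+* ZMod N :=
  haveI := lrgR_isLocalization hq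
  IsLocalization.Away.lift (q : ℤ) (g := Int.castRingHom (ZMod N)) (by
    have := (ZMod.unitOfCoprime q hNq.symm).isUnit
    simpa using this)

theorem lrgRed_intCast (hq : q ≠ 0) (hNq : N.Coprime q) (m : ℤ) :
    lrgRed hq hNq (m : lrgR q) = (m : ZMod N) := by
  have := lrgR_isLocalization hq
  have := IsLocalization.Away.lift_eq (S := lrgR q) (q : ℤ) (g := Int.castRingHom (ZMod N)) (by
    have := (ZMod.unitOfCoprime q hNq.symm).isUnit
    simpa using this) m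
  simpa [lrgRed] using this

theorem lrgRed_natCast (hq : q ≠ 0) (hNq : N.Coprime q) (m : ℕ) :
    lrgRed hq hNq (m : lrgR q) = (m : ZMod N) := map_natCast _ m

theorem lrgRed_eq_zero_iff (hq : q ≠ 0) (hNq : N.Coprime q) (t : lrgR q) :
    lrgRed hq hNq t = 0 ↔ ∃ s : lrgR q, t = (N : lrgR q) * s := by
  constructor
  · intro h
    obtain ⟨k, m, hk⟩ := t.2
    have hk' : t * ((lrgQu q hq : (lrgR q)ˣ) : lrgR q) ^ k = (m : lrgR q) := by
      apply Subtype.ext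
      push_cast
      rw [lrgQu_val]
      exact hk
    have h1 := congrArg (lrgRed hq hNq) hk'
    rw [map_mul, h, zero_mul, lrgRed_intCast] at h1
    have h2 : (N : ℤ) ∣ m := (ZMod.intCast_zmod_eq_zero_iff_dvd m N).mp h1.symm
    obtain ⟨m', rfl⟩ := h2
    refine ⟨(m' : lrgR q) * ((lrgQu q hq)⁻¹ ^ k : (lrgR q)ˣ), ?_⟩
    have h3 : ((lrgQu q hq : (lrgR q)ˣ) : lrgR q) ^ k * (((lrgQu q hq)⁻¹ ^ k : (lrgR q)ˣ) : lrgR q)
        = 1 := by
      rw [← Units.val_pow_eq_pow_val, ← Units.val_mul, ← mul_pow, mul_inv_cancel, one_pow,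
        Units.val_one]
    push_cast at hk'
    linear_combination (((lrgQu q hq)⁻¹ ^ k : (lrgR q)ˣ) : lrgR q) * hk' - t * h3
  · rintro ⟨s, rfl⟩
    rw [map_mul, lrgRed_natCast, ZMod.natCast_self, zero_mul]

/-- reduction `SL₂(ℤ[1/q]) → SL₂(ZMod N)` -/
noncomputable def lrgRedSL (hq : q ≠ 0) (hNq : N.Coprime q) : LrgG q →* SL(2, ZMod N) :=
  SpecialLinearGroup.map (lrgRed hq hNq)

theorem lrgRedSL_apply (hq : q ≠ 0) (hNq : N.Coprime q) (g : LrgG q) (i j : Fin 2) :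
    lrgRedSL hq hNq g i j = lrgRed hq hNq (g i j) := rfl

/-- `Γ_N` -/
noncomputable def lrgGammaN (hq : q ≠ 0) (hNq : N.Coprime q) : Subgroup (LrgG q) :=
  (lrgRedSL (N := N) hq hNq).ker

theorem mem_lrgGammaN (hq : q ≠ 0) (hNq : N.Coprime q) {g : LrgG q} :
    g ∈ lrgGammaN (N := N) hq hNq ↔
      (∃ s, g 0 0 - 1 = (N : lrgR q) * s) ∧ (∃ s, g 0 1 = (N : lrgR q) * s) ∧
      (∃ s, g 1 0 = (N : lrgR q) * s) ∧ (∃ s, g 1 1 - 1 = (N : lrgR q) * s) := by
  rw [lrgGammaN, MonoidHom.mem_ker]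
  simp only [← lrgRed_eq_zero_iff hq hNq, map_sub, map_one, sub_eq_zero]
  constructor
  · intro h
    have h' : ∀ i j, lrgRedSL hq hNq g i j = (1 : SL(2, ZMod N)) i j := by rw [h]; intro i j; rfl
    simp only [lrgRedSL_apply] at h'
    refine ⟨by simpa using h' 0 0, by simpa using h' 0 1, by simpa using h' 1 0,
      by simpa using h' 1 1⟩
  · rintro ⟨h00, h01, h10, h11⟩
    ext i j
    fin_cases i <;> fin_cases j <;> simp [lrgRedSL_apply, h00, h01, h10, h11]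

theorem lrgQ_le_lrgGammaN (hq : q ≠ 0) (hNq : N.Coprime q) :
    lrgQ N q ≤ lrgGammaN (N := N) hq hNq := by
  have : (lrgGammaN (N := N) hq hNq).Normal := by unfold lrgGammaN; infer_instance
  apply Subgroup.normalClosure_le_normal
  rintro g rfl
  rw [SetLike.mem_coe, mem_lrgGammaN]
  exact ⟨⟨0, by simp⟩, ⟨1, by simp⟩, ⟨0, by simp⟩, ⟨0, by simp⟩⟩

/-- reduction on the quotient by `Q(N)` -/
noncomputable def lrgRedBar (hq : q ≠ 0) (hNq : N.Coprime q) : LrgGbar N q →* SL(2, ZMod N) :=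
  QuotientGroup.lift (lrgQ N q) (lrgRedSL hq hNq) (lrgQ_le_lrgGammaN hq hNq)

theorem lrgRedBar_mk (hq : q ≠ 0) (hNq : N.Coprime q) (g : LrgG q) :
    lrgRedBar hq hNq (lrgMk N q g) = lrgRedSL hq hNq g := rfl

theorem lrgRedBar_ker (hq : q ≠ 0) (hNq : N.Coprime q) :
    (lrgRedBar (N := N) hq hNq).ker = (lrgGammaN (N := N) hq hNq).map (lrgMk N q) := by
  ext x
  obtain ⟨g, rfl⟩ := QuotientGroup.mk'_surjective (lrgQ N q) x
  constructor
  · intro h
    exact ⟨g, h, rfl⟩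
  · rintro ⟨g', hg', he⟩
    rw [MonoidHom.mem_ker]
    have : lrgRedBar hq hNq (lrgMk N q g') = 1 := hg'
    rw [← this]
    exact congrArg _ he.symm

end Fermat.Agent.LR
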