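/-
LR-CSP (helper4): normal form for Steinberg data over a local ring.
If `h` is multiplicative and every non-unit `t` has `1 + t` a unit, then every element of the
subgroup generated by the `yp t`, `ym t` has the form `ym r · h u · yp s` (`r` a non-unit) or
`yp a · w 1 · h u · yp s`.
-/
import Mathlib
import Fermat.Agent.Lib.LR.CSP.Steinberg

set_option autoImplicit false

namespace Fermat.Agent.LR

namespace LrsData

variable {A : Type*} [CommRing A] {Y : Type*} [Group Y] (D : LrsData A Y)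

/-! ### commutation rules -/

theorem h_mul_yp (u : Aˣ) (t : A) : D.h u * D.yp t = D.yp ((u : A) ^ 2 * t) * D.h u := by
  rw [← D.h_yp]; group

theorem h_mul_ym (u : Aˣ) (t : A) : D.h u * D.ym t = D.ym ((↑u⁻¹ : A) ^ 2 * t) * D.h u := by
  rw [← D.h_ym]; group

theorem yp_mul_h (u : Aˣ) (t : A) : D.yp t * D.h u = D.h u * D.yp ((↑u⁻¹ : A) ^ 2 * t) := by
  rw [D.h_mul_yp]
  congr 2
  have h1 : (u : A) * (↑u⁻¹ : A) = 1 := u.mul_inv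
  linear_combination (-t * ((u : A) * (↑u⁻¹ : A) + 1)) * h1

theorem ym_mul_h (u : Aˣ) (t : A) : D.ym t * D.h u = D.h u * D.ym ((u : A) ^ 2 * t) := by
  rw [D.h_mul_ym]
  congr 2
  have h1 : (u : A) * (↑u⁻¹ : A) = 1 := u.mul_inv
  linear_combination (-t * ((u : A) * (↑u⁻¹ : A) + 1)) * h1

theorem w1_mul_yp (t : A) : D.w 1 * D.yp t = D.ym (-t) * D.w 1 := by
  rw [← D.w1_yp]; group

theorem w1_mul_ym (t : A) : D.w 1 * D.ym t = D.yp (-t) * D.w 1 := by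
  rw [← D.w1_ym]; group

theorem yp_mul_w1 (t : A) : D.yp t * D.w 1 = D.w 1 * D.ym (-t) := by
  rw [← D.w1_yp']; group

theorem ym_mul_w1 (t : A) : D.ym t * D.w 1 = D.w 1 * D.yp (-t) := by
  rw [← D.w1_ym']; group

theorem w1_mul_h (u : Aˣ) : D.w 1 * D.h u = D.h u⁻¹ * D.w 1 := by
  rw [← D.w1_h]; group

theorem h_mul_w1 (u : Aˣ) : D.h u * D.w 1 = D.w 1 * D.h u⁻¹ := by
  rw [← D.w1_h']; group

/-- for a unit `ρ`: `ym ρ = yp ρ⁻¹ · h(-ρ⁻¹) · w 1 · yp ρ⁻¹`. -/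
theorem ym_of_unit (ρ : Aˣ) :
    D.ym ρ = D.yp (↑ρ⁻¹ : A) * D.h (-ρ⁻¹) * D.w 1 * D.yp (↑ρ⁻¹ : A) := by
  have := D.ym_unit (-ρ⁻¹)
  rw [inv_neg, inv_inv, Units.val_neg, neg_neg, Units.val_neg, neg_neg] at this
  rw [this, D.w_eq_h]; group

section nf

variable (hmul : ∀ u v : Aˣ, D.h (u * v) = D.h u * D.h v)
include hmul

theorem h_inv (u : Aˣ) : D.h u⁻¹ = (D.h u)⁻¹ := by
  apply eq_inv_of_mul_eq_one_left
  rw [← hmul, inv_mul_cancel, D.h_one]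

theorem w1_sq : D.w 1 * D.w 1 = D.h (-1) := by
  have e1 : D.h (-1) = (D.w 1 * D.w 1)⁻¹ := by
    rw [h_def, ← D.w_inv]; group
  have e2 : D.h (-1) * D.h (-1) = 1 := by
    rw [← hmul]; simp [D.h_one]
  have e3 : (D.h (-1))⁻¹ = D.h (-1) := inv_eq_of_mul_eq_one_left e2
  rw [← e3, e1, inv_inv]

/-- the key commutation `yp t · ym r = ym (r/σ) · h σ · yp (t/σ)` for units `t`, `σ = 1 + t r`. -/
theorem yp_mul_ym (t σ : Aˣ) (r : A) (hσ : (σ : A) = 1 + (t : A) * r) :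
    D.yp t * D.ym r = D.ym ((↑σ⁻¹ : A) * r) * D.h σ * D.yp ((t : A) * (↑σ⁻¹ : A)) := by
  have h1 : (t : A) * (↑t⁻¹ : A) = 1 := t.mul_inv
  have h2 : (σ : A) * (↑σ⁻¹ : A) = 1 := σ.mul_inv
  obtain ⟨ρ, hρ⟩ : ∃ ρ : Aˣ, ρ = t * σ⁻¹ := ⟨_, rfl⟩
  have hρv : (ρ : A) = (t : A) * (↑σ⁻¹ : A) := by rw [hρ]; push_cast; ring
  have hρi : ((ρ⁻¹ : Aˣ) : A) = (σ : A) * (↑t⁻¹ : A) := by
    rw [hρ, mul_inv_rev, inv_inv]; push_cast; ring
  -- `ym ρ⁻¹ = w(-ρ) ym(-ρ⁻¹) yp ρ`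
  have e1 : D.ym (↑ρ⁻¹ : A) = D.w (-ρ) * D.ym (-(↑ρ⁻¹ : A)) * D.yp ρ := by
    have := D.w_eq' (-ρ)
    rw [inv_neg, Units.val_neg, neg_neg, Units.val_neg] at this
    rw [this, D.yp_neg, D.ym_neg]; group
  -- `w t · w(-ρ) = h σ`
  have e2 : D.w t * D.w (-ρ) = D.h σ := by
    rw [← D.w_inv, D.w_eq_h t, D.w_eq_h ρ]
    have : σ = t * ρ⁻¹ := by rw [hρ, mul_inv_rev, inv_inv]; rw [mul_comm σ, mul_inv_cancel_left]
    rw [this, hmul, D.h_inv hmul]; group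
  have e3 : (↑t⁻¹ : A) + r = (↑ρ⁻¹ : A) := by
    rw [hρi, hσ]
    linear_combination (-r) * h1
  have e4 : (↑t⁻¹ : A) + (↑σ⁻¹ : A) ^ 2 * (-(↑ρ⁻¹ : A)) = (↑σ⁻¹ : A) * r := by
    rw [hρi]
    have h3 : (σ : A) - 1 = (t : A) * r := by rw [hσ]; ring
    linear_combination (-((↑σ⁻¹ : A) * (↑t⁻¹ : A)) - (↑t⁻¹ : A)) * h2 +
      ((↑σ⁻¹ : A) * (↑t⁻¹ : A)) * h3 + ((↑σ⁻¹ : A) * r) * h1
  calc D.yp t * D.ym r
      = D.ym (↑t⁻¹ : A) * D.w t * D.ym ((↑t⁻¹ : A) + r) := by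
        rw [D.yp_unit t, D.ym_add]; group
    _ = D.ym (↑t⁻¹ : A) * (D.w t * D.w (-ρ)) * D.ym (-(↑ρ⁻¹ : A)) * D.yp ρ := by
        rw [e3, e1]; group
    _ = D.ym (↑t⁻¹ : A) * (D.h σ * D.ym (-(↑ρ⁻¹ : A))) * D.yp ρ := by
        rw [e2]; group
    _ = D.ym ((↑σ⁻¹ : A) * r) * D.h σ * D.yp ((t : A) * (↑σ⁻¹ : A)) := by
        rw [D.h_mul_ym, ← e4, D.ym_add, hρv]; group

/-- the set of normal forms. -/
def NF : Set Y :=
  {y | (∃ (r : A) (u : Aˣ) (s : A), ¬ IsUnit r ∧ y = D.ym r * D.h u * D.yp s) ∨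
    (∃ (a : A) (u : Aˣ) (s : A), y = D.yp a * D.w 1 * D.h u * D.yp s)}

theorem nf_mul_right {y : Y} (hy : y ∈ D.NF) (u' : Aˣ) (s' : A) :
    y * (D.h u' * D.yp s') ∈ D.NF := by
  rcases hy with ⟨r, u, s, hr, rfl⟩ | ⟨a, u, s, rfl⟩
  · left
    refine ⟨r, u * u', (↑u'⁻¹ : A) ^ 2 * s + s', hr, ?_⟩
    calc D.ym r * D.h u * D.yp s * (D.h u' * D.yp s')
        = D.ym r * D.h u * (D.yp s * D.h u') * D.yp s' := by group
      _ = _ := by rw [D.yp_mul_h, hmul, D.yp_add]; group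
  · right
    refine ⟨a, u * u', (↑u'⁻¹ : A) ^ 2 * s + s', ?_⟩
    calc D.yp a * D.w 1 * D.h u * D.yp s * (D.h u' * D.yp s')
        = D.yp a * D.w 1 * D.h u * (D.yp s * D.h u') * D.yp s' := by group
      _ = _ := by rw [D.yp_mul_h, hmul, D.yp_add]; group

theorem ym_h_yp_mem (b : A) (u : Aˣ) (s : A) : D.ym b * D.h u * D.yp s ∈ D.NF := by
  by_cases hb : IsUnit b
  · obtain ⟨ρ, rfl⟩ := hb
    have e : D.ym ρ * D.h u * D.yp s =
        (D.yp (↑ρ⁻¹ : A) * D.w 1 * D.h (-ρ⁻¹)⁻¹ * D.yp (↑ρ⁻¹ : A)) * (D.h u * D.yp s) := by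
      rw [D.ym_of_unit ρ]
      calc D.yp (↑ρ⁻¹ : A) * D.h (-ρ⁻¹) * D.w 1 * D.yp (↑ρ⁻¹ : A) * D.h u * D.yp s
          = D.yp (↑ρ⁻¹ : A) * (D.h (-ρ⁻¹) * D.w 1) * D.yp (↑ρ⁻¹ : A) * D.h u * D.yp s := by
            group
        _ = _ := by rw [D.h_mul_w1]; group
    rw [e]
    exact D.nf_mul_right hmul (Or.inr ⟨_, _, _, rfl⟩) u s
  · exact Or.inl ⟨b, u, s, hb, rfl⟩

end nf

section loc

variable (hmul : ∀ u v : Aˣ, D.h (u * v) = D.h u * D.h v)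
  (hloc : ∀ t : A, ¬ IsUnit t → IsUnit (1 + t))
include hmul hloc

theorem yp_ym_unit (τ : Aˣ) (r : A) (hr : ¬ IsUnit r) :
    ∃ (r' : A) (u : Aˣ) (s : A), ¬ IsUnit r' ∧ D.yp τ * D.ym r = D.ym r' * D.h u * D.yp s := by
  have h1 : ¬ IsUnit ((τ : A) * r) := fun h => hr (isUnit_of_mul_isUnit_right h)
  obtain ⟨σ, hσ⟩ := hloc _ h1
  refine ⟨(↑σ⁻¹ : A) * r, σ, (τ : A) * (↑σ⁻¹ : A), fun h => hr (isUnit_of_mul_isUnit_right h),
    D.yp_mul_ym hmul τ σ r hσ⟩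

theorem yp_ym_nf (t r : A) (hr : ¬ IsUnit r) :
    ∃ (r' : A) (u : Aˣ) (s : A), ¬ IsUnit r' ∧ D.yp t * D.ym r = D.ym r' * D.h u * D.yp s := by
  by_cases ht : IsUnit t
  · obtain ⟨τ, rfl⟩ := ht
    exact D.yp_ym_unit hmul hloc τ r hr
  · obtain ⟨τ, hτ⟩ := hloc t ht
    obtain ⟨r₁, u₁, s₁, hr₁, e₁⟩ := D.yp_ym_unit hmul hloc (-1) r hr
    obtain ⟨r₂, u₂, s₂, hr₂, e₂⟩ := D.yp_ym_unit hmul hloc τ r₁ hr₁
    refine ⟨r₂, u₂ * u₁, (↑u₁⁻¹ : A) ^ 2 * s₂ + s₁, hr₂, ?_⟩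
    have e0 : D.yp t = D.yp τ * D.yp ((-1 : Aˣ) : A) := by
      rw [← D.yp_add, hτ]; congr 1; simp
    calc D.yp t * D.ym r = D.yp τ * (D.yp ((-1 : Aˣ) : A) * D.ym r) := by rw [e0]; group
      _ = (D.yp τ * D.ym r₁) * D.h u₁ * D.yp s₁ := by rw [e₁]; group
      _ = D.ym r₂ * D.h u₂ * (D.yp s₂ * D.h u₁) * D.yp s₁ := by rw [e₂]; group
      _ = _ := by rw [D.yp_mul_h, hmul, D.yp_add]; group

theorem nf_yp_mul (t : A) {y : Y} (hy : y ∈ D.NF) : D.yp t * y ∈ D.NF := by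
  rcases hy with ⟨r, u, s, hr, rfl⟩ | ⟨a, u, s, rfl⟩
  · obtain ⟨r', u', s', hr', e⟩ := D.yp_ym_nf hmul hloc t r hr
    have : D.yp t * (D.ym r * D.h u * D.yp s) = (D.ym r' * D.h u' * D.yp s') * (D.h u * D.yp s) := by
      rw [← e]; group
    rw [this]
    exact D.nf_mul_right hmul (Or.inl ⟨_, _, _, hr', rfl⟩) u s
  · right
    refine ⟨t + a, u, s, ?_⟩
    rw [D.yp_add]; group

theorem nf_ym_mul (t : A) {y : Y} (hy : y ∈ D.NF) : D.ym t * y ∈ D.NF := by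
  rcases hy with ⟨r, u, s, hr, rfl⟩ | ⟨a, u, s, rfl⟩
  · have : D.ym t * (D.ym r * D.h u * D.yp s) = D.ym (t + r) * D.h u * D.yp s := by
      rw [D.ym_add]; group
    rw [this]
    exact D.ym_h_yp_mem hmul _ _ _
  · have e0 : D.ym t * (D.yp a * D.w 1 * D.h u * D.yp s) =
        (D.w 1 * (D.yp (-t) * D.ym (-a))) * (D.h u * D.yp s) := by
      calc D.ym t * (D.yp a * D.w 1 * D.h u * D.yp s)
          = D.ym t * (D.yp a * D.w 1) * D.h u * D.yp s := by group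
        _ = (D.ym t * D.w 1) * D.ym (-a) * D.h u * D.yp s := by rw [D.yp_mul_w1]; group
        _ = _ := by rw [D.ym_mul_w1]; group
    rw [e0]
    apply D.nf_mul_right hmul
    by_cases ha : IsUnit a
    · obtain ⟨α, rfl⟩ := ha
      -- `ym(-α) = yp ρ⁻¹ h(-ρ⁻¹) w1 yp ρ⁻¹`, `ρ = -α`
      have e1 := D.ym_of_unit (-α)
      rw [Units.val_neg] at e1
      have e2 : D.w 1 * (D.yp (-t) * D.ym (-(α : A))) =
          D.ym (t + -(↑(-α)⁻¹ : A)) * D.h (-α) * D.yp (↑(-α)⁻¹ : A) := by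
        rw [e1]
        calc D.w 1 * (D.yp (-t) * (D.yp (↑(-α)⁻¹ : A) * D.h (-(-α)⁻¹) * D.w 1 *
              D.yp (↑(-α)⁻¹ : A)))
            = D.w 1 * (D.yp (-t) * D.yp (↑(-α)⁻¹ : A)) * (D.h (-(-α)⁻¹) * D.w 1) *
              D.yp (↑(-α)⁻¹ : A) := by group
          _ = (D.w 1 * D.yp (-t + (↑(-α)⁻¹ : A))) * (D.w 1 * D.h (-(-α)⁻¹)⁻¹) *
              D.yp (↑(-α)⁻¹ : A) := by rw [D.h_mul_w1, D.yp_add]
          _ = D.ym (-(-t + (↑(-α)⁻¹ : A))) * (D.w 1 * D.w 1) * D.h (-(-α)⁻¹)⁻¹ *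
              D.yp (↑(-α)⁻¹ : A) := by rw [D.w1_mul_yp]; group
          _ = _ := by
              rw [D.w1_sq hmul, mul_assoc (D.ym _), ← hmul]
              have e3 : (-1 : Aˣ) * (-(-α)⁻¹)⁻¹ = -α := by
                rw [inv_neg, inv_inv]; simp
              have e4 : -(-t + (↑(-α)⁻¹ : A)) = t + -(↑(-α)⁻¹ : A) := by ring
              rw [e3, e4]
      rw [e2]
      exact D.ym_h_yp_mem hmul _ _ _
    · have hna : ¬ IsUnit (-a) := fun h => ha (by simpa using h.neg)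
      obtain ⟨r', u', s', hr', e⟩ := D.yp_ym_nf hmul hloc (-t) (-a) hna
      right
      refine ⟨-r', u', s', ?_⟩
      rw [e]
      calc D.w 1 * (D.ym r' * D.h u' * D.yp s') = (D.w 1 * D.ym r') * D.h u' * D.yp s' := by
            group
        _ = _ := by rw [D.w1_mul_ym]

/-- every element of the subgroup generated by the `yp t`, `ym t` is a normal form. -/
theorem mem_nf_of_closure [Nontrivial A] (g : Y)
    (hg : g ∈ Subgroup.closure (Set.range D.yp ∪ Set.range D.ym)) : g ∈ D.NF := by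
  have h1 : (1 : Y) ∈ D.NF := by
    left
    exact ⟨0, 1, 0, not_isUnit_zero, by simp [D.ym_zero, D.yp_zero, D.h_one]⟩
  have key : ∀ g ∈ Subgroup.closure (Set.range D.yp ∪ Set.range D.ym), ∀ y ∈ D.NF,
      g * y ∈ D.NF := by
    intro g hg
    induction hg using Subgroup.closure_induction_left with
    | one => intro y hy; simpa using hy
    | mul_left x hx z _ ih =>
      intro y hy
      rw [mul_assoc]
      rcases hx with ⟨t, rfl⟩ | ⟨t, rfl⟩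
      · exact D.nf_yp_mul hmul hloc t (ih y hy)
      · exact D.nf_ym_mul hmul hloc t (ih y hy)
    | inv_mul_cancel x hx z _ ih =>
      intro y hy
      rw [mul_assoc]
      rcases hx with ⟨t, rfl⟩ | ⟨t, rfl⟩
      · rw [← D.yp_neg]; exact D.nf_yp_mul hmul hloc (-t) (ih y hy)
      · rw [← D.ym_neg]; exact D.nf_ym_mul hmul hloc (-t) (ih y hy)
  simpa using key g hg 1 h1

end loc

end LrsData

end Fermat.Agent.LR
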