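/-
LR-CSP (helper4): the local theorem.  Steinberg data over a local ring `A` with cyclic unit group
(containing two non-square units with sum `1`), mapping to `SL(2,A)` with central kernel:
the map is injective.  Instantiated for `A = ZMod (l^e)`, `l` an odd prime.
-/
import Mathlib
import Fermat.Agent.Lib.LR.CSP.Cyclic
import Fermat.Agent.Lib.LR.CSP.NormalForm

set_option autoImplicit false

namespace Fermat.Agent.LR

open Matrix MatrixGroups

section mats

variable {A : Type*} [CommRing A]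

/-- `x⁺(t) = [[1,t],[0,1]]`. -/
def lrsXp (t : A) : SL(2, A) := ⟨!![1, t; 0, 1], by simp [Matrix.det_fin_two_of]⟩

/-- `x⁻(t) = [[1,0],[t,1]]`. -/
def lrsXm (t : A) : SL(2, A) := ⟨!![1, 0; t, 1], by simp [Matrix.det_fin_two_of]⟩

/-- `[[0,u],[-u⁻¹,0]]`. -/
def lrsWm (u : Aˣ) : SL(2, A) := ⟨!![0, (u : A); -(↑u⁻¹ : A), 0], by
  simp [Matrix.det_fin_two_of]⟩

/-- `diag(u,u⁻¹)`. -/
def lrsDiag (u : Aˣ) : SL(2, A) := ⟨!![(u : A), 0; 0, (↑u⁻¹ : A)], by
  simp [Matrix.det_fin_two_of]⟩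

theorem lrsWm_eq (u : Aˣ) : lrsXp (u : A) * lrsXm (-(↑u⁻¹ : A)) * lrsXp (u : A) = lrsWm u := by
  ext i j
  fin_cases i <;> fin_cases j <;>
    simp [lrsXp, lrsXm, lrsWm, Matrix.mul_apply, Fin.sum_univ_two]

theorem lrsDiag_eq (u : Aˣ) : lrsWm u * (lrsWm 1)⁻¹ = lrsDiag u := by
  ext i j
  fin_cases i <;> fin_cases j <;>
    simp [lrsWm, lrsDiag, Matrix.mul_apply, Fin.sum_univ_two, Matrix.adjugate_fin_two]

end mats

section main

variable {A : Type*} [CommRing A] {Y : Type*} [Group Y] (D : LrsData A Y)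
  (π : Y →* SL(2, A)) (hp : ∀ t, π (D.yp t) = lrsXp t) (hm : ∀ t, π (D.ym t) = lrsXm t)
include hp hm

theorem lrs_map_w (u : Aˣ) : π (D.w u) = lrsWm u := by
  rw [LrsData.w_def, map_mul, map_mul, hp, hm, lrsWm_eq]

theorem lrs_map_h (u : Aˣ) : π (D.h u) = lrsDiag u := by
  rw [LrsData.h_def, map_mul, map_inv, lrs_map_w D π hp hm, lrs_map_w D π hp hm, lrsDiag_eq]

theorem lrs_symbol_mem_ker (u v : Aˣ) : D.h u * D.h v * (D.h (u * v))⁻¹ ∈ π.ker := by
  rw [MonoidHom.mem_ker, map_mul, map_mul, map_inv, lrs_map_h D π hp hm, lrs_map_h D π hp hm,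
    lrs_map_h D π hp hm, mul_inv_eq_one]
  ext i j
  fin_cases i <;> fin_cases j <;>
    simp [lrsDiag, Matrix.mul_apply, Fin.sum_univ_two, mul_comm]

/-- **Local theorem (abstract form).** -/
theorem lrs_injective_of_local [Nontrivial A] [IsCyclic Aˣ]
    (hgen : Subgroup.closure (Set.range D.yp ∪ Set.range D.ym) = ⊤)
    (hcen : π.ker ≤ Subgroup.center Y)
    (hloc : ∀ t : A, ¬ IsUnit t → IsUnit (1 + t))
    (u₀ u₀' : Aˣ) (h0 : (u₀ : A) + (u₀' : A) = 1)
    (hns : ¬ IsSquare u₀) (hns' : ¬ IsSquare u₀') : Function.Injective π := by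
  have hc : ∀ u v : Aˣ, D.h u * D.h v * (D.h (u * v))⁻¹ ∈ Subgroup.center Y :=
    fun u v => hcen (lrs_symbol_mem_ker D π hp hm u v)
  have hmul : ∀ u v : Aˣ, D.h (u * v) = D.h u * D.h v :=
    D.h_mul_of_cyclic hc u₀ u₀' h0 hns hns'
  rw [injective_iff_map_eq_one]
  intro g hg
  have hgn : g ∈ D.NF := D.mem_nf_of_closure hmul hloc g (by rw [hgen]; trivial)
  rcases hgn with ⟨r, u, s, -, rfl⟩ | ⟨a, u, s, rfl⟩
  · rw [map_mul, map_mul, hm, hp, lrs_map_h D π hp hm] at hg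
    have h00 := congrArg (fun M : SL(2, A) => M 0 0) hg
    have h01 := congrArg (fun M : SL(2, A) => M 0 1) hg
    have h10 := congrArg (fun M : SL(2, A) => M 1 0) hg
    simp [lrsXp, lrsXm, lrsDiag, Matrix.mul_apply, Fin.sum_univ_two] at h00 h01 h10
    have hu : u = 1 := Units.ext (by simpa using h00)
    subst hu
    rw [h01, h10, D.ym_zero, D.yp_zero, D.h_one, one_mul, one_mul]
  · exfalso
    rw [map_mul, map_mul, map_mul, hp, hp, lrs_map_h D π hp hm, lrs_map_w D π hp hm] at hg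
    have h10 := congrArg (fun M : SL(2, A) => M 1 0) hg
    simp [lrsXp, lrsWm, lrsDiag, Matrix.mul_apply, Fin.sum_univ_two] at h10

end main

/-! ### the instance `A = ZMod (l^e)` -/

/-- In `ZMod l`, `l` an odd prime, there is `x` with `x` and `1 - x` both non-squares. -/
theorem lrs_exists_nonsq_pair (l : ℕ) [Fact l.Prime] (hl2 : l ≠ 2) :
    ∃ x : ZMod l, ¬ IsSquare x ∧ ¬ IsSquare (1 - x) := by
  classical
  by_contra hcon
  push_neg at hcon
  have hF : ringChar (ZMod l) ≠ 2 := by rw [ZMod.ringChar_zmod_n]; exact hl2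
  obtain ⟨n₀, hn₀⟩ := FiniteField.exists_nonsquare hF
  have hn₀0 : n₀ ≠ 0 := by rintro rfl; exact hn₀ (IsSquare.zero)
  set Nn : Finset (ZMod l) := Finset.univ.filter (fun x => ¬ IsSquare x) with hNn
  set S' : Finset (ZMod l) := Finset.univ.filter (fun y => IsSquare y ∧ y ≠ 0 ∧ y ≠ 1) with hS'
  have c1 : Nn.card ≤ S'.card := by
    apply Finset.card_le_card_of_injOn (fun x => 1 - x)
    · intro x hx
      simp only [hNn, Finset.coe_filter, Finset.mem_univ, true_and, Set.mem_setOf_eq] at hx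
      simp only [hS', Finset.coe_filter, Finset.mem_univ, true_and, Set.mem_setOf_eq]
      refine ⟨hcon x hx, ?_, ?_⟩
      · intro h
        have : x = 1 := by linear_combination -h
        exact hx (this ▸ IsSquare.one)
      · intro h
        have : x = 0 := by linear_combination -h
        exact hx (this ▸ IsSquare.zero)
    · intro x _ y _ h
      simpa using h
  have h1S : (1 : ZMod l) ∉ S' := by simp [hS']
  have c2 : (insert 1 S').card ≤ Nn.card := by
    apply Finset.card_le_card_of_injOn (fun y => n₀ * y)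
    · intro y hy
      have hy' : IsSquare y ∧ y ≠ 0 := by
        rw [Finset.mem_coe, Finset.mem_insert] at hy
        rcases hy with rfl | hy
        · exact ⟨IsSquare.one, one_ne_zero⟩
        · simp only [hS', Finset.mem_filter, Finset.mem_univ, true_and] at hy
          exact ⟨hy.1, hy.2.1⟩
      simp only [hNn, Finset.coe_filter, Finset.mem_univ, true_and, Set.mem_setOf_eq]
      rintro ⟨z, hz⟩
      obtain ⟨w, hw⟩ := hy'.1
      have hw0 : w ≠ 0 := by rintro rfl; exact hy'.2 (by rw [hw]; ring)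
      apply hn₀
      refine ⟨z / w, ?_⟩
      field_simp
      rw [hw] at hz
      linear_combination hz
    · intro x _ y _ h
      exact mul_left_cancel₀ hn₀0 h
  rw [Finset.card_insert_of_notMem h1S] at c2
  omega

section zmod

variable {l e : ℕ}

theorem lrs_zmod_isUnit_iff (hl : l.Prime) (he : 0 < e) (a : ZMod (l ^ e)) :
    IsUnit a ↔ ZMod.castHom (dvd_pow_self l he.ne') (ZMod l) a ≠ 0 := by
  haveI : NeZero (l ^ e) := ⟨(pow_pos hl.pos e).ne'⟩
  rw [← ZMod.natCast_zmod_val a, map_natCast, ZMod.isUnit_iff_coprime, Ne,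
    ZMod.natCast_eq_zero_iff, Nat.coprime_pow_right_iff he, Nat.coprime_comm,
    hl.coprime_iff_not_dvd]

/-- **Local theorem for `ZMod (l^e)`, `l` odd.** -/
theorem lrs_injective_zmod (hl : l.Prime) (hl2 : l ≠ 2) (he : 0 < e)
    {Y : Type*} [Group Y] (D : LrsData (ZMod (l ^ e)) Y)
    (π : Y →* SL(2, ZMod (l ^ e))) (hp : ∀ t, π (D.yp t) = lrsXp t)
    (hm : ∀ t, π (D.ym t) = lrsXm t)
    (hgen : Subgroup.closure (Set.range D.yp ∪ Set.range D.ym) = ⊤)
    (hcen : π.ker ≤ Subgroup.center Y) : Function.Injective π := by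
  haveI : Fact l.Prime := ⟨hl⟩
  haveI : Fact (1 < l ^ e) := ⟨Nat.one_lt_pow he.ne' hl.one_lt⟩
  haveI : NeZero (l ^ e) := ⟨(pow_pos hl.pos e).ne'⟩
  haveI : IsCyclic (ZMod (l ^ e))ˣ := ZMod.isCyclic_units_of_prime_pow l hl hl2 e
  set φ := ZMod.castHom (dvd_pow_self l he.ne') (ZMod l) with hφ
  have hloc : ∀ t : ZMod (l ^ e), ¬ IsUnit t → IsUnit (1 + t) := by
    intro t ht
    rw [lrs_zmod_isUnit_iff hl he] at ht ⊢
    rw [not_not] at ht
    rw [map_add, map_one, ht, add_zero]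
    exact one_ne_zero
  obtain ⟨x, hx, hx'⟩ := lrs_exists_nonsq_pair l hl2
  have hx0 : x ≠ 0 := by rintro rfl; exact hx IsSquare.zero
  have hx1 : 1 - x ≠ 0 := by intro h; exact hx' (h ▸ IsSquare.zero)
  have hφa : φ ((x.val : ℕ) : ZMod (l ^ e)) = x := by
    rw [map_natCast, ZMod.natCast_zmod_val]
  have hu : IsUnit ((x.val : ℕ) : ZMod (l ^ e)) := by
    rw [lrs_zmod_isUnit_iff hl he, ← hφ, hφa]; exact hx0
  have hu' : IsUnit (1 - ((x.val : ℕ) : ZMod (l ^ e))) := by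
    rw [lrs_zmod_isUnit_iff hl he, ← hφ, map_sub, map_one, hφa]; exact hx1
  obtain ⟨u₀, hu₀⟩ := hu
  obtain ⟨u₀', hu₀'⟩ := hu'
  refine lrs_injective_of_local D π hp hm hgen hcen hloc u₀ u₀' (by rw [hu₀, hu₀']; ring) ?_ ?_
  · rintro ⟨s, hs⟩
    apply hx
    refine ⟨φ (s : ZMod (l ^ e)), ?_⟩
    rw [← map_mul, ← Units.val_mul, ← hs, hu₀, hφa]
  · rintro ⟨s, hs⟩
    apply hx'
    refine ⟨φ (s : ZMod (l ^ e)), ?_⟩
    rw [← map_mul, ← Units.val_mul, ← hs, hu₀', map_sub, map_one, hφa]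

end zmod

end Fermat.Agent.LR
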