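/-
LR / F1-(I) GLOBAL (helper6), file 5: centrality of `Γ_N / Q(N)` in `SL₂(ℤ[1/q]) / Q(N)` and the
Steinberg data `lrgData : LrsData (ZMod N) (SL₂(ℤ[1/q]) ⧸ Q(N))`.

* `lrg_central`      : `γ ∈ Γ_N ⇒ [γ] ∈ centre`;
* `lrgYp, lrgYm`     : `t ↦ [x⁺(t̃)]`, `t ↦ [x⁻(t̃)]` for `t ∈ ZMod N`;
* `lrg_rel`          : relation (B');
* `lrgData`, `lrgData_yp_intCast`, `lrgData_ym_intCast`, `lrg_closure`,
  `lrgRedBar_yp`, `lrgRedBar_ym`, `lrgRedBar_ker_le_center`.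
-/
import Mathlib
import Fermat.Agent.Lib.LR.CSP.GlobalRed
import Fermat.Agent.Lib.LR.CSP.GlobalGen
import Fermat.Agent.Lib.LR.CSP.LocalOdd

set_option autoImplicit false

open Matrix MatrixGroups

namespace Fermat.Agent.LR

variable {N q : ℕ}

/-! ### Centrality -/

/-- `γ ∈ Γ_N` commutes with `x⁺(t)` modulo `Q(N)` -/
theorem lrg_comm_Xp (hq : q.Prime) (hN : 0 < N) (hNq : N.Coprime q) {γ : LrgG q}
    (hγ : γ ∈ lrgGammaN (N := N) hq.ne_zero hNq) (t : lrgR q) :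
    lrgMk N q γ * lrgMk N q (lrgXp t) = lrgMk N q (lrgXp t) * lrgMk N q γ := by
  obtain ⟨⟨a₀, ha⟩, -, ⟨c₀, hc⟩, -⟩ := (mem_lrgGammaN hq.ne_zero hNq).1 hγ
  have hP := lrg_P hq hN hNq γ c₀ hc t
  have e : lrgMk N q (lrgXp (γ 0 0 ^ 2 * t)) = lrgMk N q (lrgXp t) := by
    apply lrgMk_Xp_congr hq.ne_zero (s := a₀ * (γ 0 0 + 1) * t)
    linear_combination ((γ 0 0 + 1) * t) * ha
  rw [e, map_mul, map_mul, map_inv] at hP
  exact mul_inv_eq_iff_eq_mul.mp hP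

theorem lrgW_inv_conj_Xp {A : Type*} [CommRing A] (s : A) :
    (lrgW : SL(2, A))⁻¹ * lrgXp s * lrgW = lrgXm (-s) := by
  rw [mul_assoc, inv_mul_eq_iff_eq_mul]
  ext i j
  fin_cases i <;> fin_cases j <;> simp [lrg_mul_apply]

/-- `γ ∈ Γ_N` commutes with `x⁻(t)` modulo `Q(N)` -/
theorem lrg_comm_Xm (hq : q.Prime) (hN : 0 < N) (hNq : N.Coprime q) {γ : LrgG q}
    (hγ : γ ∈ lrgGammaN (N := N) hq.ne_zero hNq) (t : lrgR q) :
    lrgMk N q γ * lrgMk N q (lrgXm t) = lrgMk N q (lrgXm t) * lrgMk N q γ := by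
  have hnorm : (lrgGammaN (N := N) hq.ne_zero hNq).Normal := by
    unfold lrgGammaN; infer_instance
  have hγ' : lrgW⁻¹ * γ * lrgW⁻¹⁻¹ ∈ lrgGammaN (N := N) hq.ne_zero hNq :=
    hnorm.conj_mem γ hγ lrgW⁻¹
  have h1 := lrg_comm_Xp hq hN hNq hγ' (-t)
  have e : lrgXm t = lrgW * lrgXp (-t) * lrgW⁻¹ := by rw [lrgW_conj_Xp, neg_neg]
  rw [e]
  simp only [map_mul, map_inv, inv_inv] at h1 ⊢
  set w := lrgMk N q lrgW
  set x := lrgMk N q (lrgXp (-t))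
  set c := lrgMk N q γ
  calc c * (w * x * w⁻¹) = w * (w⁻¹ * c * w * x) * w⁻¹ := by group
    _ = w * (x * (w⁻¹ * c * w)) * w⁻¹ := by rw [h1]
    _ = w * x * w⁻¹ * c := by group

/-- **Centrality**: the image of `Γ_N` in `SL₂(ℤ[1/q]) / Q(N)` is central. -/
theorem lrg_central (hq : q.Prime) (hN : 0 < N) (hNq : N.Coprime q) {γ : LrgG q}
    (hγ : γ ∈ lrgGammaN (N := N) hq.ne_zero hNq) :
    lrgMk N q γ ∈ Subgroup.center (LrgGbar N q) := by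
  rw [Subgroup.mem_center_iff]
  intro x
  obtain ⟨g, rfl⟩ := QuotientGroup.mk'_surjective (lrgQ N q) x
  have hg : g ∈ lrgE q := by rw [lrgE_eq_top hq.ne_zero]; exact Subgroup.mem_top _
  have hle : lrgE q ≤ (Subgroup.centralizer {lrgMk N q γ}).comap (lrgMk N q) := by
    rw [lrgE, Subgroup.closure_le]
    rintro y (⟨t, rfl⟩ | ⟨t, rfl⟩)
    · show lrgMk N q (lrgXp t) ∈ Subgroup.centralizer {lrgMk N q γ}
      rw [Subgroup.mem_centralizer_iff]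
      rintro h rfl
      exact lrg_comm_Xp hq hN hNq hγ t
    · show lrgMk N q (lrgXm t) ∈ Subgroup.centralizer {lrgMk N q γ}
      rw [Subgroup.mem_centralizer_iff]
      rintro h rfl
      exact lrg_comm_Xm hq hN hNq hγ t
  have := hle hg
  rw [Subgroup.mem_comap, Subgroup.mem_centralizer_iff] at this
  exact (this _ rfl).symm

theorem lrgRedBar_ker_le_center (hq : q.Prime) (hN : 0 < N) (hNq : N.Coprime q) :
    (lrgRedBar (N := N) hq.ne_zero hNq).ker ≤ Subgroup.center (LrgGbar N q) := by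
  rw [lrgRedBar_ker]
  rintro x ⟨g, hg, rfl⟩
  exact lrg_central hq hN hNq hg

/-! ### The families `y⁺, y⁻ : ZMod N → SL₂(ℤ[1/q]) / Q(N)` -/

/-- `y⁺(t) = [x⁺(t̃)]` -/
noncomputable def lrgYp (N q : ℕ) (t : ZMod N) : LrgGbar N q :=
  lrgMk N q (lrgXp (((ZMod.cast t : ℤ)) : lrgR q))

/-- `y⁻(t) = [x⁻(t̃)]` -/
noncomputable def lrgYm (N q : ℕ) (t : ZMod N) : LrgGbar N q :=
  lrgMk N q (lrgXm (((ZMod.cast t : ℤ)) : lrgR q))

theorem lrg_int_sub_eq (m m' : ℤ) (h : (m : ZMod N) = (m' : ZMod N)) :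
    ∃ s : lrgR q, (m : lrgR q) - (m' : lrgR q) = (N : lrgR q) * s := by
  obtain ⟨s, hs⟩ := (ZMod.intCast_eq_intCast_iff_dvd_sub m' m N).1 h.symm
  refine ⟨(s : lrgR q), ?_⟩
  have := congrArg (fun z : ℤ => (z : lrgR q)) hs
  push_cast at this
  exact this

theorem lrgMk_Xp_int_congr (hq : q ≠ 0) {m m' : ℤ} (h : (m : ZMod N) = (m' : ZMod N)) :
    lrgMk N q (lrgXp (m : lrgR q)) = lrgMk N q (lrgXp (m' : lrgR q)) := by
  obtain ⟨s, hs⟩ := lrg_int_sub_eq (q := q) m m' h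
  exact lrgMk_Xp_congr hq hs

theorem lrgMk_Xm_int_congr (hq : q ≠ 0) {m m' : ℤ} (h : (m : ZMod N) = (m' : ZMod N)) :
    lrgMk N q (lrgXm (m : lrgR q)) = lrgMk N q (lrgXm (m' : lrgR q)) := by
  obtain ⟨s, hs⟩ := lrg_int_sub_eq (q := q) m m' h
  exact lrgMk_Xm_congr hq hs

theorem lrgYp_intCast (hq : q ≠ 0) (m : ℤ) :
    lrgYp N q (m : ZMod N) = lrgMk N q (lrgXp (m : lrgR q)) :=
  lrgMk_Xp_int_congr hq (ZMod.intCast_zmod_cast _)

theorem lrgYm_intCast (hq : q ≠ 0) (m : ℤ) :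
    lrgYm N q (m : ZMod N) = lrgMk N q (lrgXm (m : lrgR q)) :=
  lrgMk_Xm_int_congr hq (ZMod.intCast_zmod_cast _)

theorem lrgYp_add (hq : q ≠ 0) (s t : ZMod N) :
    lrgYp N q (s + t) = lrgYp N q s * lrgYp N q t := by
  have h : lrgYp N q (s + t) =
      lrgMk N q (lrgXp (((ZMod.cast s + ZMod.cast t : ℤ)) : lrgR q)) := by
    apply lrgMk_Xp_int_congr hq
    push_cast
    rfl
  rw [h]
  push_cast
  rw [lrgXp_add, map_mul]
  rfl

theorem lrgYm_add (hq : q ≠ 0) (s t : ZMod N) :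
    lrgYm N q (s + t) = lrgYm N q s * lrgYm N q t := by
  have h : lrgYm N q (s + t) =
      lrgMk N q (lrgXm (((ZMod.cast s + ZMod.cast t : ℤ)) : lrgR q)) := by
    apply lrgMk_Xm_int_congr hq
    push_cast
    rfl
  rw [h]
  push_cast
  rw [lrgXm_add, map_mul]
  rfl

/-- `[x⁺(t)] = y⁺(t mod N)` for every `t ∈ ℤ[1/q]` -/
theorem lrgMk_Xp_eq_lrgYp (hq : q ≠ 0) (hNq : N.Coprime q) (t : lrgR q) :
    lrgMk N q (lrgXp t) = lrgYp N q (lrgRed hq hNq t) := by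
  obtain ⟨j, s, hjs⟩ := lrg_exists_int hNq t
  have h1 : lrgRed hq hNq t = (j : ZMod N) := by
    rw [hjs, map_add, map_mul, lrgRed_intCast, lrgRed_natCast, ZMod.natCast_self, zero_mul,
      add_zero]
  rw [h1, lrgYp_intCast hq]
  apply lrgMk_Xp_congr hq (s := s)
  rw [hjs]; ring

theorem lrgMk_Xm_eq_lrgYm (hq : q ≠ 0) (hNq : N.Coprime q) (t : lrgR q) :
    lrgMk N q (lrgXm t) = lrgYm N q (lrgRed hq hNq t) := by
  obtain ⟨j, s, hjs⟩ := lrg_exists_int hNq t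
  have h1 : lrgRed hq hNq t = (j : ZMod N) := by
    rw [hjs, map_add, map_mul, lrgRed_intCast, lrgRed_natCast, ZMod.natCast_self, zero_mul,
      add_zero]
  rw [h1, lrgYm_intCast hq]
  apply lrgMk_Xm_congr hq (s := s)
  rw [hjs]; ring

/-- generation of the quotient -/
theorem lrg_closure (hq : q ≠ 0) (hNq : N.Coprime q) :
    Subgroup.closure (Set.range (lrgYp N q) ∪ Set.range (lrgYm N q)) = ⊤ := by
  have hsurj : Function.Surjective (lrgMk N q) := QuotientGroup.mk'_surjective _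
  rw [eq_top_iff, ← Subgroup.map_top_of_surjective (lrgMk N q) hsurj, ← lrgE_eq_top hq, lrgE,
    MonoidHom.map_closure, Subgroup.closure_le]
  rintro x ⟨y, hy, rfl⟩
  rcases hy with ⟨t, rfl⟩ | ⟨t, rfl⟩
  · exact Subgroup.subset_closure (Or.inl ⟨lrgRed hq hNq t, (lrgMk_Xp_eq_lrgYp hq hNq t).symm⟩)
  · exact Subgroup.subset_closure (Or.inr ⟨lrgRed hq hNq t, (lrgMk_Xm_eq_lrgYm hq hNq t).symm⟩)

/-! ### Relation (B') -/

theorem lrg_rel (hq : q.Prime) (hN : 0 < N) (hNq : N.Coprime q) (u : (ZMod N)ˣ) (t : ZMod N) :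
    (lrgYp N q u * lrgYm N q (-(↑u⁻¹ : ZMod N)) * lrgYp N q u) * lrgYp N q t *
      (lrgYp N q u * lrgYm N q (-(↑u⁻¹ : ZMod N)) * lrgYp N q u)⁻¹ =
    lrgYm N q (-((↑u⁻¹ : ZMod N) ^ 2) * t) := by
  have hq0 := hq.ne_zero
  obtain ⟨u₁, hu₁⟩ : ∃ u₁ : ℤ, u₁ = ZMod.cast (u : ZMod N) := ⟨_, rfl⟩
  obtain ⟨u₂, hu₂⟩ : ∃ u₂ : ℤ, u₂ = ZMod.cast ((↑u⁻¹ : ZMod N)) := ⟨_, rfl⟩
  obtain ⟨t₁, ht₁⟩ : ∃ t₁ : ℤ, t₁ = ZMod.cast t := ⟨_, rfl⟩
  have hu₁' : (u₁ : ZMod N) = u := by rw [hu₁, ZMod.intCast_zmod_cast]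
  have hu₂' : (u₂ : ZMod N) = (↑u⁻¹ : ZMod N) := by rw [hu₂, ZMod.intCast_zmod_cast]
  have ht₁' : (t₁ : ZMod N) = t := by rw [ht₁, ZMod.intCast_zmod_cast]
  -- `1 - u₁ u₂ ∈ N ℤ`
  obtain ⟨s, hs⟩ : ∃ s : lrgR q, ((u₁ * u₂ : ℤ) : lrgR q) - ((1 : ℤ) : lrgR q) = (N : lrgR q) * s := by
    apply lrg_int_sub_eq
    push_cast
    rw [hu₁', hu₂', Units.mul_inv]
  push_cast at hs
  -- rewrite everything with integer lifts
  have e1 : lrgYp N q (u : ZMod N) = lrgMk N q (lrgXp (u₁ : lrgR q)) := by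
    rw [← hu₁', lrgYp_intCast hq0]
  have e2 : lrgYm N q (-(↑u⁻¹ : ZMod N)) = lrgMk N q (lrgXm (-(u₂ : lrgR q))) := by
    have : (-(↑u⁻¹ : ZMod N)) = ((-u₂ : ℤ) : ZMod N) := by push_cast; rw [hu₂']
    rw [this, lrgYm_intCast hq0]
    push_cast
    rfl
  have e3 : lrgYp N q t = lrgMk N q (lrgXp (t₁ : lrgR q)) := by
    rw [← ht₁', lrgYp_intCast hq0]
  have e4 : lrgYm N q (-((↑u⁻¹ : ZMod N) ^ 2) * t) =
      lrgMk N q (lrgXm (-((u₂ : lrgR q) ^ 2 * (t₁ : lrgR q)))) := by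
    have : (-((↑u⁻¹ : ZMod N) ^ 2) * t) = ((-(u₂ ^ 2 * t₁) : ℤ) : ZMod N) := by
      push_cast; rw [hu₂', ht₁']; ring
    rw [this, lrgYm_intCast hq0]
    push_cast
    rfl
  rw [e1, e2, e3, e4]
  obtain ⟨g, hg⟩ : ∃ g : LrgG q,
      g = lrgXp (u₁ : lrgR q) * lrgXm (-(u₂ : lrgR q)) * lrgXp (u₁ : lrgR q) := ⟨_, rfl⟩
  obtain ⟨g', hg'⟩ : ∃ g' : LrgG q, g' = lrgW * g := ⟨_, rfl⟩
  have h00 : g' 0 0 = -(u₂ : lrgR q) := by
    rw [hg', hg]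
    simp only [lrg_mul_apply, lrgW_00, lrgW_01, lrgXp_00, lrgXp_01, lrgXp_10, lrgXp_11, lrgXm_00,
      lrgXm_01, lrgXm_10, lrgXm_11]
    ring
  have h10 : g' 1 0 = (N : lrgR q) * s := by
    rw [hg', hg]
    simp only [lrg_mul_apply, lrgW_10, lrgW_11, lrgXp_00, lrgXp_01, lrgXp_10, lrgXp_11, lrgXm_00,
      lrgXm_01, lrgXm_10, lrgXm_11]
    linear_combination hs
  have hP := lrg_P hq hN hNq g' s h10 (t₁ : lrgR q)
  rw [h00] at hP
  have hgg : g = lrgW⁻¹ * g' := by rw [hg']; group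
  have e0 : lrgMk N q (lrgXp (u₁ : lrgR q)) * lrgMk N q (lrgXm (-(u₂ : lrgR q))) *
      lrgMk N q (lrgXp (u₁ : lrgR q)) = lrgMk N q g := by
    rw [hg, map_mul, map_mul]
  have e5 : g * lrgXp (t₁ : lrgR q) * g⁻¹ = lrgW⁻¹ * (g' * lrgXp (t₁ : lrgR q) * g'⁻¹) * lrgW := by
    rw [hgg]; group
  have e6 : lrgMk N q g * lrgMk N q (lrgXp (t₁ : lrgR q)) * (lrgMk N q g)⁻¹ =
      lrgMk N q (g * lrgXp (t₁ : lrgR q) * g⁻¹) := by
    rw [map_mul, map_mul, map_inv]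
  rw [e0, e6, e5, map_mul, map_mul, hP, ← map_mul, ← map_mul, lrgW_inv_conj_Xp]
  congr 2
  ring

/-! ### The Steinberg data -/

/-- **the Steinberg data over `ZMod N` in `SL₂(ℤ[1/q]) / Q(N)`** -/
noncomputable def lrgData (hq : q.Prime) (hN : 0 < N) (hNq : N.Coprime q) :
    LrsData (ZMod N) (LrgGbar N q) where
  yp := lrgYp N q
  ym := lrgYm N q
  yp_add := lrgYp_add hq.ne_zero
  ym_add := lrgYm_add hq.ne_zero
  rel := lrg_rel hq hN hNq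

theorem lrgData_yp (hq : q.Prime) (hN : 0 < N) (hNq : N.Coprime q) (t : ZMod N) :
    (lrgData hq hN hNq).yp t = lrgYp N q t := rfl

theorem lrgData_ym (hq : q.Prime) (hN : 0 < N) (hNq : N.Coprime q) (t : ZMod N) :
    (lrgData hq hN hNq).ym t = lrgYm N q t := rfl

theorem lrgData_yp_intCast (hq : q.Prime) (hN : 0 < N) (hNq : N.Coprime q) (m : ℤ) :
    (lrgData hq hN hNq).yp (m : ZMod N) = lrgMk N q (lrgXp (m : lrgR q)) :=
  lrgYp_intCast hq.ne_zero m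

theorem lrgData_ym_intCast (hq : q.Prime) (hN : 0 < N) (hNq : N.Coprime q) (m : ℤ) :
    (lrgData hq hN hNq).ym (m : ZMod N) = lrgMk N q (lrgXm (m : lrgR q)) :=
  lrgYm_intCast hq.ne_zero m

theorem lrgData_closure (hq : q.Prime) (hN : 0 < N) (hNq : N.Coprime q) :
    Subgroup.closure (Set.range (lrgData hq hN hNq).yp ∪ Set.range (lrgData hq hN hNq).ym) = ⊤ :=
  lrg_closure hq.ne_zero hNq

/-! ### Compatibility with reduction -/

theorem lrg_map_apply {A B : Type*} [CommRing A] [CommRing B] (f : A →+* B) (g : SL(2, A))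
    (i j : Fin 2) : SpecialLinearGroup.map f g i j = f (g i j) := rfl

theorem lrg_map_Xp {A B : Type*} [CommRing A] [CommRing B] (f : A →+* B) (t : A) :
    SpecialLinearGroup.map f (lrgXp t) = lrgXp (f t) := by
  ext i j
  rw [lrg_map_apply]
  fin_cases i <;> fin_cases j <;> simp

theorem lrg_map_Xm {A B : Type*} [CommRing A] [CommRing B] (f : A →+* B) (t : A) :
    SpecialLinearGroup.map f (lrgXm t) = lrgXm (f t) := by
  ext i j
  rw [lrg_map_apply]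
  fin_cases i <;> fin_cases j <;> simp

theorem lrgRedBar_yp (hq : q ≠ 0) (hNq : N.Coprime q) (t : ZMod N) :
    lrgRedBar hq hNq (lrgYp N q t) = lrsXp t := by
  rw [lrgYp, lrgRedBar_mk, lrgRedSL, lrg_map_Xp, lrgRed_intCast, ZMod.intCast_zmod_cast]
  rfl

theorem lrgRedBar_ym (hq : q ≠ 0) (hNq : N.Coprime q) (t : ZMod N) :
    lrgRedBar hq hNq (lrgYm N q t) = lrsXm t := by
  rw [lrgYm, lrgRedBar_mk, lrgRedSL, lrg_map_Xm, lrgRed_intCast, ZMod.intCast_zmod_cast]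
  rfl

end Fermat.Agent.LR
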