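/-
LR-CSP (helper4): (IV) wiring.  From "every element of `Γ_N / Q(N)` has order prime to `p`"
to Ihara's lemma in the form: a compatible pair of parabolic classes `φ₁, φ₂ : Γ₀(N) → 𝔽_p`
(compatible on `Γ₀(Nq)` through the two degeneracy maps) vanishes on `{d ≡ 1 mod N}`.
-/
import Mathlib
import Fermat.Prelude.Def_ModularCurve_PeriodMap
import Fermat.Agent.Lib.LR.Amalgam.Main
import Fermat.Agent.Lib.LR.CSP.LocalOdd

set_option autoImplicit false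

namespace Fermat.Agent.LR

open Matrix MatrixGroups CongruenceSubgroup ModularCurve.Period

noncomputable section

/-! ### unipotent elements of `SL(2,ℚ)` -/

/-- `1 + s · v vᗮᵀ` for `v = (α, γ)`: `[[1 - sαγ, sα²],[-sγ², 1 + sαγ]]`. -/
def lriU (α γ s : ℚ) : SL(2, ℚ) :=
  ⟨!![1 - s * α * γ, s * α ^ 2; -(s * γ ^ 2), 1 + s * α * γ], by
    rw [Matrix.det_fin_two_of]; ring⟩

theorem lriU_zero (α γ : ℚ) : lriU α γ 0 = 1 := by
  ext i j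
  fin_cases i <;> fin_cases j <;> simp [lriU]

theorem lriU_add (α γ s t : ℚ) : lriU α γ (s + t) = lriU α γ s * lriU α γ t := by
  ext i j
  fin_cases i <;> fin_cases j <;>
    simp [lriU, Matrix.mul_apply, Fin.sum_univ_two] <;> ring

theorem lriU_pow (α γ s : ℚ) (n : ℕ) : lriU α γ s ^ n = lriU α γ (n * s) := by
  induction n with
  | zero => simp [lriU_zero]
  | succ n ih =>
    rw [pow_succ, ih, ← lriU_add]
    congr 1
    push_cast; ring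

theorem lri_conj_eq (g : SL(2, ℚ)) (s : ℚ) :
    g * lrsXp s * g⁻¹ = lriU (g 0 0) (g 1 0) s := by
  have hdet := g.det_coe
  rw [Matrix.det_fin_two] at hdet
  ext i j
  fin_cases i <;> fin_cases j <;>
    simp [lriU, lrsXp, Matrix.mul_apply, Fin.sum_univ_two, Matrix.adjugate_fin_two] <;>
    first | linear_combination hdet | linear_combination (0 : ℚ) * hdet

/-! ### conjugates of `x⁺(N)` in `Γ = lraDelta 1 q` -/

/-- `x⁺(N)` as an element of `Γ = SL₂(ℤ[1/q]) = lraDelta 1 q`. -/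
def lriXpN (N q : ℕ) : ↥(lraDelta 1 q) :=
  ⟨lrsXp (N : ℚ), ⟨0, !![1, (N : ℤ); 0, 1], by
    refine ⟨?_, by simp⟩
    intro i j
    fin_cases i <;> fin_cases j <;> simp [lrsXp]⟩⟩

/-- the integral unipotent matrix `[[1 - N a c, N a²],[-N c², 1 + N a c]]`. -/
def lriUZ (N : ℕ) (a c : ℤ) : SL(2, ℤ) :=
  ⟨!![1 - N * a * c, N * a ^ 2; -(N * c ^ 2), 1 + N * a * c], by
    rw [Matrix.det_fin_two_of]; ring⟩

theorem lriUZ_mem_Gamma0 (N : ℕ) (a c : ℤ) : lriUZ N a c ∈ Gamma0 N := by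
  rw [lra_Gamma0_mem_iff_dvd]
  exact ⟨-(c ^ 2), by simp [lriUZ]⟩

theorem lriUZ_trace (N : ℕ) (a c : ℤ) :
    ((lriUZ N a c : SL(2, ℤ)) : Matrix (Fin 2) (Fin 2) ℤ).trace ^ 2 = 4 := by
  rw [Matrix.trace_fin_two]
  simp [lriUZ] <;> ring

theorem lri_conj_mem {N q : ℕ} {g : SL(2, ℚ)} (hg : g ∈ lraDelta 1 q) :
    g * lrsXp (N : ℚ) * g⁻¹ ∈ lraDelta N q := by
  obtain ⟨k, M, hM, -⟩ := hg
  rw [lri_conj_eq]
  refine ⟨2 * k, !![(q : ℤ) ^ (2 * k) - N * M 0 0 * M 1 0, N * M 0 0 ^ 2;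
    -(N * M 1 0 ^ 2), (q : ℤ) ^ (2 * k) + N * M 0 0 * M 1 0], ?_, ⟨-(M 1 0 ^ 2), by simp⟩⟩
  have h00 : ((M 0 0 : ℤ) : ℚ) = g 0 0 * (q : ℚ) ^ k := (hM 0 0).symm
  have h10 : ((M 1 0 : ℤ) : ℚ) = g 1 0 * (q : ℚ) ^ k := (hM 1 0).symm
  intro i j
  fin_cases i <;> fin_cases j <;> simp [lriU] <;> simp only [h00, h10] <;> ring

theorem lri_conj_pow {q : ℕ} (N : ℕ) {g : SL(2, ℚ)} {k : ℕ} {M : Matrix (Fin 2) (Fin 2) ℤ}
    (hM : ∀ i j, g i j * (q : ℚ) ^ k = (M i j : ℚ)) :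
    (g * lrsXp (N : ℚ) * g⁻¹) ^ (q ^ (2 * k)) = lraCast (lriUZ N (M 0 0) (M 1 0)) := by
  rw [lri_conj_eq, lriU_pow]
  have h00 : ((M 0 0 : ℤ) : ℚ) = g 0 0 * (q : ℚ) ^ k := (hM 0 0).symm
  have h10 : ((M 1 0 : ℤ) : ℚ) = g 1 0 * (q : ℚ) ^ k := (hM 1 0).symm
  ext i j
  fin_cases i <;> fin_cases j <;> simp [lriU, lriUZ] <;> simp only [h00, h10] <;> ring

/-! ### the abstract wiring -/

section wiring

variable {N q p : ℕ} [hqp : Fact q.Prime] [hpp : Fact p.Prime]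

omit hqp in
theorem lri_smul_eq_zero {m : ℕ} (hm : ¬ p ∣ m) {x : ZMod p} (h : m • x = 0) : x = 0 := by
  rw [nsmul_eq_mul] at h
  rcases mul_eq_zero.1 h with h | h
  · exact absurd ((ZMod.natCast_eq_zero_iff m p).1 h) hm
  · exact h

variable (Φ : Additive ↥(lraDelta N q) →+ ZMod p)
  (hpar : ∀ γ : Gamma0 N, ((γ : SL(2, ℤ)) : Matrix (Fin 2) (Fin 2) ℤ).trace ^ 2 = 4 →
    Φ (Additive.ofMul ⟨lraCast γ.1, lraCast_mem_lraDelta γ⟩) = 0)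
include hpar

/-- `Φ` kills the `Γ`-conjugates of `x⁺(N)`. -/
theorem lri_kills_conj (hpq : p ≠ q) {g : SL(2, ℚ)} (hg : g ∈ lraDelta 1 q) :
    Φ (Additive.ofMul ⟨g * lrsXp (N : ℚ) * g⁻¹, lri_conj_mem hg⟩) = 0 := by
  obtain ⟨k, M, hM, -⟩ := hg
  have hpow := lri_conj_pow (q := q) N hM
  have h1 : (⟨g * lrsXp (N : ℚ) * g⁻¹, lri_conj_mem ⟨k, M, hM, by simp⟩⟩ : ↥(lraDelta N q))
      ^ (q ^ (2 * k)) = ⟨lraCast (lriUZ N (M 0 0) (M 1 0)),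
        lraCast_mem_lraDelta ⟨_, lriUZ_mem_Gamma0 N (M 0 0) (M 1 0)⟩⟩ :=
    Subtype.ext hpow
  have h2 := hpar ⟨_, lriUZ_mem_Gamma0 N (M 0 0) (M 1 0)⟩ (lriUZ_trace N _ _)
  rw [← h1, ofMul_pow, map_nsmul] at h2
  refine lri_smul_eq_zero ?_ h2
  intro hdiv
  have := (Nat.prime_dvd_prime_iff_eq hpp.out hqp.out).1 (hpp.out.dvd_of_dvd_pow hdiv)
  exact hpq this

variable {G' : Type*} [Group G'] (ι : G' →* SL(2, ℚ)) (hι : ∀ g, ι g ∈ lraDelta 1 q)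
  (x₀ : G') (hx₀ : ι x₀ = lrsXp (N : ℚ))
include hι hx₀

/-- `Φ` kills the normal closure of `x⁺(N)` in `Γ`. -/
theorem lri_kills_normalClosure (hpq : p ≠ q) (x : G')
    (hx : x ∈ Subgroup.normalClosure {x₀}) :
    ∃ h : ι x ∈ lraDelta N q, Φ (Additive.ofMul ⟨ι x, h⟩) = 0 := by
  rw [Subgroup.normalClosure] at hx
  induction hx using Subgroup.closure_induction with
  | mem x hx =>
    rw [Group.mem_conjugatesOfSet_iff] at hx
    obtain ⟨a, ha, hax⟩ := hx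
    rw [Set.mem_singleton_iff] at ha
    subst ha
    obtain ⟨c, rfl⟩ := isConj_iff.1 hax
    have e : ι (c * a * c⁻¹) = ι c * lrsXp (N : ℚ) * (ι c)⁻¹ := by
      rw [map_mul, map_mul, map_inv, hx₀]
    have hm : ι (c * a * c⁻¹) ∈ lraDelta N q := by rw [e]; exact lri_conj_mem (hι c)
    refine ⟨hm, ?_⟩
    have := lri_kills_conj Φ hpar hpq (hι c)
    have e' : (⟨ι (c * a * c⁻¹), hm⟩ : ↥(lraDelta N q)) =
        ⟨ι c * lrsXp (N : ℚ) * (ι c)⁻¹, lri_conj_mem (hι c)⟩ := Subtype.ext e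
    rw [e']; exact this
  | one => exact ⟨by rw [map_one]; exact one_mem _, by
      have : (⟨ι 1, by rw [map_one]; exact one_mem _⟩ : ↥(lraDelta N q)) = 1 :=
        Subtype.ext (map_one ι)
      rw [this, ofMul_one, map_zero]⟩
  | mul x y _ _ ihx ihy =>
    obtain ⟨hx', ex⟩ := ihx
    obtain ⟨hy', ey⟩ := ihy
    have hm : ι (x * y) ∈ lraDelta N q := by rw [map_mul]; exact mul_mem hx' hy'
    refine ⟨hm, ?_⟩
    have : (⟨ι (x * y), hm⟩ : ↥(lraDelta N q)) = ⟨ι x, hx'⟩ * ⟨ι y, hy'⟩ :=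
      Subtype.ext (map_mul ι x y)
    rw [this, ofMul_mul, map_add, ex, ey, add_zero]
  | inv x _ ihx =>
    obtain ⟨hx', ex⟩ := ihx
    have hm : ι x⁻¹ ∈ lraDelta N q := by rw [map_inv]; exact inv_mem hx'
    refine ⟨hm, ?_⟩
    have : (⟨ι x⁻¹, hm⟩ : ↥(lraDelta N q)) = (⟨ι x, hx'⟩ : ↥(lraDelta N q))⁻¹ :=
      Subtype.ext (map_inv ι x)
    rw [this, ofMul_inv, map_neg, ex, neg_zero]

/-- if every element of `GN` has a power prime to `p` in the normal closure, `Φ` kills `GN`. -/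
theorem lri_kills_GN (hpq : p ≠ q) (GN : Subgroup G')
    (hord : ∀ g ∈ GN, ∃ m : ℕ, ¬ p ∣ m ∧ g ^ m ∈ Subgroup.normalClosure {x₀})
    (g : G') (hg : g ∈ GN) (h : ι g ∈ lraDelta N q) :
    Φ (Additive.ofMul ⟨ι g, h⟩) = 0 := by
  obtain ⟨m, hm, hgm⟩ := hord g hg
  obtain ⟨h', e⟩ := lri_kills_normalClosure Φ hpar ι hι x₀ hx₀ hpq _ hgm
  have : (⟨ι (g ^ m), h'⟩ : ↥(lraDelta N q)) = (⟨ι g, h⟩ : ↥(lraDelta N q)) ^ m :=
    Subtype.ext (by simp)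
  rw [this, ofMul_pow, map_nsmul] at e
  exact lri_smul_eq_zero hm e

end wiring

/-! ### Ihara's lemma, abstract form -/

/-- the level condition `g ≡ 1 mod N` for `g ∈ SL₂(ℤ[1/q])`: `g = M / q^k`, `M ≡ q^k · 1 mod N`. -/
def LriCong (N q : ℕ) (g : SL(2, ℚ)) : Prop :=
  ∃ (k : ℕ) (M : Matrix (Fin 2) (Fin 2) ℤ), (∀ i j, g i j * (q : ℚ) ^ k = (M i j : ℚ)) ∧
    ∀ i j, ((M i j : ℤ) : ZMod N) = (q : ZMod N) ^ k * (1 : Matrix (Fin 2) (Fin 2) (ZMod N)) i j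

theorem lri_cong_cast {N q : ℕ} {γ : SL(2, ℤ)} (hγ : γ ∈ Gamma N) : LriCong N q (lraCast γ) := by
  rw [Gamma_mem] at hγ
  obtain ⟨h00, h01, h10, h11⟩ := hγ
  refine ⟨0, γ.1, fun i j => by simp, ?_⟩
  intro i j
  fin_cases i <;> fin_cases j <;> simp [h00, h01, h10, h11]

theorem lri_cong_conj {N q : ℕ} (hq : q ≠ 0) {γ : SL(2, ℤ)} (hγ : γ ∈ Gamma N) :
    LriCong N q ((lraConj q hq).symm (lraCast γ)) := by
  rw [Gamma_mem] at hγ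
  obtain ⟨h00, h01, h10, h11⟩ := hγ
  have hq' : (q : ℚ) ≠ 0 := Nat.cast_ne_zero.2 hq
  refine ⟨1, !![(q : ℤ) * γ 0 0, γ 0 1; (q : ℤ) ^ 2 * γ 1 0, (q : ℤ) * γ 1 1], ?_, ?_⟩
  · intro i j
    fin_cases i <;> fin_cases j <;> simp <;> field_simp
  · intro i j
    fin_cases i <;> fin_cases j <;> simp [h00, h01, h10, h11]

/-- `x⁺(t) ∈ Γ₀(N)`. -/
def lriT (N : ℕ) (t : ℤ) : Gamma0 N :=
  ⟨lrsXp t, by rw [lra_Gamma0_mem_iff_dvd]; simp [lrsXp]⟩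

theorem lriT_trace (N : ℕ) (t : ℤ) :
    (((lriT N t : Gamma0 N) : SL(2, ℤ)) : Matrix (Fin 2) (Fin 2) ℤ).trace ^ 2 = 4 := by
  rw [Matrix.trace_fin_two]
  simp [lriT, lrsXp] <;> norm_num

/-- a parabolic class vanishing on `Γ(N)` vanishes on `{d ≡ 1 mod N}`. -/
theorem lri_gamma1_of_gamma {N : ℕ} {A : Type*} [AddCommGroup A]
    (φ : Additive ↥(Gamma0 N) →+ A) (hφ : IsParabolicHom (Gamma0 N) φ)
    (hΓ : ∀ γ : Gamma0 N, γ.1 ∈ Gamma N → φ (Additive.ofMul γ) = 0)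
    (γ : Gamma0 N) (hd : ((γ.1 1 1 : ℤ) : ZMod N) = 1) : φ (Additive.ofMul γ) = 0 := by
  have hc : ((γ.1 1 0 : ℤ) : ZMod N) = 0 := Gamma0_mem.1 γ.2
  have hdet := γ.1.det_coe
  rw [Matrix.det_fin_two] at hdet
  have hdet' := congrArg (fun x : ℤ => (x : ZMod N)) hdet
  simp only [Int.cast_sub, Int.cast_mul, Int.cast_one, hd, hc, mul_zero, mul_one, sub_zero]
    at hdet'
  have hmem : (γ * lriT N (-(γ.1 0 1))).1 ∈ Gamma N := by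
    rw [Gamma_mem]
    refine ⟨?_, ?_, ?_, ?_⟩ <;>
      simp [lriT, lrsXp, Matrix.mul_apply, Fin.sum_univ_two, hd, hc, hdet']
  have h1 := hΓ _ hmem
  rw [ofMul_mul, map_add, hφ _ (lriT_trace N _), add_zero] at h1
  exact h1

section ihara

variable {N q p : ℕ} [hqp : Fact q.Prime] [hpp : Fact p.Prime]

/-- **Ihara's lemma (abstract form)**: given a subgroup `GN` of `Γ = SL₂(ℤ[1/q])` containing all
`g ≡ 1 mod N` and such that every element of `GN` has a power of exponent prime to `p` in the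
normal closure `Q(N)` of `x⁺(N)`, compatible parabolic classes `φ₁, φ₂ : Γ₀(N) → 𝔽_p` vanish on
`{d ≡ 1 mod N}`. -/
theorem lri_ihara_abs (hpq : p ≠ q) (hN : N ≠ 0) (hNq : N.Coprime q)
    {G' : Type*} [Group G'] (ι : G' →* SL(2, ℚ)) (hι : ∀ g, ι g ∈ lraDelta 1 q)
    (hsurj : ∀ x ∈ lraDelta 1 q, ∃ g, ι g = x)
    (x₀ : G') (hx₀ : ι x₀ = lrsXp (N : ℚ))
    (GN : Subgroup G')
    (hGN : ∀ g : G', LriCong N q (ι g) → g ∈ GN)
    (hord : ∀ g ∈ GN, ∃ m : ℕ, ¬ p ∣ m ∧ g ^ m ∈ Subgroup.normalClosure {x₀})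
    (φ₁ φ₂ : Additive ↥(Gamma0 N) →+ ZMod p)
    (h₁ : IsParabolicHom (Gamma0 N) φ₁) (h₂ : IsParabolicHom (Gamma0 N) φ₂)
    (hcompat : ∀ γ : Gamma0 (N * q),
      φ₁ (Additive.ofMul ⟨γ.1, lraCast_mem_lraA.1 (lraC_le_lraA (lraCast_mem_lraC.2 γ.2))⟩) =
        φ₂ (Additive.ofMul (lraDeg N q hqp.out.ne_zero γ))) :
    (∀ γ : Gamma0 N, ((γ.1 1 1 : ℤ) : ZMod N) = 1 → φ₁ (Additive.ofMul γ) = 0) ∧
    (∀ γ : Gamma0 N, ((γ.1 1 1 : ℤ) : ZMod N) = 1 → φ₂ (Additive.ofMul γ) = 0) := by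
  have hq := hqp.out.ne_zero
  obtain ⟨Φ, ⟨hΦ1, hΦ2⟩, -⟩ := lra_glue_add hN hNq φ₁ φ₂ hcompat
  have hpar : ∀ γ : Gamma0 N, ((γ : SL(2, ℤ)) : Matrix (Fin 2) (Fin 2) ℤ).trace ^ 2 = 4 →
      Φ (Additive.ofMul ⟨lraCast γ.1, lraCast_mem_lraDelta γ⟩) = 0 := by
    intro γ hγ
    rw [hΦ1]; exact h₁ γ hγ
  have h01 : ∀ γ : SL(2, ℤ), γ ∈ Gamma0 1 := fun γ => by
    rw [lra_Gamma0_mem_iff_dvd]; simp
  constructor
  · refine lri_gamma1_of_gamma φ₁ h₁ ?_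
    intro γ hγ
    have hmem1 : lraCast γ.1 ∈ lraDelta 1 q := lraCast_mem_lraDelta ⟨γ.1, h01 _⟩
    obtain ⟨g, hg⟩ := hsurj _ hmem1
    have hc : LriCong N q (ι g) := by rw [hg]; exact lri_cong_cast hγ
    have hm : ι g ∈ lraDelta N q := by rw [hg]; exact lraCast_mem_lraDelta γ
    have := lri_kills_GN Φ hpar ι hι x₀ hx₀ hpq GN hord g (hGN _ hc) hm
    rw [← hΦ1, ← this]
    congr 2
    exact Subtype.ext hg.symm
  · refine lri_gamma1_of_gamma φ₂ h₂ ?_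
    intro γ hγ
    have hmem1 : (lraConj q hq).symm (lraCast γ.1) ∈ lraDelta 1 q :=
      lraConjCast_mem_lraDelta hq ⟨γ.1, h01 _⟩
    obtain ⟨g, hg⟩ := hsurj _ hmem1
    have hc : LriCong N q (ι g) := by rw [hg]; exact lri_cong_conj hq hγ
    have hm : ι g ∈ lraDelta N q := by rw [hg]; exact lraConjCast_mem_lraDelta hq γ
    have := lri_kills_GN Φ hpar ι hι x₀ hx₀ hpq GN hord g (hGN _ hc) hm
    rw [← hΦ2, ← this]
    congr 2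
    exact Subtype.ext hg.symm

end ihara

end

end Fermat.Agent.LR
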