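/-
LR-CSP (helper4): **Ihara's lemma** for `Γ₀(N)[1/q]`, assembled from
(I) helper6's global Steinberg data in `SL₂(ℤ[1/q]) / Q(N)`, (II)+(III-2) helper3's product and
transfer steps, (III-odd) the local theorem, and (IV) the wiring of `Ihara.lean`.
-/
import Mathlib
import Fermat.Agent.Lib.LR.CSP.Ihara
import Fermat.Agent.Lib.LR.CSP.GlobalSteinberg
import Fermat.Agent.Lib.LR.CSP.Product

set_option autoImplicit false

namespace Fermat.Agent.LR

open Matrix MatrixGroups CongruenceSubgroup ModularCurve.Period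

noncomputable section

variable {N q : ℕ}

/-- `SL₂(ℤ[1/q]) → SL₂(ℚ)`. -/
def lriIota (q : ℕ) : LrgG q →* SL(2, ℚ) := SpecialLinearGroup.map (lrgR q).subtype

theorem lriIota_apply (g : LrgG q) (i j : Fin 2) : lriIota q g i j = ((g i j : lrgR q) : ℚ) := rfl

theorem lriIota_mem (g : LrgG q) : lriIota q g ∈ lraDelta 1 q := by
  choose k m h using fun ij : Fin 2 × Fin 2 => (g ij.1 ij.2).2
  refine ⟨∑ ij, k ij, Matrix.of fun i j => m (i, j) * (q : ℤ) ^ ((∑ ij, k ij) - k (i, j)), ?_,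
    by simp⟩
  intro i j
  have hle : k (i, j) ≤ ∑ ij, k ij := Finset.single_le_sum (fun _ _ => Nat.zero_le _)
    (Finset.mem_univ (i, j))
  have := h (i, j)
  simp only at this
  rw [lriIota_apply, Matrix.of_apply]
  push_cast
  rw [← this, mul_assoc, ← pow_add, Nat.add_sub_cancel' hle]

theorem lriIota_surj {x : SL(2, ℚ)} (hx : x ∈ lraDelta 1 q) : ∃ g : LrgG q, lriIota q g = x := by
  obtain ⟨k, M, hM, -⟩ := hx
  have hmem : ∀ i j, x i j ∈ lrgR q := fun i j => ⟨k, M i j, hM i j⟩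
  have hdet := x.det_coe
  rw [Matrix.det_fin_two] at hdet
  refine ⟨⟨Matrix.of fun i j => ⟨x i j, hmem i j⟩, ?_⟩, ?_⟩
  · rw [Matrix.det_fin_two]
    apply Subtype.ext
    simpa using hdet
  · ext i j
    rw [lriIota_apply]
    rfl

theorem lriIota_XpN (N q : ℕ) : lriIota q (lrgXp ((N : ℕ) : ↥(lrgR q))) = lrsXp (N : ℚ) := by
  ext i j
  rw [lriIota_apply]
  fin_cases i <;> fin_cases j <;> simp [lrgXp, lrsXp]

theorem lri_mem_gammaN (hq : q ≠ 0) (hNq : N.Coprime q) (g : LrgG q)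
    (hg : LriCong N q (lriIota q g)) : g ∈ lrgGammaN (N := N) hq hNq := by
  obtain ⟨k, M, hM, hMN⟩ := hg
  rw [lrgGammaN, MonoidHom.mem_ker]
  have hu : IsUnit ((q : ZMod N) ^ k) := ((ZMod.unitOfCoprime q hNq.symm).isUnit).pow k
  ext i j
  rw [lrgRedSL_apply]
  have e1 : g i j * ((q : ℕ) : lrgR q) ^ k = ((M i j : ℤ) : lrgR q) := by
    apply Subtype.ext
    have := hM i j
    rw [lriIota_apply] at this
    push_cast
    exact this
  have e2 := congrArg (lrgRed hq hNq) e1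
  rw [map_mul, map_pow, lrgRed_natCast, lrgRed_intCast, hMN i j, mul_comm] at e2
  have e3 := hu.mul_left_cancel e2
  rw [e3]
  fin_cases i <;> fin_cases j <;> simp

variable {p : ℕ} [hqp : Fact q.Prime] [hpp : Fact p.Prime]

/-- every element of `Γ_N` has a power of exponent prime to `p` in `Q(N)`. -/
theorem lri_ord (hp2 : p ≠ 2) (hN : N ≠ 0) (hNq : N.Coprime q) (g : LrgG q)
    (hg : g ∈ lrgGammaN (N := N) hqp.out.ne_zero hNq) :
    ∃ m : ℕ, ¬ p ∣ m ∧ g ^ m ∈ Subgroup.normalClosure {lrgXp ((N : ℕ) : ↥(lrgR q))} := by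
  have hq := hqp.out
  have hN' : 0 < N := Nat.pos_of_ne_zero hN
  have hker : lrgMk N q g ∈ (lrgRedBar (N := N) hq.ne_zero hNq).ker := by
    rw [MonoidHom.mem_ker, lrgRedBar_mk]
    exact hg
  obtain ⟨m, hm, hgm⟩ := lrt_kerProp_zmod p hp2 N hN (LrgGbar N q) (lrgData hq hN' hNq)
    (lrgRedBar hq.ne_zero hNq) (lrgRedBar_yp hq.ne_zero hNq) (lrgRedBar_ym hq.ne_zero hNq)
    (lrgData_closure hq hN' hNq) (lrgRedBar_ker_le_center hq hN' hNq) _ hker
  refine ⟨m, hm, ?_⟩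
  rw [← map_pow, lrgMk_eq_one_iff] at hgm
  exact hgm

/-- **Ihara's lemma.** `N` prime to the prime `q`, `p` an odd prime `≠ q`.  If two parabolic
classes `φ₁, φ₂ : Γ₀(N) → 𝔽_p` agree on `Γ₀(Nq)` through the two degeneracy maps
(`φ₁ = φ₂ ∘ lraDeg` on `Γ₀(Nq)`), then both vanish on `{γ ∈ Γ₀(N) : d ≡ 1 mod N}`, i.e. both
factor through `d mod N`. -/
theorem lri_ihara (hp2 : p ≠ 2) (hpq : p ≠ q) (hN : N ≠ 0) (hNq : N.Coprime q)
    (φ₁ φ₂ : Additive ↥(Gamma0 N) →+ ZMod p)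
    (h₁ : IsParabolicHom (Gamma0 N) φ₁) (h₂ : IsParabolicHom (Gamma0 N) φ₂)
    (hcompat : ∀ γ : Gamma0 (N * q),
      φ₁ (Additive.ofMul ⟨γ.1, lraCast_mem_lraA.1 (lraC_le_lraA (lraCast_mem_lraC.2 γ.2))⟩) =
        φ₂ (Additive.ofMul (lraDeg N q hqp.out.ne_zero γ))) :
    (∀ γ : Gamma0 N, ((γ.1 1 1 : ℤ) : ZMod N) = 1 → φ₁ (Additive.ofMul γ) = 0) ∧
    (∀ γ : Gamma0 N, ((γ.1 1 1 : ℤ) : ZMod N) = 1 → φ₂ (Additive.ofMul γ) = 0) :=
  lri_ihara_abs hpq hN hNq (lriIota q) lriIota_mem (fun _ hx => lriIota_surj hx)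
    (lrgXp ((N : ℕ) : ↥(lrgR q))) (lriIota_XpN N q)
    (lrgGammaN (N := N) hqp.out.ne_zero hNq)
    (fun g hg => lri_mem_gammaN hqp.out.ne_zero hNq g hg)
    (fun g hg => lri_ord hp2 hN hNq g hg) φ₁ φ₂ h₁ h₂ hcompat

end

end Fermat.Agent.LR
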