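/-
LR-CSP (helper3): the transfer argument.
* `lrt_pow_eq_one_of_transfer` (LEMMA T): if `H ≤ G` is a commutative subgroup of finite index `m`,
  `G` is generated by elements killed by `n`, then every central `z` satisfies `z ^ (m * n) = 1`.
* `LrtKerProp p A`: for every Steinberg datum over `A` in a group `Y` generated by it, with a
  homomorphism `π : Y → SL₂(A)` with central kernel, every element of `ker π` has order prime to `p`.
* `lrt_kerProp_two_pow`: `LrtKerProp p (ZMod (2 ^ e))` for odd `p` ((III-2) of the F1 plan).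
-/
import Mathlib
import Fermat.Agent.Lib.LR.CSP.LocalOdd

set_option autoImplicit false

namespace Fermat.Agent.LR

open Matrix MatrixGroups

universe u v

open scoped IsMulCommutative in
/-- LEMMA T (transfer–torsion).  If `H ≤ G` is a commutative subgroup of finite index `m`,
`G` is generated by elements killed by `n`, and `z` is central in `G`,
then `z ^ (m * n) = 1`. -/
theorem lrt_pow_eq_one_of_transfer {G : Type*} [Group G] (H : Subgroup G) [H.FiniteIndex]
    [IsMulCommutative H] (S : Set G) (n : ℕ) (hS : Subgroup.closure S = ⊤)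
    (hSn : ∀ s ∈ S, s ^ n = 1) (z : G) (hzc : z ∈ Subgroup.center G) :
    z ^ (H.index * n) = 1 := by
  classical
  set V : G →* H := MonoidHom.transfer (MonoidHom.id H) with hV
  have hall : ∀ g : G, V g ^ n = 1 := by
    intro g
    have hg : g ∈ Subgroup.closure S := by rw [hS]; exact Subgroup.mem_top g
    induction hg using Subgroup.closure_induction with
    | mem s hs => rw [← map_pow, hSn s hs, map_one]
    | one => rw [map_one, one_pow]
    | mul a b _ _ ha hb => rw [map_mul, mul_pow, ha, hb, one_mul]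
    | inv a _ ha => rw [map_inv, inv_pow, ha, inv_one]
  have key : ∀ (k : ℕ) (g₀ : G), g₀⁻¹ * z ^ k * g₀ ∈ H → g₀⁻¹ * z ^ k * g₀ = z ^ k := by
    intro k g₀ _
    have hc : z ^ k ∈ Subgroup.center G := Subgroup.pow_mem _ hzc k
    rw [Subgroup.mem_center_iff] at hc
    rw [mul_assoc, ← hc g₀, inv_mul_cancel_left]
  have hVz : V z = ⟨z ^ H.index, MonoidHom.transfer_eq_pow_aux z key⟩ := by
    rw [hV, MonoidHom.transfer_eq_pow (MonoidHom.id H) z key]; rfl
  have h1 := hall z
  rw [hVz] at h1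
  have h2 := congrArg (Subtype.val) h1
  simpa [pow_mul] using h2

/-- The `p'`-torsion property of the kernel, for Steinberg data over `A`. -/
def LrtKerProp (p : ℕ) (A : Type u) [CommRing A] : Prop :=
  ∀ (Y : Type v) [Group Y] (D : LrsData A Y) (π : Y →* SL(2, A)),
    (∀ t, π (D.yp t) = lrsXp t) → (∀ t, π (D.ym t) = lrsXm t) →
    Subgroup.closure (Set.range D.yp ∪ Set.range D.ym) = ⊤ →
    π.ker ≤ Subgroup.center Y →
    ∀ c ∈ π.ker, ∃ m : ℕ, ¬ p ∣ m ∧ c ^ m = 1

section nsmul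

variable {A : Type*} [CommRing A] {Y : Type*} [Group Y] (D : LrsData A Y)

theorem lrt_yp_nsmul (k : ℕ) (t : A) : D.yp (k • t) = D.yp t ^ k := by
  induction k with
  | zero => rw [zero_smul, D.yp_zero, pow_zero]
  | succ k ih => rw [succ_nsmul, D.yp_add, ih, pow_succ]

theorem lrt_ym_nsmul (k : ℕ) (t : A) : D.ym (k • t) = D.ym t ^ k := by
  induction k with
  | zero => rw [zero_smul, D.ym_zero, pow_zero]
  | succ k ih => rw [succ_nsmul, D.ym_add, ih, pow_succ]

end nsmul

/-! ### the kernel of reduction mod `2` is a `2`-group -/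

theorem lrt_sq_cong {R : Type*} [CommRing R] (X : Matrix (Fin 2) (Fin 2) R) (k : ℕ) :
    (1 + (2 ^ (k + 1) : R) • X) * (1 + (2 ^ (k + 1) : R) • X)
      = 1 + (2 ^ (k + 2) : R) • (X + (2 ^ k : R) • (X * X)) := by
  rw [mul_add, add_mul, add_mul, one_mul, mul_one, one_mul, smul_mul_assoc, mul_smul_comm,
    smul_smul, smul_add, smul_smul]
  have e1 : (2 ^ (k + 1) : R) * 2 ^ (k + 1) = 2 ^ (k + 2) * 2 ^ k := by ring
  have e2 : (2 ^ (k + 2) : R) = 2 ^ (k + 1) + 2 ^ (k + 1) := by ring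
  rw [e1, e2, add_smul]
  abel

theorem lrt_pow_two_pow_cong {R : Type*} [CommRing R] (X : Matrix (Fin 2) (Fin 2) R) (j : ℕ) :
    ∃ X' : Matrix (Fin 2) (Fin 2) R,
      (1 + (2 : R) • X) ^ (2 ^ j) = 1 + (2 ^ (j + 1) : R) • X' := by
  induction j with
  | zero => exact ⟨X, by simp⟩
  | succ j ih =>
    obtain ⟨X', hX'⟩ := ih
    refine ⟨X' + (2 ^ j : R) • (X' * X'), ?_⟩
    rw [pow_succ, pow_mul, hX', pow_two, lrt_sq_cong]

theorem lrt_exists_two_mul {e : ℕ} (he : 0 < e) (a : ZMod (2 ^ e))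
    (ha : ZMod.castHom (dvd_pow_self 2 he.ne') (ZMod 2) a = 0) : ∃ x : ZMod (2 ^ e), a = 2 * x := by
  have h1 : ((a.val : ℕ) : ZMod (2 ^ e)) = a := ZMod.natCast_zmod_val a
  rw [← h1, map_natCast, ZMod.natCast_eq_zero_iff] at ha
  obtain ⟨k, hk⟩ := ha
  refine ⟨(k : ZMod (2 ^ e)), ?_⟩
  rw [← h1, hk]
  push_cast
  ring

/-- reduction `SL₂(ℤ/2^e) → SL₂(ℤ/2)`. -/
def lrtRed2 {e : ℕ} (he : 0 < e) : SL(2, ZMod (2 ^ e)) →* SL(2, ZMod 2) :=
  SpecialLinearGroup.map (ZMod.castHom (dvd_pow_self 2 he.ne') (ZMod 2))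

theorem lrt_ker_red2_pow {e : ℕ} (he : 0 < e) (g : SL(2, ZMod (2 ^ e)))
    (hg : lrtRed2 he g = 1) : g ^ (2 ^ (e - 1)) = 1 := by
  have hent : ∀ i j, ∃ x : ZMod (2 ^ e),
      (g : Matrix (Fin 2) (Fin 2) (ZMod (2 ^ e))) i j - (1 : Matrix (Fin 2) (Fin 2) _) i j
        = 2 * x := by
    intro i j
    apply lrt_exists_two_mul he
    have h1 : ((lrtRed2 he g : SL(2, ZMod 2)) : Matrix (Fin 2) (Fin 2) (ZMod 2)) i j
        = (1 : Matrix (Fin 2) (Fin 2) (ZMod 2)) i j := by rw [hg]; rfl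
    rw [lrtRed2, SpecialLinearGroup.map_apply_coe, RingHom.mapMatrix_apply, Matrix.map_apply]
      at h1
    rw [map_sub, h1]
    by_cases hij : i = j
    · subst hij
      rw [Matrix.one_apply_eq, Matrix.one_apply_eq, map_one, sub_self]
    · rw [Matrix.one_apply_ne hij, Matrix.one_apply_ne hij, map_zero, sub_self]
  choose X hX using hent
  have hgX : (g : Matrix (Fin 2) (Fin 2) (ZMod (2 ^ e))) = 1 + (2 : ZMod (2 ^ e)) • Matrix.of X := by
    ext i j
    rw [Matrix.add_apply, Matrix.smul_apply, Matrix.of_apply, smul_eq_mul, ← hX i j]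
    ring
  obtain ⟨X', hX'⟩ := lrt_pow_two_pow_cong (Matrix.of X) (e - 1)
  have h0 : (2 ^ (e - 1 + 1) : ZMod (2 ^ e)) = 0 := by
    rw [Nat.sub_add_cancel he]
    have := ZMod.natCast_self (2 ^ e)
    push_cast at this
    exact this
  apply Matrix.SpecialLinearGroup.ext
  intro i j
  show ((g : Matrix (Fin 2) (Fin 2) (ZMod (2 ^ e))) ^ (2 ^ (e - 1))) i j
    = (1 : Matrix (Fin 2) (Fin 2) (ZMod (2 ^ e))) i j
  rw [hgX, hX', h0, zero_smul, add_zero]

/-- every `p`-subgroup (`p` odd) of `SL₂(ℤ/2^e)` is cyclic. -/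
theorem lrt_isCyclic_of_isPGroup_two_pow {p : ℕ} [Fact p.Prime] (hp2 : p ≠ 2) {e : ℕ} (he : 0 < e)
    {G : Type*} [Group G] [Finite G] (hG : IsPGroup p G) (ι : G →* SL(2, ZMod (2 ^ e)))
    (hι : Function.Injective ι) : IsCyclic G := by
  classical
  have hpodd : Nat.Coprime 2 p := by
    rw [Nat.coprime_primes Nat.prime_two (Fact.out : p.Prime)]
    exact fun h => hp2 h.symm
  -- `G` injects into `SL₂(𝔽₂)`
  have hinj : Function.Injective ((lrtRed2 he).comp ι) := by
    rw [injective_iff_map_eq_one]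
    intro x hx
    have h1 : (ι x) ^ (2 ^ (e - 1)) = 1 := lrt_ker_red2_pow he (ι x) hx
    have h2 : x ^ (2 ^ (e - 1)) = 1 := by
      apply hι
      rw [map_pow, h1, map_one]
    obtain ⟨k, hk⟩ := hG x
    have h3 : orderOf x ∣ Nat.gcd (2 ^ (e - 1)) (p ^ k) :=
      Nat.dvd_gcd (orderOf_dvd_of_pow_eq_one h2) (orderOf_dvd_of_pow_eq_one hk)
    have h4 : Nat.gcd (2 ^ (e - 1)) (p ^ k) = 1 := Nat.Coprime.pow _ _ hpodd
    rw [h4, Nat.dvd_one, orderOf_eq_one_iff] at h3
    exact h3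
  have hcard : Nat.card G ∣ 6 := by
    have h := Subgroup.card_dvd_of_injective _ hinj
    have h6 : Nat.card (SL(2, ZMod 2)) = 6 := by
      rw [Nat.card_eq_fintype_card]; decide
    rwa [h6] at h
  obtain ⟨k, hk⟩ := hG.exists_card_eq
  have hp3 : 3 ≤ p := by
    have := (Fact.out : p.Prime).two_le
    omega
  rcases k with _ | _ | k
  · rw [pow_zero] at hk
    have : Subsingleton G := (Nat.card_eq_one_iff_unique.1 hk).1
    exact isCyclic_of_subsingleton
  · rw [zero_add, pow_one] at hk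
    exact isCyclic_of_prime_card hk
  · exfalso
    rw [hk] at hcard
    have h9 : p ^ 2 ∣ 6 := (pow_dvd_pow p (by omega : 2 ≤ k + 1 + 1)).trans hcard
    have := Nat.le_of_dvd (by norm_num) h9
    nlinarith

/-- (III-2): the kernel property over `ℤ/2^e`, for odd `p`. -/
theorem lrt_kerProp_two_pow (p : ℕ) [Fact p.Prime] (hp2 : p ≠ 2) (e : ℕ) (he : 0 < e) :
    LrtKerProp.{0, v} p (ZMod (2 ^ e)) := by
  intro Y _ D π _ _ hgen hcen c hc
  classical
  have : NeZero (2 ^ e) := ⟨by positivity⟩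
  let f : Y →* π.range := π.rangeRestrict
  have hf : Function.Surjective f := π.rangeRestrict_surjective
  have hfker : f.ker = π.ker := π.ker_rangeRestrict
  let P : Sylow p π.range := default
  have hPcyc : IsCyclic (P : Subgroup π.range) :=
    lrt_isCyclic_of_isPGroup_two_pow hp2 he P.isPGroup'
      (π.range.subtype.comp (P : Subgroup π.range).subtype)
      (fun a b hab => Subtype.ext (Subtype.ext hab))
  let H : Subgroup Y := (P : Subgroup π.range).comap f
  have hidx : H.index = (P : Subgroup π.range).index := Subgroup.index_comap_of_surjective _ hf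
  have : H.FiniteIndex := ⟨by rw [hidx]; exact Subgroup.index_ne_zero_of_finite⟩
  have : IsMulCommutative H := by
    apply (f.subgroupComap (P : Subgroup π.range)).isMulCommutative_of_isCyclic_of_ker_le_center
    intro a ha
    rw [MonoidHom.mem_ker] at ha
    have h1 : f (a : Y) = 1 := congrArg (Subtype.val) ha
    have h2 : (a : Y) ∈ Subgroup.center Y := hcen (by rw [← hfker]; exact h1)
    rw [Subgroup.mem_center_iff] at h2 ⊢
    intro b
    apply Subtype.ext
    exact h2 (b : Y)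
  have hS : ∀ s ∈ Set.range D.yp ∪ Set.range D.ym, s ^ (2 ^ e) = 1 := by
    have h0 : ∀ t : ZMod (2 ^ e), (2 ^ e) • t = 0 := by
      intro t
      rw [nsmul_eq_mul]
      have := ZMod.natCast_self (2 ^ e)
      rw [this, zero_mul]
    rintro s (⟨t, rfl⟩ | ⟨t, rfl⟩)
    · rw [← lrt_yp_nsmul, h0, D.yp_zero]
    · rw [← lrt_ym_nsmul, h0, D.ym_zero]
  have hz := lrt_pow_eq_one_of_transfer H _ (2 ^ e) hgen hS c (hcen hc)
  refine ⟨H.index * 2 ^ e, ?_, hz⟩
  have hp : p.Prime := Fact.out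
  intro hdvd
  rcases hp.dvd_mul.1 hdvd with h | h
  · rw [hidx] at h
    exact P.not_dvd_index h
  · have := hp.dvd_of_dvd_pow h
    exact hp2 ((Nat.prime_dvd_prime_iff_eq hp Nat.prime_two).1 this)

end Fermat.Agent.LR
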